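import Mathlib

/-!
# Kummer extensions of prime degree
-/

set_option autoImplicit false

open Polynomial Module

namespace Fermat.Agent.CFT.Kummer

section basic

variable {K L : Type*} [Field K] [Field L] [Algebra K L] {p : ℕ}

/-- A convenient package for a Kummer extension of prime degree. -/
structure Data (K L : Type*) [Field K] [Field L] [Algebra K L] (p : ℕ) (ζ a : K) (α : L)
    (σ : L ≃ₐ[K] L) : Prop where
  galois : IsGalois K L
  finrank_eq : finrank K L = p
  pow_eq : α ^ p = algebraMap K L a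
  apply_root : σ α = algebraMap K L ζ * α
  fixed : ∀ x : L, σ x = x → ∃ y : K, algebraMap K L y = x
  gen : ∀ τ : L ≃ₐ[K] L, ∃ i : ℕ, i < p ∧ τ = σ ^ i

theorem minpoly_eq (hp : p.Prime) {a : K}
    (ha : ∀ c : K, c ^ p ≠ a) {α : L} (hα : α ^ p = algebraMap K L a) :
    minpoly K α = X ^ p - C a := by
  symm
  apply minpoly.eq_of_irreducible_of_monic (X_pow_sub_C_irreducible_of_prime hp ha)
  · simp [hα]
  · exact monic_X_pow_sub_C _ hp.ne_zero

theorem isSplittingField (hp : p.Prime) {ζ : K} (hζ : IsPrimitiveRoot ζ p) {a : K}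
    (ha : ∀ c : K, c ^ p ≠ a) {α : L} (hα : α ^ p = algebraMap K L a) (hd : finrank K L = p) :
    IsSplittingField K L (X ^ p - C a) := by
  have : FiniteDimensional K L := FiniteDimensional.of_finrank_pos (by rw [hd]; exact hp.pos)
  have hmin := minpoly_eq hp ha hα
  have hirr : Irreducible (X ^ p - C a) := X_pow_sub_C_irreducible_of_prime hp ha
  have hNZ : NeZero p := ⟨hp.ne_zero⟩
  have htop : IntermediateField.adjoin K {α} = ⊤ := by
    apply IntermediateField.eq_of_le_of_finrank_le le_top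
    rw [IntermediateField.adjoin.finrank (IsIntegral.of_finite K α), hmin,
      natDegree_X_pow_sub_C, IntermediateField.finrank_top', hd]
  subst hd
  exact isSplittingField_X_pow_sub_C_of_root_adjoin_eq_top ⟨ζ, (mem_primitiveRoots hp.pos).2 hζ⟩
    hα htop

theorem exists_data (hp : p.Prime) {ζ : K} (hζ : IsPrimitiveRoot ζ p) {a : K}
    (ha : ∀ c : K, c ^ p ≠ a) {α : L} (hα : α ^ p = algebraMap K L a) (hd : finrank K L = p) :
    ∃ σ : L ≃ₐ[K] L, Data K L p ζ a α σ := by
  have hNZ : NeZero p := ⟨hp.ne_zero⟩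
  have hirr : Irreducible (X ^ p - C a) := X_pow_sub_C_irreducible_of_prime hp ha
  have hsf := isSplittingField hp hζ ha hα hd
  have hgal : IsGalois K L :=
    isGalois_of_isSplittingField_X_pow_sub_C ⟨ζ, (mem_primitiveRoots hp.pos).2 hζ⟩ hirr L
  have : FiniteDimensional K L := FiniteDimensional.of_finrank_pos (by rw [hd]; exact hp.pos)
  set e := autEquivZmod hirr L hζ with he
  have hgen : ∀ τ : L ≃ₐ[K] L, ∃ i : ℕ, i < p ∧ τ = (e.symm (Multiplicative.ofAdd 1)) ^ i := by
    intro τ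
    refine ⟨(Multiplicative.toAdd (e τ)).val, ZMod.val_lt _, ?_⟩
    apply e.injective
    rw [map_pow, MulEquiv.apply_symm_apply, ← ofAdd_nsmul]
    simp
  refine ⟨e.symm (Multiplicative.ofAdd 1), hgal, hd, hα, ?_, ?_, hgen⟩
  · have := autEquivZmod_symm_apply_natCast hirr L hα hζ 1
    rw [Nat.cast_one, pow_one, Algebra.smul_def] at this
    exact this
  · intro x hx
    have h1 : ∀ τ : L ≃ₐ[K] L, τ x = x := by
      intro τ
      obtain ⟨i, -, rfl⟩ := hgen τ
      clear he
      induction i with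
      | zero => simp
      | succ i ih => rw [pow_succ, AlgEquiv.mul_apply, hx, ih]
    have h2 := (IsGalois.mem_range_algebraMap_iff_fixed (F := K) x).2 h1
    exact h2

variable (K L) in
theorem exists_adjoinRoot (hp : p.Prime) {a : K} (ha : ∀ c : K, c ^ p ≠ a) :
    Fact (Irreducible (X ^ p - C a)) := ⟨X_pow_sub_C_irreducible_of_prime hp ha⟩

theorem finrank_adjoinRoot (hp : p.Prime) {a : K} :
    finrank K (AdjoinRoot (X ^ p - C a)) = p := by
  rw [(AdjoinRoot.powerBasis' (monic_X_pow_sub_C a hp.ne_zero)).finrank]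
  simp

theorem root_pow {a : K} : (AdjoinRoot.root (X ^ p - C a)) ^ p =
    algebraMap K (AdjoinRoot (X ^ p - C a)) a := by
  have := AdjoinRoot.eval₂_root (X ^ p - C a)
  rw [eval₂_sub, eval₂_X_pow, eval₂_C, sub_eq_zero] at this
  exact this

/-- Two `p`-th roots differ by a power of `ζ`. -/
theorem eq_pow_mul_of_pow_eq {ζ : K} (hζ : IsPrimitiveRoot ζ p) (hp0 : 0 < p) {x y : L}
    (h : x ^ p = y ^ p) : ∃ i < p, x = algebraMap K L ζ ^ i * y := by
  by_cases hy : y = 0
  · subst hy
    rw [zero_pow hp0.ne'] at h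
    exact ⟨0, hp0, by simp [pow_eq_zero_iff hp0.ne' |>.1 h]⟩
  have hζL : IsPrimitiveRoot (algebraMap K L ζ) p :=
    hζ.map_of_injective (algebraMap K L).injective
  have : NeZero p := ⟨hp0.ne'⟩
  obtain ⟨i, hi, hi2⟩ := hζL.eq_pow_of_pow_eq_one (ξ := x / y) (by
    rw [div_pow, h, div_self (pow_ne_zero _ hy)])
  exact ⟨i, hi, by rw [hi2, div_mul_cancel₀ _ hy]⟩

namespace Data

variable {ζ a : K} {α : L} {σ : L ≃ₐ[K] L}

theorem pow_apply_root (h : Data K L p ζ a α σ) (i : ℕ) :
    (σ ^ i) α = algebraMap K L ζ ^ i * α := by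
  induction i with
  | zero => simp
  | succ i ih => rw [pow_succ', AlgEquiv.mul_apply, ih, map_mul, map_pow, AlgEquiv.commutes,
      h.apply_root]; ring

/-- Kummer: the elements of `K` which become `p`-th powers in `K(α)`. -/
theorem exists_of_pow_eq (h : Data K L p ζ a α σ) (hp : p.Prime) (hζ : IsPrimitiveRoot ζ p)
    (hα0 : α ≠ 0) {b : K} {β : L}
    (hβ : β ^ p = algebraMap K L b) : ∃ i < p, ∃ c : K, b = a ^ i * c ^ p := by
  obtain ⟨i, hi, hi2⟩ := eq_pow_mul_of_pow_eq (K := K) (x := σ β) (y := β) hζ hp.pos (by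
    rw [← map_pow, hβ, AlgEquiv.commutes])
  have hσ : σ (β / α ^ i) = β / α ^ i := by
    rw [map_div₀, map_pow, h.apply_root, hi2, mul_pow]
    have : algebraMap K L ζ ^ i ≠ 0 :=
      pow_ne_zero _ ((_root_.map_ne_zero _).2 (hζ.ne_zero hp.ne_zero))
    rw [mul_div_mul_left _ _ this]
  obtain ⟨c, hc⟩ := h.fixed _ hσ
  refine ⟨i, hi, c, ?_⟩
  apply (algebraMap K L).injective
  have ha0 : algebraMap K L a ≠ 0 := by rw [← h.pow_eq]; exact pow_ne_zero _ hα0
  rw [← hβ, map_mul, map_pow, map_pow, hc, div_pow, ← pow_mul, mul_comm i p, pow_mul, h.pow_eq]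
  field_simp

end Data

end basic

end Fermat.Agent.CFT.Kummer
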