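import Mathlib
import Fermat.Agent.Density.Frobenius
import Fermat.Agent.CFT.Kummer

/-!
# Choosing auxiliary primes with prescribed `p`-th power residue behaviour
-/

set_option autoImplicit false

open NumberField IsDedekindDomain Module Polynomial Fermat.Agent.Density

namespace Fermat.Agent.CFT.ChoosePrime

section powmod

variable {K : Type*} [Field K] [NumberField K]

/-- `e` is congruent to a `p`-th power modulo `P` (meaningful for `P`-integral `e`). -/
def IsPowMod (P : HeightOneSpectrum (𝓞 K)) (p : ℕ) (e : K) : Prop :=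
  ∃ c : K, P.valuation K (e - c ^ p) < 1

theorem valuation_pow_sub_pow_lt (P : HeightOneSpectrum (𝓞 K)) {x y : K}
    (hx : P.valuation K x ≤ 1) (hy : P.valuation K y ≤ 1) (h : P.valuation K (x - y) < 1) (n : ℕ) :
    P.valuation K (x ^ n - y ^ n) < 1 := by
  induction n with
  | zero => simp
  | succ n ih =>
    have h1 : x ^ (n + 1) - y ^ (n + 1) = x * (x ^ n - y ^ n) + (x - y) * y ^ n := by ring
    rw [h1]
    refine (P.valuation K).map_add_lt ?_ ?_
    · rw [map_mul]
      exact mul_lt_one_of_nonneg_of_lt_one_right hx zero_le ih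
    · rw [map_mul, map_pow]
      exact mul_lt_one_of_nonneg_of_lt_one_left zero_le h (pow_le_one₀ zero_le hy)

theorem IsPowMod.exists_int {P : HeightOneSpectrum (𝓞 K)} {p : ℕ} (hp : p ≠ 0) {e : K}
    (he : P.valuation K e ≤ 1) (h : IsPowMod P p e) :
    ∃ c : 𝓞 K, P.valuation K (e - (algebraMap (𝓞 K) K c) ^ p) < 1 := by
  obtain ⟨c, hc⟩ := h
  have hc1 : P.valuation K c ≤ 1 := by
    have h1 : c ^ p = e - (e - c ^ p) := by ring
    have h2 : P.valuation K (c ^ p) ≤ 1 := by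
      rw [h1]
      exact (P.valuation K).map_sub_le he hc.le
    rw [map_pow] at h2
    exact (pow_le_one_iff_of_nonneg zero_le hp).1 h2
  obtain ⟨c', hc'⟩ := P.exists_valuation_sub_lt_of_integer (K := K) hc1 (γ := 1)
  rw [Units.val_one] at hc'
  refine ⟨c', ?_⟩
  have h3 : e - (algebraMap (𝓞 K) K c') ^ p =
    (e - c ^ p) - ((algebraMap (𝓞 K) K c') ^ p - c ^ p) := by ring
  rw [h3]
  exact (P.valuation K).map_sub_lt hc
    (valuation_pow_sub_pow_lt P (P.valuation_le_one _) hc1 hc' p)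

theorem IsPowMod.mul_pow {P : HeightOneSpectrum (𝓞 K)} {p : ℕ} {e d : K}
    (hd : P.valuation K d ≤ 1) (h : IsPowMod P p e) : IsPowMod P p (e * d ^ p) := by
  obtain ⟨c, hc⟩ := h
  refine ⟨c * d, ?_⟩
  have h1 : e * d ^ p - (c * d) ^ p = (e - c ^ p) * d ^ p := by ring
  rw [h1, map_mul, map_pow]
  exact mul_lt_one_of_nonneg_of_lt_one_left zero_le hc (pow_le_one₀ zero_le hd)

theorem IsPowMod.mul {P : HeightOneSpectrum (𝓞 K)} {p : ℕ} (hp : p ≠ 0) {e f : K}
    (he : P.valuation K e ≤ 1) (hf : P.valuation K f ≤ 1)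
    (h : IsPowMod P p e) (h' : IsPowMod P p f) : IsPowMod P p (e * f) := by
  obtain ⟨c, hc⟩ := h.exists_int hp he
  obtain ⟨d, hd⟩ := h'.exists_int hp hf
  refine ⟨algebraMap (𝓞 K) K c * algebraMap (𝓞 K) K d, ?_⟩
  have h1 : e * f - (algebraMap (𝓞 K) K c * algebraMap (𝓞 K) K d) ^ p =
    (e - (algebraMap (𝓞 K) K c) ^ p) * f +
      (algebraMap (𝓞 K) K c) ^ p * (f - (algebraMap (𝓞 K) K d) ^ p) := by ring
  rw [h1]
  refine (P.valuation K).map_add_lt ?_ ?_
  · rw [map_mul]
    exact mul_lt_one_of_nonneg_of_lt_one_left zero_le hc hf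
  · rw [map_mul, map_pow]
    exact mul_lt_one_of_nonneg_of_lt_one_right (pow_le_one₀ zero_le (P.valuation_le_one _))
      zero_le hd

theorem isPowMod_pow (P : HeightOneSpectrum (𝓞 K)) (p : ℕ) (c : K) : IsPowMod P p (c ^ p) :=
  ⟨c, by simp⟩

end powmod

section core

variable {K : Type*} [Field K] [NumberField K] {p : ℕ}

theorem natCast_mem_of_root_sub_one_mem {R : Type*} [CommRing R] [IsDomain R] {ζ : R}
    (hp : 1 < p) (hζ : IsPrimitiveRoot ζ p) (I : Ideal R) (h : ζ - 1 ∈ I) : (p : R) ∈ I := by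
  have h1 : ∑ i ∈ Finset.range p, ζ ^ i = 0 := hζ.geom_sum_eq_zero hp
  have h2 : (p : R) = ∑ i ∈ Finset.range p, (1 - ζ ^ i) := by
    rw [Finset.sum_sub_distrib, h1]; simp
  rw [h2]
  refine I.sum_mem fun i _ ↦ ?_
  have h3 : 1 - ζ ^ i = -(ζ - 1) * ∑ j ∈ Finset.range i, ζ ^ j := by
    rw [neg_mul, mul_geom_sum]; ring
  rw [h3]
  exact I.mul_mem_right _ (I.neg_mem h)

/-- Key existence statement, integral form. -/
theorem exists_prime_int (hp : p.Prime) {ζ : K} (hζ : IsPrimitiveRoot ζ p) (a : 𝓞 K)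
    (ha : ∀ c : K, c ^ p ≠ a) (B : Set (HeightOneSpectrum (𝓞 K))) (hB : B.Finite) :
    ∃ P : HeightOneSpectrum (𝓞 K), P ∉ B ∧ (Ideal.absNorm P.asIdeal).Prime ∧
      a ∉ P.asIdeal ∧ ∀ c : 𝓞 K, a - c ^ p ∉ P.asIdeal := by
  classical
  have ha0 : a ≠ 0 := by rintro rfl; exact ha 0 (by simp [hp.ne_zero])
  have : Fact (Irreducible (X ^ p - C (a : K))) := ⟨X_pow_sub_C_irreducible_of_prime hp ha⟩
  set L := AdjoinRoot (X ^ p - C (a : K)) with hL
  set α : L := AdjoinRoot.root (X ^ p - C (a : K)) with hα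
  have hαp : α ^ p = algebraMap K L a := Kummer.root_pow
  have hd : finrank K L = p := Kummer.finrank_adjoinRoot hp
  have hfin : FiniteDimensional K L := FiniteDimensional.of_finrank_pos (by rw [hd]; exact hp.pos)
  have : NumberField L := NumberField.of_module_finite K L
  obtain ⟨σ, hσ⟩ := Kummer.exists_data hp hζ ha hαp hd
  have hgal := hσ.galois
  have hcard : Nat.card (L ≃ₐ[K] L) = p := by rw [IsGalois.card_aut_eq_finrank, hd]
  have : Fact p.Prime := ⟨hp⟩
  have hcyc : IsCyclic (L ≃ₐ[K] L) := isCyclic_of_prime_card hcard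
  let hcomm : CommGroup (L ≃ₐ[K] L) := IsCyclic.commGroup
  have hdens := density_frob_gen (K := K) (L := L) (L ≃ₐ[K] L)
  have hδ : (0 : ℝ) < ((Nat.card (L ≃ₐ[K] L)).totient / (Nat.card (L ≃ₐ[K] L)) : ℝ) := by
    rw [hcard]
    have := Nat.totient_pos.2 hp.pos
    have := hp.pos
    positivity
  have hpK : (p : 𝓞 K) ≠ 0 := by exact_mod_cast hp.ne_zero
  have hB1 : {P : HeightOneSpectrum (𝓞 K) | P.asIdeal ∣ Ideal.span {(p : 𝓞 K)}}.Finite :=
    Ideal.finite_factors (by rw [Submodule.zero_eq_bot, Ne, Ideal.span_singleton_eq_bot]; exact hpK)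
  have hB2 : {P : HeightOneSpectrum (𝓞 K) | P.asIdeal ∣ Ideal.span {a}}.Finite :=
    Ideal.finite_factors (by rw [Submodule.zero_eq_bot, Ne, Ideal.span_singleton_eq_bot]; exact ha0)
  obtain ⟨P, hPT, hPB, hPp⟩ := exists_prime_of_density _ hδ hdens _ ((hB.union hB1).union hB2)
  simp only [Set.mem_union, Set.mem_ofPred_eq, Ideal.dvd_span_singleton, not_or] at hPB
  obtain ⟨⟨hPB, hPp'⟩, hPa⟩ := hPB
  refine ⟨P, hPB, hPp, hPa, ?_⟩
  intro c hc
  set τ : L ≃ₐ[K] L := frob L (L ≃ₐ[K] L) P with hτ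
  have hτo : orderOf τ = p := hPT.trans hcard
  let Q : Above L P := ⟨chosenAbove L P, below_chosenAbove P⟩
  have hQP : Q.1.asIdeal.under (𝓞 K) = P.asIdeal := congrArg HeightOneSpectrum.asIdeal Q.2
  have hmemP : ∀ x : 𝓞 K, algebraMap (𝓞 K) (𝓞 L) x ∈ Q.1.asIdeal ↔ x ∈ P.asIdeal := by
    intro x
    rw [← hQP]
    rfl
  have hfrob : ∀ x : 𝓞 L, τ • x - x ^ (Ideal.absNorm P.asIdeal) ∈ Q.1.asIdeal :=
    frob_spec' (L ≃ₐ[K] L) P Q
  have hαint : IsIntegral ℤ α := by
    have h1 : IsIntegral ℤ (α ^ p) := by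
      rw [hαp]
      exact (a.isIntegral_coe).map (algebraMap K L).toIntAlgHom
    exact h1.of_pow hp.pos
  let α' : 𝓞 L := ⟨α, hαint⟩
  have hζint : IsIntegral ℤ ζ := hζ.isIntegral hp.pos
  let ζ' : 𝓞 K := ⟨ζ, hζint⟩
  have hζ' : IsPrimitiveRoot ζ' p :=
    IsPrimitiveRoot.of_map_of_injective (f := algebraMap (𝓞 K) K) hζ
      (FaithfulSMul.algebraMap_injective (𝓞 K) K)
  have hζL : IsPrimitiveRoot (algebraMap (𝓞 K) (𝓞 L) ζ') p :=
    hζ'.map_of_injective (FaithfulSMul.algebraMap_injective (𝓞 K) (𝓞 L))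
  have hα'p : α' ^ p = algebraMap (𝓞 K) (𝓞 L) a := by
    apply FaithfulSMul.algebraMap_injective (𝓞 L) L
    rw [map_pow, ← IsScalarTower.algebraMap_apply, IsScalarTower.algebraMap_apply (𝓞 K) K L]
    exact hαp
  have hprodmem : ∏ η ∈ nthRootsFinset p (1 : 𝓞 L), (α' - η * algebraMap (𝓞 K) (𝓞 L) c) ∈
      Q.1.asIdeal := by
    rw [← hζL.pow_sub_pow_eq_prod_sub_mul _ _ hp.pos, hα'p, ← map_pow, ← map_sub, hmemP]
    exact hc
  have hQprime := Q.1.isPrime
  obtain ⟨η, hη1, hη2⟩ := (Ideal.IsPrime.prod_mem_iff).1 hprodmem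
  rw [mem_nthRootsFinset hp.pos] at hη1
  have hNZ : NeZero p := ⟨hp.ne_zero⟩
  obtain ⟨i, -, hi⟩ := hζL.eq_pow_of_pow_eq_one hη1
  -- `t = ζ^i c ∈ 𝓞 K`
  set t : 𝓞 K := ζ' ^ i * c with ht
  have htα : α' - algebraMap (𝓞 K) (𝓞 L) t ∈ Q.1.asIdeal := by
    rw [ht, map_mul, map_pow, hi]; exact hη2
  set N := Ideal.absNorm P.asIdeal with hN
  have h1 := hfrob α'
  have h2 := hfrob (algebraMap (𝓞 K) (𝓞 L) t)
  have h3 : α' ^ N - (algebraMap (𝓞 K) (𝓞 L) t) ^ N ∈ Q.1.asIdeal :=
    Ideal.mem_of_dvd _ (sub_dvd_pow_sub_pow _ _ _) htα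
  have hsmul : ∀ x : 𝓞 L, algebraMap (𝓞 L) L (τ • x) = τ (algebraMap (𝓞 L) L x) :=
    fun x ↦ algebraMap.smul' _ _ _
  have h4 : τ • (algebraMap (𝓞 K) (𝓞 L) t) = algebraMap (𝓞 K) (𝓞 L) t := by
    apply FaithfulSMul.algebraMap_injective (𝓞 L) L
    rw [hsmul, ← IsScalarTower.algebraMap_apply, IsScalarTower.algebraMap_apply (𝓞 K) K L,
      AlgEquiv.commutes]
  rw [h4] at h2
  have h5 : τ • α' - α' ∈ Q.1.asIdeal := by
    have : τ • α' - α' = (τ • α' - α' ^ N) + (α' ^ N - (algebraMap (𝓞 K) (𝓞 L) t) ^ N) -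
      (algebraMap (𝓞 K) (𝓞 L) t - (algebraMap (𝓞 K) (𝓞 L) t) ^ N) -
      (α' - algebraMap (𝓞 K) (𝓞 L) t) := by ring
    rw [this]
    exact sub_mem (sub_mem (add_mem h1 h3) h2) htα
  obtain ⟨j, hjp, hj⟩ := hσ.gen τ
  have hj0 : 0 < j := by
    rcases Nat.eq_zero_or_pos j with h | h
    · rw [h, pow_zero] at hj
      rw [hj, orderOf_one] at hτo
      exact absurd hτo.symm hp.one_lt.ne'
    · exact h
  have h6 : τ • α' = algebraMap (𝓞 K) (𝓞 L) (ζ' ^ j) * α' := by
    apply FaithfulSMul.algebraMap_injective (𝓞 L) L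
    rw [hsmul, map_mul, ← IsScalarTower.algebraMap_apply, IsScalarTower.algebraMap_apply (𝓞 K) K L,
      map_pow, map_pow]
    exact (hj ▸ hσ.pow_apply_root j : τ α = _)
  rw [h6] at h5
  have h7 : (algebraMap (𝓞 K) (𝓞 L) (ζ' ^ j - 1)) * α' ∈ Q.1.asIdeal := by
    rw [map_sub, map_one, sub_mul, one_mul]; exact h5
  rcases hQprime.mem_or_mem h7 with h8 | h8
  · rw [hmemP] at h8
    have hcop : Nat.Coprime j p := (Nat.coprime_of_lt_prime hj0.ne' hjp hp).symm
    exact hPp' (natCast_mem_of_root_sub_one_mem hp.one_lt (hζ'.pow_of_coprime j hcop) _ h8)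
  · have h9 := Ideal.pow_mem_of_mem _ h8 p hp.pos
    rw [hα'p, hmemP] at h9
    exact hPa h9

/-- finiteness of the support -/
theorem finite_valuation_ne_one (x : Kˣ) :
    {P : HeightOneSpectrum (𝓞 K) | P.valuation K (x : K) ≠ 1}.Finite := by
  have h1 := HeightOneSpectrum.Support.finite (𝓞 K) (x : K)
  have h2 := HeightOneSpectrum.Support.finite (𝓞 K) ((x : K)⁻¹)
  refine (h1.union h2).subset ?_
  intro P hP
  rcases lt_or_gt_of_ne hP with h | h
  · right
    change 1 < P.valuation K ((x : K)⁻¹)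
    rw [map_inv₀]
    exact (one_lt_inv₀ (by simp [zero_lt_iff])).2 h
  · left
    exact h

/-- one element, general form -/
theorem exists_prime_unit (hp : p.Prime) {ζ : K} (hζ : IsPrimitiveRoot ζ p) (e : Kˣ)
    (he : ∀ c : K, c ^ p ≠ e) (B : Set (HeightOneSpectrum (𝓞 K))) (hB : B.Finite) :
    ∃ P : HeightOneSpectrum (𝓞 K), P ∉ B ∧ (Ideal.absNorm P.asIdeal).Prime ∧
      P.valuation K (e : K) = 1 ∧ ¬ IsPowMod P p (e : K) := by
  obtain ⟨n, d, hd, hnd⟩ := IsFractionRing.div_surjective (A := 𝓞 K) (e : K)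
  have hd0 : d ≠ 0 := nonZeroDivisors.ne_zero hd
  have hdK : algebraMap (𝓞 K) K d ≠ 0 := by rwa [Ne, FaithfulSMul.algebraMap_eq_zero_iff]
  set a : 𝓞 K := n * d ^ (p - 1) with ha
  have hae : algebraMap (𝓞 K) K a = e * (algebraMap (𝓞 K) K d) ^ p := by
    rw [ha, map_mul, map_pow, ← hnd]
    obtain ⟨m, hm⟩ : ∃ m, p = m + 1 := ⟨p - 1, (Nat.sub_add_cancel hp.one_le).symm⟩
    rw [hm, Nat.add_sub_cancel, pow_succ]
    field_simp
  have hanp : ∀ c : K, c ^ p ≠ a := by
    intro c hc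
    apply he (c / algebraMap (𝓞 K) K d)
    rw [div_pow, hc]
    change algebraMap (𝓞 K) K a / _ = _
    rw [hae, mul_div_assoc, div_self (pow_ne_zero _ hdK), mul_one]
  obtain ⟨P, hPB, hPp, hPa, hPc⟩ := exists_prime_int hp hζ a hanp
    (B ∪ {P | P.valuation K ((Units.mk0 _ hdK : Kˣ) : K) ≠ 1})
    (hB.union (finite_valuation_ne_one _))
  simp only [Set.mem_union, Set.mem_ofPred_eq, not_or, not_not, Units.val_mk0] at hPB
  obtain ⟨hPB, hPd⟩ := hPB
  have hva : P.valuation K (algebraMap (𝓞 K) K a) = 1 :=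
    (P.valuation_eq_one_iff_notMem (K := K)).2 hPa
  have hve : P.valuation K (e : K) = 1 := by
    rw [hae, map_mul, map_pow, hPd, one_pow, mul_one] at hva
    exact hva
  refine ⟨P, hPB, hPp, hve, ?_⟩
  intro h
  have h1 := h.mul_pow hPd.le
  rw [← hae] at h1
  obtain ⟨c, hc⟩ := h1.exists_int hp.ne_zero hva.le
  rw [← map_pow, ← map_sub, HeightOneSpectrum.valuation_lt_one_iff_mem] at hc
  exact hPc c hc

section ext

variable {L : Type*} [Field L] [NumberField L] [Algebra K L]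

theorem valuation_lt_one_iff_below (Q : HeightOneSpectrum (𝓞 L)) (x : K) :
    Q.valuation L (algebraMap K L x) < 1 ↔ (below K Q).valuation K x < 1 := by
  have : Q.asIdeal.LiesOver (below K Q).asIdeal := ⟨rfl⟩
  rw [← HeightOneSpectrum.valuation_liesOver L (below K Q) Q x]
  have h0 : (below K Q).asIdeal.ramificationIdx' Q.asIdeal ≠ 0 :=
    Ideal.IsDedekindDomain.ramificationIdx'_ne_zero_of_liesOver Q.asIdeal (below K Q).ne_bot
  exact pow_lt_one_iff_of_nonneg zero_le h0

theorem valuation_eq_one_iff_below (Q : HeightOneSpectrum (𝓞 L)) (x : K) :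
    Q.valuation L (algebraMap K L x) = 1 ↔ (below K Q).valuation K x = 1 := by
  have : Q.asIdeal.LiesOver (below K Q).asIdeal := ⟨rfl⟩
  rw [← HeightOneSpectrum.valuation_liesOver L (below K Q) Q x]
  have h0 : (below K Q).asIdeal.ramificationIdx' Q.asIdeal ≠ 0 :=
    Ideal.IsDedekindDomain.ramificationIdx'_ne_zero_of_liesOver Q.asIdeal (below K Q).ne_bot
  exact pow_eq_one_iff_of_nonneg zero_le h0

/-- a prime of prime absolute norm has the same residue field as the prime below -/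
theorem surjective_of_absNorm_prime (Q : HeightOneSpectrum (𝓞 L))
    (hQ : (Ideal.absNorm Q.asIdeal).Prime) :
    (Ideal.absNorm (below K Q).asIdeal).Prime ∧
      ∀ y : 𝓞 L, ∃ x : 𝓞 K, y - algebraMap (𝓞 K) (𝓞 L) x ∈ Q.asIdeal := by
  have hlo : Q.asIdeal.LiesOver (below K Q).asIdeal := ⟨rfl⟩
  let f : 𝓞 K ⧸ (below K Q).asIdeal →+* 𝓞 L ⧸ Q.asIdeal :=
    Ideal.quotientMap Q.asIdeal (algebraMap (𝓞 K) (𝓞 L)) (le_of_eq rfl)
  have hf : Function.Injective f := Ideal.quotientMap_injective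
  have hfinL : Finite (𝓞 L ⧸ Q.asIdeal) := Ring.HasFiniteQuotients.finiteQuotient Q.ne_bot
  have hfinK : Finite (𝓞 K ⧸ (below K Q).asIdeal) :=
    Ring.HasFiniteQuotients.finiteQuotient (below K Q).ne_bot
  have h1 : Ideal.absNorm Q.asIdeal = Nat.card (𝓞 L ⧸ Q.asIdeal) := rfl
  have h2 : Ideal.absNorm (below K Q).asIdeal = Nat.card (𝓞 K ⧸ (below K Q).asIdeal) := rfl
  have h3 : Nat.card (𝓞 K ⧸ (below K Q).asIdeal) ∣ Nat.card (𝓞 L ⧸ Q.asIdeal) := by
    have := AddSubgroup.card_addSubgroup_dvd_card f.toAddMonoidHom.range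
    rwa [← Nat.card_congr (AddMonoidHom.ofInjective (f := f.toAddMonoidHom) hf).toEquiv] at this
  have hprime := (below K Q).isPrime
  have h4 : Nat.card (𝓞 K ⧸ (below K Q).asIdeal) ≠ 1 := by
    have : Nontrivial (𝓞 K ⧸ (below K Q).asIdeal) :=
      Ideal.Quotient.nontrivial_iff.2 hprime.ne_top
    exact Finite.one_lt_card.ne'
  have h5 : Nat.card (𝓞 K ⧸ (below K Q).asIdeal) = Nat.card (𝓞 L ⧸ Q.asIdeal) := by
    rw [h1] at hQ
    exact (hQ.eq_one_or_self_of_dvd _ h3).resolve_left h4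
  refine ⟨by rw [h2, h5, ← h1]; exact hQ, ?_⟩
  have hsurj : Function.Surjective f :=
    (Function.Injective.bijective_of_nat_card_le hf h5.ge).2
  intro y
  obtain ⟨x, hx⟩ := hsurj (Ideal.Quotient.mk _ y)
  obtain ⟨x, rfl⟩ := Ideal.Quotient.mk_surjective x
  refine ⟨x, ?_⟩
  rw [Ideal.quotientMap_mk] at hx
  rw [← Ideal.Quotient.eq]
  exact hx.symm

theorem isPowMod_below (Q : HeightOneSpectrum (𝓞 L)) (hQ : (Ideal.absNorm Q.asIdeal).Prime)
    (hp : p ≠ 0) {e : K} (he : (below K Q).valuation K e = 1) :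
    IsPowMod Q p (algebraMap K L e) ↔ IsPowMod (below K Q) p e := by
  constructor
  · intro h
    obtain ⟨c, hc⟩ := h.exists_int hp ((valuation_eq_one_iff_below Q e).2 he).le
    obtain ⟨x, hx⟩ := (surjective_of_absNorm_prime (K := K) Q hQ).2 c
    refine ⟨algebraMap (𝓞 K) K x, ?_⟩
    rw [← valuation_lt_one_iff_below, map_sub, map_pow]
    have h1 : algebraMap K L (algebraMap (𝓞 K) K x) =
        algebraMap (𝓞 L) L (algebraMap (𝓞 K) (𝓞 L) x) := by
      rw [← IsScalarTower.algebraMap_apply, ← IsScalarTower.algebraMap_apply]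
    have h2 : algebraMap K L e - (algebraMap K L (algebraMap (𝓞 K) K x)) ^ p =
      (algebraMap K L e - (algebraMap (𝓞 L) L c) ^ p) +
        ((algebraMap (𝓞 L) L c) ^ p - (algebraMap (𝓞 L) L (algebraMap (𝓞 K) (𝓞 L) x)) ^ p) := by
      rw [h1]; ring
    rw [h2]
    refine (Q.valuation L).map_add_lt hc ?_
    refine valuation_pow_sub_pow_lt Q (Q.valuation_le_one _) (Q.valuation_le_one _) ?_ p
    rw [← map_sub, HeightOneSpectrum.valuation_lt_one_iff_mem]
    exact hx
  · rintro ⟨c, hc⟩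
    refine ⟨algebraMap K L c, ?_⟩
    rw [← map_pow, ← map_sub, valuation_lt_one_iff_below]
    exact hc

variable (K L) in
theorem finite_preimage_below (B : Set (HeightOneSpectrum (𝓞 K))) (hB : B.Finite) :
    (below K ⁻¹' B : Set (HeightOneSpectrum (𝓞 L))).Finite := by
  refine Set.Finite.preimage' hB fun P _ ↦ ?_
  have : Finite (below K ⁻¹' {P} : Set (HeightOneSpectrum (𝓞 L))) :=
    inferInstanceAs (Finite (Above L P))
  exact Set.toFinite _

end ext

end core

section induction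

/-- **Choice of auxiliary primes.** If `e` is not in the group generated by `l` and the `p`-th
powers, there is a prime `P` (outside any finite set, of prime norm) modulo which all the elements
of `l` are `p`-th powers and `e` is not a `p`-th power. -/
theorem exists_prime {p : ℕ} (hp : p.Prime) (n : ℕ) :
    ∀ (K : Type*) [Field K] [NumberField K] {ζ : K} (_ : IsPrimitiveRoot ζ p) (e : Kˣ)
      (l : List Kˣ) (_ : l.length = n)
      (_ : e ∉ Subgroup.closure {x | x ∈ l} ⊔ (powMonoidHom p : Kˣ →* Kˣ).range)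
      (B : Set (HeightOneSpectrum (𝓞 K))) (_ : B.Finite),
    ∃ P : HeightOneSpectrum (𝓞 K), P ∉ B ∧ (Ideal.absNorm P.asIdeal).Prime ∧
      P.valuation K (e : K) = 1 ∧ ¬ IsPowMod P p (e : K) ∧
      ∀ f ∈ l, P.valuation K (f : K) = 1 ∧ IsPowMod P p (f : K) := by
  induction n with
  | zero =>
    intro K _ _ ζ hζ e l hl he B hB
    obtain rfl := List.length_eq_zero_iff.1 hl
    obtain ⟨P, h1, h2, h3, h4⟩ := exists_prime_unit hp hζ e (by
      intro c hc
      apply he
      have hc0 : c ≠ 0 := by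
        rintro rfl
        rw [zero_pow hp.ne_zero] at hc
        exact e.ne_zero hc.symm
      exact Subgroup.mem_sup_right ⟨Units.mk0 c hc0, Units.ext hc⟩) B hB
    exact ⟨P, h1, h2, h3, h4, by simp⟩
  | succ n ih =>
    intro K _ _ ζ hζ e l hl he B hB
    obtain ⟨f, l, rfl⟩ : ∃ f l', l = f :: l' := List.exists_cons_of_length_eq_add_one hl
    have hl' : l.length = n := by simpa using hl
    set B' := B ∪ {P : HeightOneSpectrum (𝓞 K) | P.valuation K (f : K) ≠ 1} with hB'
    have hB'f : B'.Finite := hB.union (finite_valuation_ne_one f)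
    by_cases hf : ∃ c : K, c ^ p = f
    · obtain ⟨c, hc⟩ := hf
      obtain ⟨P, h1, h2, h3, h4, h5⟩ := ih K hζ e l hl' (by
        intro h
        apply he
        refine (sup_le_sup_right (Subgroup.closure_mono ?_) _) h
        intro x hx
        exact List.mem_cons_of_mem _ hx) B' hB'f
      simp only [hB', Set.mem_union, Set.mem_ofPred_eq, not_or, not_not] at h1
      refine ⟨P, h1.1, h2, h3, h4, ?_⟩
      intro g hg
      rcases List.mem_cons.1 hg with rfl | hg
      · exact ⟨h1.2, by rw [← hc]; exact isPowMod_pow P p c⟩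
      · exact h5 g hg
    · push Not at hf
      have : Fact (Irreducible (X ^ p - C (f : K))) := ⟨X_pow_sub_C_irreducible_of_prime hp hf⟩
      set L := AdjoinRoot (X ^ p - C (f : K)) with hL
      set α : L := AdjoinRoot.root (X ^ p - C (f : K)) with hα
      have hαp : α ^ p = algebraMap K L f := Kummer.root_pow
      have hd : finrank K L = p := Kummer.finrank_adjoinRoot hp
      have hfin : FiniteDimensional K L :=
        FiniteDimensional.of_finrank_pos (by rw [hd]; exact hp.pos)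
      have : NumberField L := NumberField.of_module_finite K L
      obtain ⟨σ, hσ⟩ := Kummer.exists_data hp hζ hf hαp hd
      have hα0 : α ≠ 0 := by
        rintro h0
        rw [h0, zero_pow hp.ne_zero] at hαp
        exact f.ne_zero ((map_eq_zero _).1 hαp.symm)
      have hζL : IsPrimitiveRoot (algebraMap K L ζ) p :=
        hζ.map_of_injective (algebraMap K L).injective
      set φ : Kˣ →* Lˣ := Units.map (algebraMap K L : K →* L) with hφ
      obtain ⟨Q, h1, h2, h3, h4, h5⟩ := ih L hζL (φ e) (l.map φ) (by simpa using hl') (by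
        intro h
        rw [Subgroup.mem_sup] at h
        obtain ⟨y, hy, z, hz, hyz⟩ := h
        have hset : {x | x ∈ l.map φ} = φ '' {x | x ∈ l} := by
          ext x; simp
        rw [hset, ← MonoidHom.map_closure] at hy
        obtain ⟨h, hh, rfl⟩ := hy
        obtain ⟨w, rfl⟩ := hz
        have hw : (w : L) ^ p = algebraMap K L ((e / h : Kˣ) : K) := by
          have h6 : φ (e / h) = w ^ p := by
            rw [_root_.map_div, ← hyz, powMonoidHom_apply, mul_div_cancel_left]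
          rw [← Units.val_pow_eq_pow_val, ← h6]
          rfl
        obtain ⟨i, -, c, hc⟩ := hσ.exists_of_pow_eq hp hζ hα0 hw
        have hc0 : c ≠ 0 := by
          rintro rfl
          rw [zero_pow hp.ne_zero, mul_zero] at hc
          exact (e / h).ne_zero hc
        apply he
        have h7 : e = (h * f ^ i) * (Units.mk0 c hc0) ^ p := by
          have h8 : e / h = f ^ i * (Units.mk0 c hc0) ^ p := by
            ext
            rw [hc]
            simp
          rw [mul_assoc, ← h8, mul_div_cancel]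
        rw [h7]
        refine Subgroup.mul_mem_sup (mul_mem ?_ (pow_mem ?_ _)) ⟨_, rfl⟩
        · exact Subgroup.closure_mono (fun x hx ↦ List.mem_cons_of_mem _ hx) hh
        · exact Subgroup.subset_closure (List.mem_cons_self)) (below K ⁻¹' B')
        (finite_preimage_below K L B' hB'f)
      simp only [hB', Set.mem_preimage, Set.mem_union, Set.mem_ofPred_eq, not_or, not_not] at h1
      have h3' := (valuation_eq_one_iff_below (K := K) Q (e : K)).1 h3
      refine ⟨below K Q, h1.1, (surjective_of_absNorm_prime (K := K) Q h2).1, h3',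
        fun h ↦ h4 ((isPowMod_below Q h2 hp.ne_zero h3').2 h), ?_⟩
      intro g hg
      rcases List.mem_cons.1 hg with rfl | hg
      · refine ⟨h1.2, (isPowMod_below Q h2 hp.ne_zero h1.2).1 ?_⟩
        rw [← hαp]
        exact isPowMod_pow Q p α
      · obtain ⟨h6, h7⟩ := h5 (φ g) (List.mem_map_of_mem hg)
        have h6' := (valuation_eq_one_iff_below (K := K) Q (g : K)).1 h6
        exact ⟨h6', (isPowMod_below Q h2 hp.ne_zero h6').1 h7⟩

end induction

end Fermat.Agent.CFT.ChoosePrime
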