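import Mathlib

/-!
# S-units of number fields: rank, p-th power index; trivial S-class groups
-/

set_option autoImplicit false

open NumberField IsDedekindDomain Module

namespace Fermat.Agent.CFT.SUnits

section algebra

theorem index_range_nsmul_congr {A B : Type*} [AddCommGroup A] [AddCommGroup B] (e : A ≃+ B)
    (p : ℕ) : (nsmulAddMonoidHom (α := A) p).range.index =
      (nsmulAddMonoidHom (α := B) p).range.index := by
  rw [← AddEquiv.map_range_nsmulAddMonoidHom e, AddSubgroup.index_map_equiv]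

theorem card_ker_nsmul_congr {A B : Type*} [AddCommGroup A] [AddCommGroup B] (e : A ≃+ B)
    (p : ℕ) : Nat.card (nsmulAddMonoidHom (α := A) p).ker =
      Nat.card (nsmulAddMonoidHom (α := B) p).ker := by
  refine Nat.card_congr ⟨fun x ↦ ⟨e x, ?_⟩, fun x ↦ ⟨e.symm x, ?_⟩, ?_, ?_⟩
  · have := x.2
    rw [AddMonoidHom.mem_ker, nsmulAddMonoidHom_apply] at this ⊢
    rw [← map_nsmul, this, map_zero]
  · have := x.2
    rw [AddMonoidHom.mem_ker, nsmulAddMonoidHom_apply] at this ⊢
    rw [← map_nsmul, this, map_zero]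
  · intro x; simp
  · intro x; simp

theorem finrank_range_add_finrank_ker {A B : Type*} [AddCommGroup A] [AddCommGroup B]
    [Module.Finite ℤ A] (f : A →ₗ[ℤ] B) :
    finrank ℤ f.range + finrank ℤ f.ker = finrank ℤ A := by
  rw [← f.ker.finrank_quotient_add_finrank, f.quotKerEquivRange.finrank_eq]

/-- For a finitely generated abelian group `A`: `#(A/p) = p^rank * #A[p]`. -/
theorem index_range_nsmul (A : Type*) [AddCommGroup A] [Module.Finite ℤ A] (p : ℕ)
    (hp : p ≠ 0) :
    (nsmulAddMonoidHom (α := A) p).range.index =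
      p ^ Module.finrank ℤ A * Nat.card (nsmulAddMonoidHom (α := A) p).ker := by
  have : AddGroup.FG A := Module.Finite.iff_addGroup_fg.mp inferInstance
  obtain ⟨n, ι, _, q, hq, e, ⟨f⟩⟩ := AddCommGroup.equiv_free_prod_directSum_zmod A
  have hqe : ∀ i, NeZero (q i ^ e i) := fun i ↦ ⟨pow_ne_zero _ (hq i).ne_zero⟩
  set T := DirectSum ι fun i ↦ ZMod (q i ^ e i)
  have hT : Finite T := by
    classical
    exact Finite.of_equiv _ DFinsupp.equivFunOnFintype.symm
  have h1 : Module.finrank ℤ A = n := by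
    rw [f.toIntLinearEquiv.finrank_eq]
    have h2 := finrank_range_add_finrank_ker (LinearMap.fst ℤ (Fin n →₀ ℤ) T)
    rw [LinearMap.range_eq_top.2 LinearMap.fst_surjective, finrank_top] at h2
    have h3 : finrank ℤ (LinearMap.fst ℤ (Fin n →₀ ℤ) T).ker = 0 := by
      have h4 : Finite (LinearMap.fst ℤ (Fin n →₀ ℤ) T).ker := by
        refine Finite.of_injective
          (fun x : (LinearMap.fst ℤ (Fin n →₀ ℤ) T).ker ↦ x.1.2) ?_
        rintro ⟨⟨x1, x2⟩, hx⟩ ⟨⟨y1, y2⟩, hy⟩ h
        simp only [LinearMap.mem_ker, LinearMap.fst_apply] at hx hy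
        subst hx; subst hy
        simp only at h
        subst h
        rfl
      refine (Module.finrank_eq_zero_iff (R := ℤ) (M := (LinearMap.fst ℤ (Fin n →₀ ℤ) T).ker)).2 ?_
      intro x
      exact ⟨(addOrderOf x : ℤ), by exact_mod_cast (addOrderOf_pos x).ne', by
        rw [natCast_zsmul, addOrderOf_nsmul_eq_zero]⟩
    rw [h3, add_zero] at h2
    rw [← h2]
    simp
  rw [index_range_nsmul_congr f, card_ker_nsmul_congr f, h1]
  have h5 : (nsmulAddMonoidHom (α := (Fin n →₀ ℤ) × T) p).range =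
      (nsmulAddMonoidHom (α := (Fin n →₀ ℤ)) p).range.prod (nsmulAddMonoidHom (α := T) p).range := by
    ext ⟨x, y⟩
    simp only [AddMonoidHom.mem_range, nsmulAddMonoidHom_apply, AddSubgroup.mem_prod, Prod.exists,
      Prod.smul_mk, Prod.mk.injEq]
    constructor
    · rintro ⟨a, b, ha, hb⟩; exact ⟨⟨a, ha⟩, ⟨b, hb⟩⟩
    · rintro ⟨⟨a, ha⟩, ⟨b, hb⟩⟩; exact ⟨a, b, ha, hb⟩
  have h6 : (nsmulAddMonoidHom (α := (Fin n →₀ ℤ) × T) p).ker =
      (nsmulAddMonoidHom (α := (Fin n →₀ ℤ)) p).ker.prod (nsmulAddMonoidHom (α := T) p).ker := by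
    ext ⟨x, y⟩
    simp [AddMonoidHom.mem_ker, AddSubgroup.mem_prod]
  rw [h5, h6, AddSubgroup.index_prod, AddSubgroup.index_range_nsmul]
  have h7 : (nsmulAddMonoidHom (α := (Fin n →₀ ℤ)) p).ker = ⊥ := by
    rw [AddMonoidHom.ker_eq_bot_iff]
    exact AddSubgroup.nsmulAddMonoidHom_injective_of_isTorsionFree hp
  have h8 : Nat.card ((nsmulAddMonoidHom (α := (Fin n →₀ ℤ)) p).ker.prod
      (nsmulAddMonoidHom (α := T) p).ker) = Nat.card (nsmulAddMonoidHom (α := T) p).ker := by
    rw [h7, Nat.card_congr (AddSubgroup.prodEquiv _ _).toEquiv, Nat.card_prod]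
    simp
  rw [h8, AddSubgroup.index_range]
  simp

/-- multiplicative version -/
theorem index_range_pow (A : Type*) [CommGroup A] [Module.Finite ℤ (Additive A)] (p : ℕ)
    (hp : p ≠ 0) :
    (powMonoidHom p : A →* A).range.index =
      p ^ Module.finrank ℤ (Additive A) * Nat.card (powMonoidHom p : A →* A).ker :=
  index_range_nsmul (Additive A) p hp

end algebra

section sunits

open scoped nonZeroDivisors

variable {K : Type*} [Field K] [NumberField K]

/-- the (additively written) valuation vector of a unit at the places in `S`. -/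
noncomputable def valHom (S : Set (HeightOneSpectrum (𝓞 K))) :
    Additive (S.unit K) →ₗ[ℤ] (S → ℤ) :=
  AddMonoidHom.toIntLinearMap
    { toFun := fun x v ↦ Multiplicative.toAdd (v.1.valuationOfNeZero (x.toMul : Kˣ))
      map_zero' := by ext v; simp
      map_add' := fun x y ↦ by ext v; simp }

theorem valHom_apply (S : Set (HeightOneSpectrum (𝓞 K))) (x : Additive (S.unit K)) (v : S) :
    valHom S x v = Multiplicative.toAdd (v.1.valuationOfNeZero (x.toMul : Kˣ)) := rfl

theorem valuationOfNeZero_eq_one_iff (v : HeightOneSpectrum (𝓞 K)) (x : Kˣ) :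
    v.valuationOfNeZero x = 1 ↔ v.valuation K (x : K) = 1 := by
  rw [← WithZero.coe_inj, HeightOneSpectrum.valuationOfNeZero_eq, WithZero.coe_one]

/-- An element with trivial valuations everywhere is a unit of `𝓞 K`. -/
theorem exists_unit_of_valuation_eq_one (x : Kˣ)
    (hx : ∀ v : HeightOneSpectrum (𝓞 K), v.valuation K (x : K) = 1) :
    ∃ u : (𝓞 K)ˣ, Units.map (algebraMap (𝓞 K) K : 𝓞 K →* K) u = x := by
  obtain ⟨a, ha⟩ := HeightOneSpectrum.mem_integers_of_valuation_le_one K (x : K)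
    (fun v ↦ (hx v).le)
  obtain ⟨b, hb⟩ := HeightOneSpectrum.mem_integers_of_valuation_le_one K ((x⁻¹ : Kˣ) : K)
    (fun v ↦ by rw [Units.val_inv_eq_inv_val, map_inv₀, hx v, inv_one])
  have hab : a * b = 1 := by
    apply FaithfulSMul.algebraMap_injective (𝓞 K) K
    rw [map_mul, ha, hb, map_one, Units.mul_inv]
  refine ⟨⟨a, b, hab, by rw [mul_comm, hab]⟩, ?_⟩
  ext
  exact ha

/-- the units of `𝓞 K` inside the `S`-units -/
noncomputable def ofUnits (S : Set (HeightOneSpectrum (𝓞 K))) : (𝓞 K)ˣ →* S.unit K where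
  toFun u := ⟨Units.map (algebraMap (𝓞 K) K : 𝓞 K →* K) u, fun v _ ↦ by
    have := v.valuation_of_unit_eq (K := K) u
    rwa [valuationOfNeZero_eq_one_iff] at this⟩
  map_one' := by ext; simp
  map_mul' := fun u v ↦ by ext; simp

theorem ofUnits_injective (S : Set (HeightOneSpectrum (𝓞 K))) :
    Function.Injective (ofUnits (K := K) S) := by
  intro u v h
  have h2 := congrArg (fun z : S.unit K ↦ ((z : Kˣ) : K)) h
  ext
  exact congrArg _ (FaithfulSMul.algebraMap_injective (𝓞 K) K h2)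

/-- linear version -/
noncomputable def ofUnitsLin (S : Set (HeightOneSpectrum (𝓞 K))) :
    Additive (𝓞 K)ˣ →ₗ[ℤ] Additive (S.unit K) :=
  (MonoidHom.toAdditive (ofUnits S)).toIntLinearMap

theorem range_ofUnitsLin (S : Set (HeightOneSpectrum (𝓞 K))) :
    (ofUnitsLin (K := K) S).range = (valHom S).ker := by
  ext x
  constructor
  · rintro ⟨u, rfl⟩
    rw [LinearMap.mem_ker]
    ext v
    rw [valHom_apply]
    have : v.1.valuationOfNeZero (Units.map (algebraMap (𝓞 K) K : 𝓞 K →* K) u.toMul) = 1 :=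
      v.1.valuation_of_unit_eq (K := K) u.toMul
    change Multiplicative.toAdd (v.1.valuationOfNeZero
      (Units.map (algebraMap (𝓞 K) K : 𝓞 K →* K) u.toMul)) = 0
    rw [this, toAdd_one]
  · intro hx
    rw [LinearMap.mem_ker] at hx
    have h : ∀ v : HeightOneSpectrum (𝓞 K), v.valuation K ((x.toMul : Kˣ) : K) = 1 := by
      intro v
      by_cases hv : v ∈ S
      · have := congrFun hx ⟨v, hv⟩
        rw [valHom_apply] at this
        rw [← valuationOfNeZero_eq_one_iff]
        exact this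
      · exact x.toMul.2 v hv
    obtain ⟨u, hu⟩ := exists_unit_of_valuation_eq_one _ h
    refine ⟨Additive.ofMul u, ?_⟩
    apply Additive.toMul.injective
    ext
    exact congrArg _ hu

theorem exists_pow_classNumber (v : HeightOneSpectrum (𝓞 K)) :
    ∃ x : 𝓞 K, x ≠ 0 ∧ v.asIdeal ^ Fintype.card (ClassGroup (𝓞 K)) = Ideal.span {x} := by
  have hv : v.asIdeal ^ Fintype.card (ClassGroup (𝓞 K)) ∈ (Ideal (𝓞 K))⁰ :=
    mem_nonZeroDivisors_of_ne_zero (pow_ne_zero _ v.ne_bot)
  have h1 : ClassGroup.mk0 ⟨_, hv⟩ = 1 := by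
    have h2 : (⟨_, hv⟩ : (Ideal (𝓞 K))⁰) =
      ⟨v.asIdeal, mem_nonZeroDivisors_of_ne_zero v.ne_bot⟩ ^ Fintype.card (ClassGroup (𝓞 K)) := by
      ext; simp
    rw [h2, map_pow, pow_card_eq_one]
  rw [ClassGroup.mk0_eq_one_iff] at h1
  obtain ⟨x, hx⟩ := h1.principal
  refine ⟨x, ?_, hx⟩
  rintro rfl
  apply pow_ne_zero (Fintype.card (ClassGroup (𝓞 K))) v.ne_bot
  rw [hx]; simp

theorem valuation_of_span_eq {I : Ideal (𝓞 K)} {x : 𝓞 K} (hx : x ≠ 0)
    (hI : I = Ideal.span {x}) (v : HeightOneSpectrum (𝓞 K)) :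
    v.valuation K (algebraMap (𝓞 K) K x) = WithZero.exp (-(multiplicity v.asIdeal I : ℤ)) := by
  rw [HeightOneSpectrum.valuation_of_algebraMap, v.intValuation_eq_exp_neg_multiplicity hx, hI]

theorem multiplicity_pow_self_asIdeal (v : HeightOneSpectrum (𝓞 K)) (n : ℕ) :
    multiplicity v.asIdeal (v.asIdeal ^ n) = n :=
  multiplicity_pow_self v.ne_bot v.prime.not_isUnit n

theorem multiplicity_pow_of_ne {v w : HeightOneSpectrum (𝓞 K)} (h : w ≠ v) (n : ℕ) :
    multiplicity w.asIdeal (v.asIdeal ^ n) = 0 := by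
  rw [multiplicity_eq_zero]
  intro hd
  have h1 := w.prime.dvd_of_dvd_pow hd
  apply h
  have h2 := (Ideal.dvd_iff_le.1 h1)
  apply HeightOneSpectrum.ext
  have := (v.isPrime.isMaximal v.ne_bot).eq_of_le w.isPrime.ne_top h2
  exact this.symm

theorem exists_sunit (S : Set (HeightOneSpectrum (𝓞 K))) [DecidableEq S] (v : S) :
    ∃ e : Additive (S.unit K), valHom S e =
      (-(Fintype.card (ClassGroup (𝓞 K)) : ℤ)) • Pi.single v 1 := by
  obtain ⟨x, hx0, hx⟩ := exists_pow_classNumber v.1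
  have hxK : algebraMap (𝓞 K) K x ≠ 0 := by
    rwa [Ne, FaithfulSMul.algebraMap_eq_zero_iff]
  have hval := fun w ↦ valuation_of_span_eq hx0 hx w
  refine ⟨Additive.ofMul ⟨Units.mk0 _ hxK, fun w hw ↦ ?_⟩, ?_⟩
  · have hwv : w ≠ v.1 := fun h ↦ hw (h ▸ v.2)
    rw [Units.val_mk0, hval, multiplicity_pow_of_ne hwv]
    simp
  · ext w
    rw [valHom_apply]
    have h3 : Multiplicative.ofAdd (Multiplicative.toAdd (w.1.valuationOfNeZero (Units.mk0 _ hxK)))
        = Multiplicative.ofAdd (-(multiplicity w.1.asIdeal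
          (v.1.asIdeal ^ Fintype.card (ClassGroup (𝓞 K))) : ℤ)) := by
      rw [ofAdd_toAdd, ← WithZero.coe_inj, HeightOneSpectrum.valuationOfNeZero_eq, Units.val_mk0,
        hval]
      rfl
    have h4 := Multiplicative.ofAdd.injective h3
    change Multiplicative.toAdd (w.1.valuationOfNeZero (Units.mk0 _ hxK)) = _
    rw [h4]
    by_cases hwv : w = v
    · subst hwv
      rw [multiplicity_pow_self_asIdeal]
      simp
    · rw [multiplicity_pow_of_ne (fun h ↦ hwv (Subtype.ext h))]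
      simp [hwv]

instance finite_kerValHom (S : Set (HeightOneSpectrum (𝓞 K))) :
    Module.Finite ℤ (valHom (K := K) S).ker := by
  rw [← range_ofUnitsLin]
  infer_instance

instance finite_sunit (S : Set (HeightOneSpectrum (𝓞 K))) [Finite S] :
    Module.Finite ℤ (Additive (S.unit K)) := by
  have h1 : Module.Finite ℤ (Additive (S.unit K) ⧸ (valHom (K := K) S).ker) :=
    Module.Finite.equiv (valHom (K := K) S).quotKerEquivRange.symm
  exact Module.Finite.of_submodule_quotient (valHom (K := K) S).ker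

theorem finrank_range_valHom (S : Set (HeightOneSpectrum (𝓞 K))) [Finite S] :
    finrank ℤ (valHom (K := K) S).range = Nat.card S := by
  classical
  have := Fintype.ofFinite S
  apply le_antisymm
  · calc finrank ℤ (valHom (K := K) S).range ≤ finrank ℤ (S → ℤ) := Submodule.finrank_le _
      _ = Nat.card S := by simp
  · set h := Fintype.card (ClassGroup (𝓞 K)) with hh
    have hh0 : h ≠ 0 := Fintype.card_ne_zero
    have h1 : finrank ℤ (DistribSMul.toLinearMap ℤ (S → ℤ) h).range = finrank ℤ (S → ℤ) :=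
      (DistribSMul.toLinearMap ..).finrank_range_of_inj <|
        AddSubgroup.distribSMulToLinearMap_injective_of_isTorsionFree hh0
    have h2 : finrank ℤ (S → ℤ) = Nat.card S := by simp
    rw [← h2, ← h1]
    refine Submodule.finrank_mono ?_
    rintro _ ⟨f, rfl⟩
    have h3 : (DistribSMul.toLinearMap ℤ (S → ℤ) h) f =
        ∑ v, (f v) • ((h : ℤ) • (Pi.single v (1 : ℤ) : S → ℤ)) := by
      ext w
      simp [Finset.sum_apply, Pi.single_apply, mul_comm]
    rw [h3]
    refine Submodule.sum_mem _ fun v _ ↦ Submodule.smul_mem _ _ ?_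
    obtain ⟨e, he⟩ := exists_sunit S v
    refine ⟨-e, ?_⟩
    rw [map_neg, he]
    simp [hh]

/-- The rank of the group of `S`-units. -/
theorem finrank_sunit (S : Set (HeightOneSpectrum (𝓞 K))) [Finite S] :
    finrank ℤ (Additive (S.unit K)) = Nat.card S + NumberField.Units.rank K := by
  rw [← finrank_range_add_finrank_ker (valHom S), finrank_range_valHom, ← range_ofUnitsLin,
    (ofUnitsLin S).finrank_range_of_inj (fun x y h ↦ ofUnits_injective S h),
    NumberField.Units.finrank_eq]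

theorem valuation_eq_one_of_pow (v : HeightOneSpectrum (𝓞 K)) {x : K} {p : ℕ} (hp : p ≠ 0)
    (h : v.valuation K (x ^ p) = 1) : v.valuation K x = 1 := by
  rw [map_pow] at h
  exact (pow_eq_one_iff.1 h).resolve_right hp

/-- `p`-torsion of the `S`-units -/
noncomputable def kerPowEquiv (S : Set (HeightOneSpectrum (𝓞 K))) (p : ℕ) (hp : p ≠ 0) :
    (powMonoidHom p : S.unit K →* S.unit K).ker ≃ rootsOfUnity p K where
  toFun x := ⟨x.1.1, by
    have := x.2
    rw [MonoidHom.mem_ker, powMonoidHom_apply] at this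
    rw [mem_rootsOfUnity]
    exact congrArg Subtype.val this⟩
  invFun x := ⟨⟨x.1, fun v _ ↦ by
    have := x.2
    rw [mem_rootsOfUnity] at this
    apply valuation_eq_one_of_pow v hp
    rw [← Units.val_pow_eq_pow_val, this, Units.val_one, map_one]⟩, by
    rw [MonoidHom.mem_ker, powMonoidHom_apply]
    ext
    have := x.2
    rw [mem_rootsOfUnity] at this
    exact congrArg Units.val this⟩
  left_inv x := rfl
  right_inv x := rfl

/-- `#(E_S/p) = p^(#S + r₁ + r₂ - 1) * #μ_p(K)`. -/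
theorem index_range_pow_sunit (S : Set (HeightOneSpectrum (𝓞 K))) [Finite S] (p : ℕ)
    (hp : p ≠ 0) :
    (powMonoidHom p : S.unit K →* S.unit K).range.index =
      p ^ (Nat.card S + NumberField.Units.rank K) * Nat.card (rootsOfUnity p K) := by
  rw [index_range_pow _ p hp, finrank_sunit, Nat.card_congr (kerPowEquiv S p hp)]

/-- An `S`-unit which is a `p`-th power in `K` is the `p`-th power of an `S`-unit. -/
theorem mem_unit_of_pow_mem (S : Set (HeightOneSpectrum (𝓞 K))) {p : ℕ} (hp : p ≠ 0) {x : Kˣ}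
    (hx : x ^ p ∈ S.unit K) : x ∈ S.unit K := fun v hv ↦
  valuation_eq_one_of_pow v hp (by rw [← Units.val_pow_eq_pow_val]; exact hx v hv)

/-- the group of `p`-th powers of `S`-units has index `p^(#S + r₁ + r₂ - 1) * #μ_p(K)` in the
`S`-units (formulated inside `Kˣ`). -/
theorem relIndex_pow_sunit (S : Set (HeightOneSpectrum (𝓞 K))) [Finite S] (p : ℕ)
    (hp : p ≠ 0) :
    (powMonoidHom p : Kˣ →* Kˣ).range.relIndex (S.unit K) =
      p ^ (Nat.card S + NumberField.Units.rank K) * Nat.card (rootsOfUnity p K) := by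
  rw [← index_range_pow_sunit S p hp, Subgroup.relIndex]
  congr 1
  ext x
  rw [Subgroup.mem_subgroupOf]
  constructor
  · rintro ⟨y, hy⟩
    rw [powMonoidHom_apply] at hy
    exact ⟨⟨y, mem_unit_of_pow_mem S hp (by rw [hy]; exact x.2)⟩, Subtype.ext hy⟩
  · rintro ⟨y, hy⟩
    exact ⟨y, congrArg Subtype.val hy⟩

/-- `K` has trivial `S`-class group: every divisor is principal outside `S`. -/
def ClassTrivial (S : Set (HeightOneSpectrum (𝓞 K))) : Prop :=
  ∀ n : HeightOneSpectrum (𝓞 K) →₀ ℤ, ∃ x : Kˣ, ∀ v ∉ S,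
    v.valuationOfNeZero x = Multiplicative.ofAdd (n v)

theorem ClassTrivial.mono {S T : Set (HeightOneSpectrum (𝓞 K))} (h : ClassTrivial S)
    (hST : S ⊆ T) : ClassTrivial T := fun n ↦
  let ⟨x, hx⟩ := h n
  ⟨x, fun v hv ↦ hx v (fun h ↦ hv (hST h))⟩

theorem classTrivial_of_single {S : Set (HeightOneSpectrum (𝓞 K))}
    (h : ∀ w : HeightOneSpectrum (𝓞 K), w ∉ S → ∃ x : Kˣ, ∀ v ∉ S,
      v.valuationOfNeZero x = Multiplicative.ofAdd (Finsupp.single w (-1 : ℤ) v)) :
    ClassTrivial S := by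
  classical
  intro n
  induction n using Finsupp.induction with
  | zero => exact ⟨1, fun v _ ↦ by simp⟩
  | single_add w k f hw hk ih =>
    obtain ⟨x, hx⟩ := ih
    by_cases hwS : w ∈ S
    · refine ⟨x, fun v hv ↦ ?_⟩
      rw [hx v hv]
      have : w ≠ v := fun h ↦ hv (h ▸ hwS)
      simp [this]
    · obtain ⟨y, hy⟩ := h w hwS
      refine ⟨y ^ (-k) * x, fun v hv ↦ ?_⟩
      rw [map_mul, map_zpow, hy v hv, hx v hv, ← ofAdd_zsmul, ← ofAdd_add]
      congr 1
      by_cases hwv : w = v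
      · subst hwv; simp
      · simp [hwv]

variable (K) in
/-- There are arbitrarily large finite `S` with trivial `S`-class group. -/
theorem exists_classTrivial (S₀ : Set (HeightOneSpectrum (𝓞 K))) (hS₀ : S₀.Finite) :
    ∃ S : Set (HeightOneSpectrum (𝓞 K)), S.Finite ∧ S₀ ⊆ S ∧ ClassTrivial S := by
  classical
  choose J hJ using (ClassGroup.mk0_surjective (R := 𝓞 K))
  refine ⟨S₀ ∪ ⋃ c, {v | v.asIdeal ∣ (J c : Ideal (𝓞 K))},
    hS₀.union (Set.finite_iUnion fun c ↦ Ideal.finite_factors (nonZeroDivisors.coe_ne_zero _)),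
    Set.subset_union_left, ?_⟩
  set S := S₀ ∪ ⋃ c, {v : HeightOneSpectrum (𝓞 K) | v.asIdeal ∣ (J c : Ideal (𝓞 K))}
  refine classTrivial_of_single fun w hw ↦ ?_
  have hw0 := mem_nonZeroDivisors_of_ne_zero w.ne_bot
  set c := (ClassGroup.mk0 ⟨w.asIdeal, hw0⟩)⁻¹ with hc
  have h1 : ClassGroup.mk0 (J c) = (ClassGroup.mk0 ⟨w.asIdeal, hw0⟩)⁻¹ := hJ c
  obtain ⟨x, hx0, hx⟩ := ClassGroup.mk0_eq_mk0_inv_iff.1 h1
  have hxK : algebraMap (𝓞 K) K x ≠ 0 := by
    rwa [Ne, FaithfulSMul.algebraMap_eq_zero_iff]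
  refine ⟨Units.mk0 _ hxK, fun v hv ↦ ?_⟩
  rw [← WithZero.coe_inj, HeightOneSpectrum.valuationOfNeZero_eq, Units.val_mk0,
    valuation_of_span_eq hx0 hx v]
  have hJv : ¬ v.asIdeal ∣ (J c : Ideal (𝓞 K)) := fun h ↦ hv (Or.inr (Set.mem_iUnion.2 ⟨c, h⟩))
  have hmul : multiplicity v.asIdeal ((J c : Ideal (𝓞 K)) * w.asIdeal) =
      multiplicity v.asIdeal w.asIdeal := by
    rw [multiplicity_mul v.prime, multiplicity_eq_zero.2 hJv, zero_add]
    exact FiniteMultiplicity.of_prime_left v.prime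
      (mul_ne_zero (nonZeroDivisors.coe_ne_zero _) w.ne_bot)
  rw [hmul]
  by_cases hvw : v = w
  · subst hvw
    have h5 := multiplicity_pow_self_asIdeal v 1
    rw [pow_one] at h5
    rw [h5]
    simp [WithZero.exp]
  · have h5 := multiplicity_pow_of_ne hvw 1
    rw [pow_one] at h5
    rw [h5]
    have : w ≠ v := fun h ↦ hvw h.symm
    simp [this]

end sunits

end Fermat.Agent.CFT.SUnits
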