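import Mathlib

/-!
# Herbrand quotients (pure algebra)

For two endomorphisms `f g` of an abelian group with `f ∘ g = 1 = g ∘ f` we consider
`hc f g = |ker f / im g|` (as a natural number, `0` meaning infinite).  The Herbrand quotient
is `hc f g / hc g f`.  We prove multiplicativity in short exact sequences, triviality on finite
groups and the formula for automorphisms of prime order on finitely generated groups.
-/

set_option autoImplicit false

namespace Fermat.Agent.CFT.Herbrand

open Subgroup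

section Basic

variable {A B C : Type*} [CommGroup A] [CommGroup B] [CommGroup C]

/-- order of `ker f / im g` (`0` if infinite) -/
@[to_additive hcAdd /-- order of `ker f / im g` (`0` if infinite) -/]
noncomputable def hc (f g : A →* A) : ℕ := g.range.relIndex f.ker

@[to_additive]
theorem relIndex_eq_mul (f : A →* B) {H K : Subgroup A} (h : H ≤ K) :
    H.relIndex K = (H.map f).relIndex (K.map f) * (H ⊓ f.ker).relIndex (K ⊓ f.ker) := by
  have h1 : H ≤ (H ⊔ f.ker) ⊓ K := le_inf le_sup_left h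
  have h2 : (H ⊔ f.ker) ⊓ K ≤ K := inf_le_right
  rw [← relIndex_mul_relIndex _ _ _ h1 h2, inf_relIndex_right, relIndex_map_map, mul_comm]
  congr 1
  · rw [show K ⊔ f.ker = (H ⊔ f.ker) ⊔ K by
      rw [sup_assoc, sup_comm f.ker K, ← sup_assoc, sup_eq_right.2 h]]
    rw [relIndex_sup_left]
  · have : (H ⊔ f.ker) ⊓ K = H ⊔ (K ⊓ f.ker) := by
      rw [sup_inf_assoc_of_le _ h, inf_comm]
    rw [this, relIndex_sup_left]
    rw [← inf_relIndex_right]
    congr 1
    rw [← inf_assoc, inf_eq_left.2 h]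

/-- Multiplicativity of the Herbrand quotient, internal version: `A` is a subgroup of `B` stable
under `f` and `g`; the orders for `A` and `B/A` are expressed inside `B`. -/
@[to_additive herbrand_internal_add]
theorem herbrand_internal (f g : B →* B) (hfg : ∀ x, f (g x) = 1) (hgf : ∀ x, g (f x) = 1)
    (A : Subgroup B) (hfA : A.map f ≤ A) (hgA : A.map g ≤ A) :
    (A.map g).relIndex (A ⊓ f.ker) * (g.range ⊔ A).relIndex (A.comap f) * hc g f
      = (A.map f).relIndex (A ⊓ g.ker) * (f.range ⊔ A).relIndex (A.comap g) * hc f g := by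
  have key : ∀ (f g : B →* B) (_ : ∀ x, f (g x) = 1) (_ : ∀ x, g (f x) = 1)
      (_ : A.map f ≤ A) (_ : A.map g ≤ A),
      (A.map g).relIndex (A ⊓ f.ker) = (A.map g).relIndex (A ⊓ g.range) *
        (A ⊓ g.range).relIndex (A ⊓ f.ker) ∧
      (g.range ⊔ A).relIndex (A.comap f) = (A.map f).relIndex (A ⊓ f.range) *
        (g.range ⊔ (A ⊓ f.ker)).relIndex f.ker ∧
      hc f g = (A ⊓ g.range).relIndex (A ⊓ f.ker) *
        (g.range ⊔ (A ⊓ f.ker)).relIndex f.ker := by
    intro f g hfg hgf hfA hgA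
    have hgr : g.range ≤ f.ker := by
      rintro _ ⟨x, rfl⟩; exact hfg x
    refine ⟨?_, ?_, ?_⟩
    · rw [relIndex_mul_relIndex]
      · exact le_inf hgA (map_le_range g A)
      · exact inf_le_inf_left _ hgr
    · have hle : g.range ⊔ A ≤ A.comap f := by
        refine sup_le ?_ ?_
        · rintro _ ⟨x, rfl⟩
          simp [mem_comap, hfg, A.one_mem]
        · exact map_le_iff_le_comap.1 hfA
      rw [relIndex_eq_mul f hle]
      congr 1
      · rw [map_comap_eq, Subgroup.map_sup, inf_comm]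
        have : g.range.map f = ⊥ := by
          rw [eq_bot_iff]
          rintro _ ⟨_, ⟨x, rfl⟩, rfl⟩
          simp [hfg]
        rw [this, bot_sup_eq]
      · have h1 : A.comap f ⊓ f.ker = f.ker := by
          rw [inf_eq_right]
          intro x hx
          rw [mem_comap, MonoidHom.mem_ker.1 hx]; exact A.one_mem
        rw [h1, sup_inf_assoc_of_le _ hgr]
    · rw [hc, ← relIndex_mul_relIndex g.range (g.range ⊔ (A ⊓ f.ker)) f.ker le_sup_left
        (sup_le hgr inf_le_right)]
      congr 1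
      rw [relIndex_sup_left, ← inf_relIndex_right]
      congr 1
      rw [inf_comm, inf_assoc, inf_comm f.ker, ← inf_assoc]
      rw [inf_assoc, inf_eq_left.2 hgr]
  obtain ⟨a1, a2, a3⟩ := key f g hfg hgf hfA hgA
  obtain ⟨b1, b2, b3⟩ := key g f hgf hfg hgA hfA
  rw [a1, a2, a3, b1, b2, b3]
  ring

/-- Multiplicativity of the Herbrand quotient for a short exact sequence
`1 → A → B → C → 1`:  `h(A) h(C) = h(B)`, cleared of denominators (valid in `ℕ` with `0 = ∞`). -/
@[to_additive]
theorem herbrand_mul (i : A →* B) (q : B →* C) (hi : Function.Injective i)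
    (hq : Function.Surjective q) (hex : i.range = q.ker)
    (fA gA : A →* A) (fB gB : B →* B) (fC gC : C →* C)
    (hif : ∀ x, i (fA x) = fB (i x)) (hig : ∀ x, i (gA x) = gB (i x))
    (hqf : ∀ x, q (fB x) = fC (q x)) (hqg : ∀ x, q (gB x) = gC (q x))
    (hfg : ∀ x, fB (gB x) = 1) (hgf : ∀ x, gB (fB x) = 1) :
    hc fA gA * hc fC gC * hc gB fB = hc gA fA * hc gC fC * hc fB gB := by
  have keyA : ∀ (fA gA : A →* A) (fB gB : B →* B) (_ : ∀ x, i (fA x) = fB (i x))
      (_ : ∀ x, i (gA x) = gB (i x)),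
      hc fA gA = (i.range.map gB).relIndex (i.range ⊓ fB.ker) := by
    intro fA gA fB gB hif hig
    rw [hc, ← relIndex_map_map_of_injective _ _ hi]
    congr 1
    · ext x
      simp only [mem_map, MonoidHom.mem_range]
      constructor
      · rintro ⟨_, ⟨y, rfl⟩, rfl⟩; exact ⟨_, ⟨y, rfl⟩, (hig y).symm⟩
      · rintro ⟨_, ⟨y, rfl⟩, rfl⟩; exact ⟨_, ⟨y, rfl⟩, (hig y)⟩
    · ext x
      simp only [mem_map, mem_inf, MonoidHom.mem_range, MonoidHom.mem_ker]
      constructor
      · rintro ⟨y, hy, rfl⟩; exact ⟨⟨y, rfl⟩, by rw [← hif, hy, map_one]⟩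
      · rintro ⟨⟨y, rfl⟩, hy⟩; exact ⟨y, hi (by rw [hif, hy, map_one]), rfl⟩
  have keyC : ∀ (fC gC : C →* C) (fB gB : B →* B) (_ : ∀ x, q (fB x) = fC (q x))
      (_ : ∀ x, q (gB x) = gC (q x)),
      hc fC gC = (gB.range ⊔ i.range).relIndex (i.range.comap fB) := by
    intro fC gC fB gB hqf hqg
    have e1 : i.range.comap fB = fC.ker.comap q := by
      ext x
      rw [hex, mem_comap, mem_comap, MonoidHom.mem_ker, MonoidHom.mem_ker, hqf]
    have e2 : gB.range ⊔ i.range = gC.range.comap q := by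
      rw [hex]
      have : gB.range ⊔ q.ker = (gB.range.map q).comap q := by rw [comap_map_eq]
      rw [this]
      congr 1
      ext x
      simp only [mem_map, MonoidHom.mem_range]
      constructor
      · rintro ⟨_, ⟨y, rfl⟩, rfl⟩; exact ⟨q y, (hqg y).symm⟩
      · rintro ⟨y, rfl⟩
        obtain ⟨z, rfl⟩ := hq y
        exact ⟨_, ⟨z, rfl⟩, hqg z⟩
    rw [e1, e2, relIndex_comap, map_comap_eq_self_of_surjective hq, hc]
  rw [keyA fA gA fB gB hif hig, keyA gA fA gB fB hig hif, keyC fC gC fB gB hqf hqg,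
    keyC gC fC gB fB hqg hqf]
  refine herbrand_internal fB gB hfg hgf i.range ?_ ?_
  · rintro _ ⟨_, ⟨y, rfl⟩, rfl⟩; exact ⟨fA y, hif y⟩
  · rintro _ ⟨_, ⟨y, rfl⟩, rfl⟩; exact ⟨gA y, hig y⟩

/-- On a finite group the Herbrand quotient is `1`. -/
@[to_additive herbrand_finite_add]
theorem herbrand_finite [Finite A] (f g : A →* A) (hfg : ∀ x, f (g x) = 1)
    (hgf : ∀ x, g (f x) = 1) : hc f g = hc g f ∧ hc f g ≠ 0 := by
  have h1 : g.range ≤ f.ker := by rintro _ ⟨x, rfl⟩; exact hfg x
  have h2 : f.range ≤ g.ker := by rintro _ ⟨x, rfl⟩; exact hgf x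
  have c1 : Nat.card g.range * hc f g = Nat.card f.ker := by
    have := relIndex_mul_relIndex ⊥ g.range f.ker bot_le h1
    rwa [relIndex_bot_left, relIndex_bot_left] at this
  have c2 : Nat.card f.range * hc g f = Nat.card g.ker := by
    have := relIndex_mul_relIndex ⊥ f.range g.ker bot_le h2
    rwa [relIndex_bot_left, relIndex_bot_left] at this
  have c3 : Nat.card f.ker * Nat.card f.range = Nat.card A := by
    rw [← index_ker, card_mul_index]
  have c4 : Nat.card g.ker * Nat.card g.range = Nat.card A := by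
    rw [← index_ker, card_mul_index]
  have hA : 0 < Nat.card A := Nat.card_pos
  have hf0 : 0 < Nat.card f.range := Nat.card_pos
  have hg0 : 0 < Nat.card g.range := Nat.card_pos
  have e1 : (Nat.card f.range * Nat.card g.range) * hc f g = Nat.card A := by
    rw [← c3, ← c1]; ring
  have e2 : (Nat.card f.range * Nat.card g.range) * hc g f = Nat.card A := by
    rw [← c4, ← c2]; ring
  refine ⟨Nat.eq_of_mul_eq_mul_left (Nat.mul_pos hf0 hg0) (e1.trans e2.symm), ?_⟩
  intro h
  rw [h, mul_zero] at e1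
  omega

/-- `q(φψ) = q(φ) q(ψ)` where `q(φ) = |coker φ| / |ker φ|`. -/
@[to_additive coker_ker_comp_add]
theorem coker_ker_comp (φ ψ : A →* A) :
    (φ.comp ψ).range.index * (Nat.card φ.ker * Nat.card ψ.ker)
      = φ.range.index * ψ.range.index * Nat.card (φ.comp ψ).ker := by
  have h1 : (φ.comp ψ).range.index = φ.range.index * (ψ.range ⊔ φ.ker).index := by
    have : (φ.comp ψ).range = ψ.range.map φ := by
      rw [MonoidHom.range_comp]
    rw [this, index_map, mul_comm]
  have h2 : ψ.range.index = (ψ.range ⊓ φ.ker).relIndex φ.ker * (ψ.range ⊔ φ.ker).index := by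
    rw [inf_relIndex_right, ← relIndex_mul_index (le_sup_left : ψ.range ≤ ψ.range ⊔ φ.ker),
      relIndex_sup_left]
  have h3 : Nat.card φ.ker = Nat.card ↥(ψ.range ⊓ φ.ker) * (ψ.range ⊓ φ.ker).relIndex φ.ker := by
    have := relIndex_mul_relIndex ⊥ (ψ.range ⊓ φ.ker) φ.ker bot_le inf_le_right
    rw [relIndex_bot_left, relIndex_bot_left] at this
    exact this.symm
  have h4 : Nat.card (φ.comp ψ).ker = Nat.card ψ.ker * Nat.card ↥(ψ.range ⊓ φ.ker) := by
    have e : (φ.comp ψ).ker = φ.ker.comap ψ := by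
      ext x; simp [MonoidHom.mem_ker, mem_comap]
    have := relIndex_eq_mul ψ (H := ⊥) (K := φ.ker.comap ψ) bot_le
    rw [relIndex_bot_left, Subgroup.map_bot, relIndex_bot_left, bot_inf_eq, relIndex_bot_left,
      map_comap_eq] at this
    rw [e, this, mul_comm]
    congr 2
    have : φ.ker.comap ψ ⊓ ψ.ker = ψ.ker := by
      rw [inf_eq_right]; intro x hx
      simp [mem_comap, MonoidHom.mem_ker.1 hx]
    rw [this]
  rw [h1, h2, h3, h4]
  ring

end Basic

section Q

variable {A B C : Type*} [AddCommGroup A] [AddCommGroup B] [AddCommGroup C]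

/-- finite kernel and cokernel -/
def FinQ (φ : A →+ A) : Prop := φ.range.index ≠ 0 ∧ Nat.card φ.ker ≠ 0

/-- `|coker φ| / |ker φ|` -/
noncomputable def qq (φ : A →+ A) : ℚ := (φ.range.index : ℚ) / (Nat.card φ.ker : ℚ)

theorem qq_ne_zero {φ : A →+ A} (h : FinQ φ) : qq φ ≠ 0 := by
  unfold qq
  exact div_ne_zero (Nat.cast_ne_zero.2 h.1) (Nat.cast_ne_zero.2 h.2)

theorem finQ_comp {φ ψ : A →+ A} (h1 : FinQ φ) (h2 : FinQ ψ) : FinQ (φ.comp ψ) := by
  have key := coker_ker_comp_add φ ψ
  have hne : φ.range.index * ψ.range.index ≠ 0 := Nat.mul_ne_zero h1.1 h2.1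
  have hne2 : Nat.card φ.ker * Nat.card ψ.ker ≠ 0 := Nat.mul_ne_zero h1.2 h2.2
  have hi : (φ.comp ψ).range.index = φ.range.index * (ψ.range ⊔ φ.ker).index := by
    have : (φ.comp ψ).range = ψ.range.map φ := by
      rw [AddMonoidHom.range_comp]
    rw [this, AddSubgroup.index_map, mul_comm]
  have hi' : (ψ.range ⊔ φ.ker).index ≠ 0 := by
    intro h0
    apply h2.1
    have := AddSubgroup.relIndex_mul_index (le_sup_left : ψ.range ≤ ψ.range ⊔ φ.ker)
    rw [← this, h0, mul_zero]
  refine ⟨by rw [hi]; exact Nat.mul_ne_zero h1.1 hi', ?_⟩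
  intro h0
  rw [h0, mul_zero, mul_eq_zero] at key
  rcases key with h | h
  · rw [hi] at h
    exact Nat.mul_ne_zero h1.1 hi' h
  · exact hne2 h

theorem qq_comp {φ ψ : A →+ A} (h1 : FinQ φ) (h2 : FinQ ψ) :
    qq (φ.comp ψ) = qq φ * qq ψ := by
  have key := coker_ker_comp_add φ ψ
  have h3 := finQ_comp h1 h2
  have key' : ((φ.comp ψ).range.index : ℚ) * (Nat.card φ.ker * Nat.card ψ.ker)
      = φ.range.index * ψ.range.index * Nat.card (φ.comp ψ).ker := by exact_mod_cast key
  have a := Nat.cast_ne_zero (R := ℚ).2 h1.2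
  have b := Nat.cast_ne_zero (R := ℚ).2 h2.2
  have c := Nat.cast_ne_zero (R := ℚ).2 h3.2
  unfold qq
  field_simp
  linarith [key']

theorem finQ_of_bijective {φ : A →+ A} (h : Function.Bijective φ) : FinQ φ ∧ qq φ = 1 := by
  have h1 : φ.range = ⊤ := AddMonoidHom.range_eq_top.2 h.2
  have h2 : φ.ker = ⊥ := (AddMonoidHom.ker_eq_bot_iff φ).2 h.1
  have h1' : φ.range.index = 1 := by rw [h1, AddSubgroup.index_top]
  have h2' : Nat.card φ.ker = 1 := by rw [h2, AddSubgroup.card_bot]
  refine ⟨⟨by rw [h1']; exact one_ne_zero, by rw [h2']; exact one_ne_zero⟩, ?_⟩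
  unfold qq
  rw [h1', h2']; norm_num

theorem finQ_pow {φ : AddMonoid.End A} (h : FinQ (φ : A →+ A)) (n : ℕ) :
    FinQ ((φ ^ n : AddMonoid.End A) : A →+ A) ∧
      qq ((φ ^ n : AddMonoid.End A) : A →+ A) = (qq (φ : A →+ A)) ^ n := by
  induction n with
  | zero =>
    have : Function.Bijective ((1 : AddMonoid.End A) : A →+ A) := Function.bijective_id
    simpa using finQ_of_bijective this
  | succ n ih =>
    have e : ((φ ^ (n+1) : AddMonoid.End A) : A →+ A) =
      ((φ ^ n : AddMonoid.End A) : A →+ A).comp (φ : A →+ A) := by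
      rw [pow_succ]; rfl
    refine ⟨by rw [e]; exact finQ_comp ih.1 h, ?_⟩
    rw [e, qq_comp ih.1 h, ih.2, pow_succ]

/-- If `φ ψ = ψ φ` has finite kernel and cokernel then so has `φ`. -/
theorem finQ_of_comm {φ ψ χ : AddMonoid.End A} (h : FinQ (χ : A →+ A)) (h1 : φ * ψ = χ)
    (h2 : ψ * φ = χ) : FinQ (φ : A →+ A) := by
  constructor
  · intro h0
    apply h.1
    have hle : (χ : A →+ A).range ≤ (φ : A →+ A).range := by
      rintro _ ⟨x, rfl⟩
      exact ⟨ψ x, by rw [← h1]; rfl⟩
    have := AddSubgroup.relIndex_mul_index hle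
    rw [h0, mul_zero] at this
    exact this.symm
  · intro h0
    apply h.2
    have hle : (φ : A →+ A).ker ≤ (χ : A →+ A).ker := by
      intro x hx
      have hx' : φ x = 0 := hx
      have : χ x = 0 := by
        rw [← h2]
        show ψ (φ x) = 0
        rw [hx', map_zero]
      exact this
    rw [Nat.card_eq_zero] at h0 ⊢
    right
    rcases h0 with h0 | h0
    · exact (h0.false ⟨0, (φ : A →+ A).ker.zero_mem⟩).elim
    · exact Infinite.of_injective (AddSubgroup.inclusion hle) (AddSubgroup.inclusion_injective hle)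

theorem hcAdd_zero_left (φ : A →+ A) : hcAdd 0 φ = φ.range.index := by
  unfold hcAdd
  rw [show (0 : A →+ A).ker = ⊤ from AddMonoidHom.ker_zero, AddSubgroup.relIndex_top_right]

theorem hcAdd_zero_right (φ : A →+ A) : hcAdd φ 0 = Nat.card φ.ker := by
  unfold hcAdd
  rw [show (0 : A →+ A).range = ⊥ from AddMonoidHom.range_zero, AddSubgroup.relIndex_bot_left]

theorem q_exact (i : A →+ B) (q : B →+ C) (hi : Function.Injective i)
    (hq : Function.Surjective q) (hex : i.range = q.ker)
    (φA : A →+ A) (φB : B →+ B) (φC : C →+ C)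
    (h1 : ∀ x, i (φA x) = φB (i x)) (h2 : ∀ x, q (φB x) = φC (q x)) :
    φA.range.index * φC.range.index * Nat.card φB.ker =
      Nat.card φA.ker * Nat.card φC.ker * φB.range.index := by
  have key := herbrand_add i q hi hq hex 0 φA 0 φB 0 φC (by simp) h1 (by simp) h2
    (by simp) (by simp)
  rw [hcAdd_zero_left, hcAdd_zero_left, hcAdd_zero_right, hcAdd_zero_right, hcAdd_zero_right,
    hcAdd_zero_left] at key
  exact key

end Q

section Cyc

open Polynomial
open scoped NumberField

theorem cyc_poly_aux (p : ℕ) [Fact p.Prime] (K : Type*) [Field K] [NumberField K]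
    [IsCyclotomicExtension {p} ℚ K] : ∃ U V : ℤ[X],
    cyclotomic p ℤ ∣ (X - 1) ^ (p - 1) * U - C (p : ℤ) ∧ cyclotomic p ℤ ∣ U * V - 1 := by
  have hζ := IsCyclotomicExtension.zeta_spec p ℚ K
  obtain ⟨u, hu⟩ := IsCyclotomicExtension.Rat.associated_zeta_sub_one_pow_prime p hζ
  have hpb : hζ.integralPowerBasis.gen = hζ.toInteger := by
    simp
  obtain ⟨U, hU⟩ := hζ.integralPowerBasis.exists_eq_aeval' (u : 𝓞 K)
  obtain ⟨V, hV⟩ := hζ.integralPowerBasis.exists_eq_aeval' ((u⁻¹ : (𝓞 K)ˣ) : 𝓞 K)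
  rw [hpb] at hU hV
  have hmin : cyclotomic p ℤ = minpoly ℤ (IsCyclotomicExtension.zeta p ℚ K) :=
    cyclotomic_eq_minpoly hζ (Fact.out : p.Prime).pos
  have hint : IsIntegral ℤ (IsCyclotomicExtension.zeta p ℚ K) :=
    hζ.isIntegral (Fact.out : p.Prime).pos
  have hev : ∀ P : ℤ[X], aeval hζ.toInteger P = 0 → cyclotomic p ℤ ∣ P := by
    intro P hP
    rw [hmin]
    apply minpoly.isIntegrallyClosed_dvd hint
    have := congrArg (algebraMap (𝓞 K) K) hP
    rw [← aeval_algebraMap_apply, map_zero] at this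
    exact this
  refine ⟨U, V, hev _ ?_, hev _ ?_⟩
  · simp only [map_sub, map_mul, map_pow, aeval_X, map_one, ← hU]
    rw [hu]; simp
  · simp only [map_sub, map_mul, map_one, ← hU, ← hV]
    simp

theorem cyc_poly (p : ℕ) [Fact p.Prime] : ∃ U V : ℤ[X],
    cyclotomic p ℤ ∣ (X - 1) ^ (p - 1) * U - C (p : ℤ) ∧ cyclotomic p ℤ ∣ U * V - 1 :=
  haveI : NeZero p := ⟨(Fact.out : p.Prime).ne_zero⟩
  haveI : IsCyclotomicExtension {p} ℚ (CyclotomicField p ℚ) :=
    CyclotomicField.isCyclotomicExtension p ℚ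
  cyc_poly_aux p (CyclotomicField p ℚ)

variable {B : Type*} [AddCommGroup B]

theorem cyc_module (p : ℕ) [Fact p.Prime] (s : AddMonoid.End B)
    (hs : ∑ i ∈ Finset.range p, s ^ i = 0) (hp : FinQ ((p : AddMonoid.End B) : B →+ B)) :
    FinQ ((s - 1 : AddMonoid.End B) : B →+ B) ∧
      (qq ((s - 1 : AddMonoid.End B) : B →+ B)) ^ (p - 1) = qq ((p : AddMonoid.End B) : B →+ B) := by
  obtain ⟨U, V, h1, h2⟩ := cyc_poly p
  have hcyc : aeval s (cyclotomic p ℤ) = 0 := by
    rw [cyclotomic_prime, map_sum]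
    simpa using hs
  have e1 : (s - 1) ^ (p - 1) * aeval s U = (p : AddMonoid.End B) := by
    obtain ⟨W, hW⟩ := h1
    have := congrArg (aeval s) hW
    rw [map_mul, hcyc, zero_mul, map_sub, map_mul, map_pow, map_sub, aeval_X, map_one,
      sub_eq_zero] at this
    rw [this]; simp
  have e2 : aeval s U * aeval s V = 1 := by
    obtain ⟨W, hW⟩ := h2
    have := congrArg (aeval s) hW
    rw [map_mul, hcyc, zero_mul, map_sub, map_mul, map_one, sub_eq_zero] at this
    exact this
  have e3 : aeval s V * aeval s U = 1 := by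
    rw [← map_mul, mul_comm, map_mul, e2]
  have e4 : aeval s U * (s - 1) ^ (p - 1) = (p : AddMonoid.End B) := by
    rw [← e1]
    have : (s - 1) ^ (p - 1) = aeval s ((X - 1 : ℤ[X]) ^ (p - 1)) := by simp
    rw [this, ← map_mul, mul_comm, map_mul]
  have hu : Function.Bijective (aeval s U : B →+ B) := by
    constructor
    · intro x y hxy
      have hx : aeval s V (aeval s U x) = x := congrArg (fun f : AddMonoid.End B => f x) e3
      have hy : aeval s V (aeval s U y) = y := congrArg (fun f : AddMonoid.End B => f y) e3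
      rw [← hx, ← hy]
      exact congrArg _ hxy
    · intro x
      exact ⟨aeval s V x, congrArg (fun f : AddMonoid.End B => f x) e2⟩
  have hD : FinQ (((s - 1) ^ (p - 1) : AddMonoid.End B) : B →+ B) := finQ_of_comm hp e1 e4
  have hp1 : p - 1 = (p - 2) + 1 := by
    have := (Fact.out : p.Prime).two_le
    omega
  have hD1 : FinQ ((s - 1 : AddMonoid.End B) : B →+ B) := by
    refine finQ_of_comm hD (ψ := (s - 1) ^ (p - 2)) ?_ ?_
    · rw [hp1, pow_succ']
    · rw [hp1, pow_succ]
  refine ⟨hD1, ?_⟩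
  rw [← (finQ_pow hD1 (p - 1)).2]
  have hu' := finQ_of_bijective hu
  have : ((p : AddMonoid.End B) : B →+ B) =
    (((s - 1) ^ (p - 1) : AddMonoid.End B) : B →+ B).comp (aeval s U : B →+ B) := by
    rw [← e1]; rfl
  rw [this, qq_comp hD hu'.1, hu'.2, mul_one]

end Cyc

section Tate

variable {A : Type*} [AddCommGroup A]

/-- `s - 1` -/
def dE (s : A →+ A) : A →+ A := s - AddMonoidHom.id A

/-- view as an element of the endomorphism ring -/
def toE (s : A →+ A) : AddMonoid.End A := s

/-- `1 + s + ... + s^(n-1)` -/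
noncomputable def nE (n : ℕ) (s : A →+ A) : A →+ A :=
  ((∑ i ∈ Finset.range n, toE s ^ i : AddMonoid.End A) : A →+ A)

/-- multiplication by `n` -/
def mE (A : Type*) [AddCommGroup A] (n : ℕ) : A →+ A := ((n : AddMonoid.End A) : A →+ A)

@[simp] theorem dE_apply (s : A →+ A) (x : A) : dE s x = s x - x := rfl

@[simp] theorem mE_apply (n : ℕ) (x : A) : mE A n x = n • x := rfl

theorem end_sum_apply {ι : Type*} (t : Finset ι) (f : ι → AddMonoid.End A) (x : A) :
    ((∑ i ∈ t, f i : AddMonoid.End A) : A →+ A) x = ∑ i ∈ t, f i x := by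
  classical
  induction t using Finset.induction_on with
  | empty => simp
  | insert a t ha ih =>
    rw [Finset.sum_insert ha, Finset.sum_insert ha, ← ih]; rfl

theorem end_pow_apply (s : A →+ A) (n : ℕ) (x : A) :
    (toE s ^ n) x = s^[n] x := by
  induction n generalizing x with
  | zero => rfl
  | succ n ih =>
    rw [pow_succ, Function.iterate_succ_apply]
    exact ih (s x)

theorem nE_apply (n : ℕ) (s : A →+ A) (x : A) :
    nE n s x = ∑ i ∈ Finset.range n, s^[i] x := by
  refine (end_sum_apply (Finset.range n) (fun i => toE s ^ i) x).trans ?_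
  exact Finset.sum_congr rfl fun i _ => end_pow_apply s i x

theorem dE_nE {n : ℕ} {s : A →+ A} (hs : ∀ x, s^[n] x = x) (x : A) : dE s (nE n s x) = 0 := by
  rw [dE_apply, nE_apply, map_sum]
  have : ∀ i, s (s^[i] x) = s^[i + 1] x := fun i => (Function.iterate_succ_apply' s i x).symm
  simp_rw [this]
  rw [← Finset.sum_sub_distrib, Finset.sum_range_sub (fun i => s^[i] x), hs]
  simp

theorem nE_dE {n : ℕ} {s : A →+ A} (hs : ∀ x, s^[n] x = x) (x : A) : nE n s (dE s x) = 0 := by
  rw [dE_apply, map_sub, nE_apply, nE_apply]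
  have : ∀ i, s^[i] (s x) = s^[i + 1] x := fun i => (Function.iterate_succ_apply s i x).symm
  simp_rw [this]
  rw [← Finset.sum_sub_distrib, Finset.sum_range_sub (fun i => s^[i] x), hs]
  simp

theorem nE_of_fixed {n : ℕ} {s : A →+ A} {x : A} (hx : s x = x) : nE n s x = n • x := by
  rw [nE_apply]
  have : ∀ i, s^[i] x = x := fun i => Function.iterate_fixed hx i
  simp [this]

/-- **Tate's lemma**: if `s` is an endomorphism of prime order `p` of an abelian group `A` with
`A/pA` and `A[p]` finite, then (with `H⁰ = ker (s-1)/im N`, `H⁻¹ = ker N/ im (s-1)`)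
`(|H⁰|/|H⁻¹|)^(p-1) = q(A^s)^p / q(A)`, `q(A) = |A/pA| / |A[p]|`. -/
theorem tate_lemma (p : ℕ) [Fact p.Prime] (s : A →+ A) (hs : ∀ x, s^[p] x = x)
    (hp : FinQ (mE A p)) :
    hcAdd (dE s) (nE p s) ≠ 0 ∧ hcAdd (nE p s) (dE s) ≠ 0 ∧ FinQ (mE (dE s).ker p) ∧
      ((hcAdd (dE s) (nE p s) : ℚ) / hcAdd (nE p s) (dE s)) ^ (p - 1) * qq (mE A p)
        = qq (mE (dE s).ker p) ^ p := by
  set D := dE s with hD
  set N := nE p s with hN
  have hDN : ∀ x, D (N x) = 0 := dE_nE hs
  have hND : ∀ x, N (D x) = 0 := nE_dE hs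
  -- restriction of `s` to `B = im D`
  have hsD : ∀ x ∈ D.range, s x ∈ D.range := by
    rintro _ ⟨x, rfl⟩
    exact ⟨s x, by simp [hD]⟩
  let sB : D.range →+ D.range := (s.comp D.range.subtype).codRestrict D.range
    (fun x => hsD _ x.2)
  have hsB : ∀ x : D.range, ((sB x : D.range) : A) = s x := fun x => rfl
  have hsBi : ∀ (n : ℕ) (x : D.range), ((sB^[n] x : D.range) : A) = s^[n] x := by
    intro n
    induction n with
    | zero => intro x; rfl
    | succ n ih =>
      intro x
      rw [Function.iterate_succ_apply, ih, hsB, Function.iterate_succ_apply]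
  -- p on B
  have hpB : FinQ (mE D.range p) := by
    constructor
    · have h1 : (mE D.range p).range = (mE A p).range.map D.rangeRestrict := by
        ext x
        simp only [AddMonoidHom.mem_range, AddSubgroup.mem_map]
        constructor
        · rintro ⟨⟨_, y, rfl⟩, rfl⟩
          refine ⟨p • y, ⟨y, rfl⟩, ?_⟩
          ext
          simp
        · rintro ⟨_, ⟨y, rfl⟩, rfl⟩
          refine ⟨D.rangeRestrict y, ?_⟩
          ext
          simp
      rw [h1]
      intro h0
      have := AddSubgroup.index_map_dvd (mE A p).range (f := D.rangeRestrict)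
        (AddMonoidHom.rangeRestrict_surjective D)
      rw [h0, zero_dvd_iff] at this
      exact hp.1 this
    · intro h0
      apply hp.2
      rw [Nat.card_eq_zero] at h0 ⊢
      right
      rcases h0 with h0 | h0
      · exact (h0.false ⟨0, (mE D.range p).ker.zero_mem⟩).elim
      · refine Infinite.of_injective (fun x : (mE D.range p).ker =>
          (⟨((x : D.range) : A), ?_⟩ : (mE A p).ker)) ?_
        · exact congrArg Subtype.val (show p • (x : D.range) = 0 from x.2)
        · intro x y hxy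
          simp only [Subtype.mk.injEq] at hxy
          exact Subtype.ext (Subtype.ext hxy)
  -- N = 0 on B
  have hcyc := cyc_module p (toE sB) (by
    refine AddMonoidHom.ext fun x => ?_
    rw [show ((∑ i ∈ Finset.range p, toE sB ^ i : AddMonoid.End D.range) :
      D.range →+ D.range) = nE p sB from rfl, nE_apply]
    obtain ⟨x, y, rfl⟩ := x
    ext
    rw [AddSubgroup.val_finsetSum]
    simp_rw [hsBi]
    exact (nE_apply p s (D y)).symm.trans (hND y)) hpB
  obtain ⟨hDB, hqB⟩ := hcyc
  change FinQ (dE sB) at hDB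
  change (qq (dE sB)) ^ (p - 1) = qq (mE D.range p) at hqB
  -- exactness data
  have hex : D.ker.subtype.range = D.rangeRestrict.ker := by
    rw [AddSubgroup.range_subtype, AddMonoidHom.ker_rangeRestrict]
  have hinj : Function.Injective D.ker.subtype := AddSubgroup.subtype_injective _
  have hsurj : Function.Surjective D.rangeRestrict := AddMonoidHom.rangeRestrict_surjective D
  have key1 := q_exact D.ker.subtype D.rangeRestrict hinj hsurj hex (mE D.ker p) (mE A p)
    (mE D.range p) (fun x => by simp) (fun x => by ext; simp)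
  -- p on A^s
  have hk0 : Nat.card (mE D.ker p).ker ≠ 0 := by
    intro h0
    apply hp.2
    rw [Nat.card_eq_zero] at h0 ⊢
    right
    rcases h0 with h0 | h0
    · exact (h0.false ⟨0, (mE D.ker p).ker.zero_mem⟩).elim
    · refine Infinite.of_injective (fun x : (mE D.ker p).ker =>
        (⟨((x : D.ker) : A), ?_⟩ : (mE A p).ker)) ?_
      · exact congrArg Subtype.val (show p • (x : D.ker) = 0 from x.2)
      · intro x y hxy
        simp only [Subtype.mk.injEq] at hxy
        exact Subtype.ext (Subtype.ext hxy)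
  have hp0 : FinQ (mE D.ker p) := by
    refine ⟨?_, hk0⟩
    intro h0
    rw [h0, zero_mul, zero_mul] at key1
    exact Nat.mul_ne_zero (Nat.mul_ne_zero hk0 hpB.2) hp.1 key1.symm
  -- Herbrand for D, N
  have key2 := herbrand_add D.ker.subtype D.rangeRestrict hinj hsurj hex 0 (mE D.ker p) D N
    (dE sB) 0
    (fun x => by
      have : D x = 0 := x.2
      simp [this])
    (fun x => by
      have hx : s (x : A) - x = 0 := x.2
      have : s (x : A) = x := sub_eq_zero.1 hx
      simp only [AddSubgroup.coe_subtype, mE_apply, AddSubgroup.coe_nsmul]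
      exact (nE_of_fixed this).symm)
    (fun x => by
      ext
      simp only [AddMonoidHom.coe_rangeRestrict, dE_apply, AddSubgroup.coe_sub, hsB]
      rw [hD]; rfl)
    (fun x => by
      ext
      simp only [AddMonoidHom.coe_rangeRestrict, AddMonoidHom.zero_apply, AddSubgroup.coe_zero]
      exact hDN x) hDN hND
  rw [hcAdd_zero_left, hcAdd_zero_right, hcAdd_zero_right, hcAdd_zero_left] at key2
  -- H⁰ finite
  have hH0 : hcAdd D N ≠ 0 := by
    unfold hcAdd
    intro h0
    apply hp0.1
    have h1 : ((mE D.ker p).range.map D.ker.subtype) ≤ N.range := by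
      rintro _ ⟨_, ⟨x, rfl⟩, rfl⟩
      refine ⟨x, ?_⟩
      have hx : s (x : A) - x = 0 := x.2
      have : s (x : A) = x := sub_eq_zero.1 hx
      simp only [AddSubgroup.coe_subtype, mE_apply, AddSubgroup.coe_nsmul]
      exact nE_of_fixed this
    have h2 := AddSubgroup.relIndex_eq_zero_of_le_left h1 h0
    have h3 : (mE D.ker p).range.index =
        ((mE D.ker p).range.map D.ker.subtype).relIndex D.ker := by
      have := AddSubgroup.relIndex_map_map_of_injective (mE D.ker p).range ⊤ hinj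
      rw [AddSubgroup.relIndex_top_right] at this
      rw [← this, ← AddMonoidHom.range_eq_map, AddSubgroup.range_subtype]
    rw [h3]; exact h2
  have hH1 : hcAdd N D ≠ 0 := by
    intro h0
    rw [h0, mul_zero] at key2
    exact Nat.mul_ne_zero (Nat.mul_ne_zero hk0 hDB.1) hH0 key2.symm
  refine ⟨hH0, hH1, hp0, ?_⟩
  have a1 : ((hcAdd D N : ℚ) / hcAdd N D) * qq (dE sB) = qq (mE D.ker p) := by
    have b1 := Nat.cast_ne_zero (R := ℚ).2 hH1
    have b2 := Nat.cast_ne_zero (R := ℚ).2 hDB.2
    have b3 := Nat.cast_ne_zero (R := ℚ).2 hk0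
    have key2' : ((mE D.ker p).range.index : ℚ) * Nat.card (dE sB).ker * hcAdd N D =
      Nat.card (mE D.ker p).ker * (dE sB).range.index * hcAdd D N := by exact_mod_cast key2
    unfold qq
    field_simp
    linarith [key2']
  have a2 : qq (mE A p) = qq (mE D.ker p) * qq (mE D.range p) := by
    have b1 := Nat.cast_ne_zero (R := ℚ).2 hp.2
    have b2 := Nat.cast_ne_zero (R := ℚ).2 hpB.2
    have b3 := Nat.cast_ne_zero (R := ℚ).2 hk0
    have key1' : ((mE D.ker p).range.index : ℚ) * (mE D.range p).range.index *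
      Nat.card (mE A p).ker =
      Nat.card (mE D.ker p).ker * Nat.card (mE D.range p).ker * (mE A p).range.index := by
      exact_mod_cast key1
    unfold qq
    field_simp
    linarith [key1']
  have hp1 : p = (p - 1) + 1 := by
    have := (Fact.out : p.Prime).two_le
    omega
  calc ((hcAdd D N : ℚ) / hcAdd N D) ^ (p - 1) * qq (mE A p)
      = (((hcAdd D N : ℚ) / hcAdd N D) * qq (dE sB)) ^ (p - 1) * qq (mE D.ker p) := by
        rw [a2, ← hqB, mul_pow]; ring
    _ = qq (mE D.ker p) ^ p := by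
        rw [a1, ← pow_succ, ← hp1]

end Tate

section Mul

variable {M : Type*} [CommGroup M]

/-- multiplicative `s - 1`: `x ↦ s x / x` -/
def dM (s : M →* M) : M →* M := s / MonoidHom.id M

/-- multiplicative norm `x ↦ ∏_{i<n} s^i x` -/
def nM (n : ℕ) (s : M →* M) : M →* M where
  toFun x := ∏ i ∈ Finset.range n, s^[i] x
  map_one' := by
    have : ∀ i, s^[i] (1 : M) = 1 := fun i => Function.iterate_fixed (map_one s) i
    simp [this]
  map_mul' x y := by
    rw [← Finset.prod_mul_distrib]
    refine Finset.prod_congr rfl fun i _ => ?_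
    exact iterate_map_mul s i x y

@[simp] theorem dM_apply (s : M →* M) (x : M) : dM s x = s x / x := rfl

theorem nM_apply (n : ℕ) (s : M →* M) (x : M) : nM n s x = ∏ i ∈ Finset.range n, s^[i] x := rfl

/-- `|coker φ| / |ker φ|`, multiplicative version -/
noncomputable def qM (φ : M →* M) : ℚ := (φ.range.index : ℚ) / (Nat.card φ.ker : ℚ)

theorem hc_eq_hcAdd (f g : M →* M) :
    hc f g = hcAdd (MonoidHom.toAdditive f) (MonoidHom.toAdditive g) := by
  unfold hc hcAdd
  rw [MonoidHom.coe_toAdditive_ker, MonoidHom.coe_toAdditive_range,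
    Subgroup.relIndex_toAddSubgroup]

theorem qM_eq (f : M →* M) : qM f = qq (MonoidHom.toAdditive f) := by
  unfold qM qq
  rw [MonoidHom.coe_toAdditive_ker, MonoidHom.coe_toAdditive_range,
    Subgroup.index_toAddSubgroup]
  rfl

theorem finQ_iff (f : M →* M) : FinQ (MonoidHom.toAdditive f) ↔
    f.range.index ≠ 0 ∧ Nat.card f.ker ≠ 0 := by
  unfold FinQ
  rw [MonoidHom.coe_toAdditive_ker, MonoidHom.coe_toAdditive_range,
    Subgroup.index_toAddSubgroup]
  rfl

theorem dM_toAdditive (s : M →* M) :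
    MonoidHom.toAdditive (dM s) = dE (MonoidHom.toAdditive s) := rfl

theorem iterate_toAdditive (s : M →* M) (i : ℕ) (x : Additive M) :
    (MonoidHom.toAdditive s)^[i] x = Additive.ofMul (s^[i] x.toMul) := by
  induction i generalizing x with
  | zero => rfl
  | succ n ih => rw [Function.iterate_succ_apply, ih, Function.iterate_succ_apply]; rfl

theorem nM_toAdditive (n : ℕ) (s : M →* M) :
    MonoidHom.toAdditive (nM n s) = nE n (MonoidHom.toAdditive s) := by
  refine AddMonoidHom.ext fun x => ?_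
  rw [nE_apply]
  simp_rw [iterate_toAdditive]
  rw [← ofMul_prod]
  rfl

theorem dM_nM {n : ℕ} {s : M →* M} (hs : ∀ x, s^[n] x = x) (x : M) : dM s (nM n s x) = 1 := by
  have := dE_nE (s := MonoidHom.toAdditive s) (n := n)
    (fun x => by rw [iterate_toAdditive, hs]; rfl) (Additive.ofMul x)
  rw [← nM_toAdditive, ← dM_toAdditive] at this
  exact this

theorem nM_dM {n : ℕ} {s : M →* M} (hs : ∀ x, s^[n] x = x) (x : M) : nM n s (dM s x) = 1 := by
  have := nE_dE (s := MonoidHom.toAdditive s) (n := n)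
    (fun x => by rw [iterate_toAdditive, hs]; rfl) (Additive.ofMul x)
  rw [← nM_toAdditive, ← dM_toAdditive] at this
  exact this

/-- **Tate's lemma**, multiplicative version. `M^s = (dM s).ker`. -/
theorem tate_lemma_mul (p : ℕ) [Fact p.Prime] (s : M →* M) (hs : ∀ x, s^[p] x = x)
    (h1 : (powMonoidHom p : M →* M).range.index ≠ 0)
    (h2 : Nat.card (powMonoidHom p : M →* M).ker ≠ 0) :
    hc (dM s) (nM p s) ≠ 0 ∧ hc (nM p s) (dM s) ≠ 0 ∧
    (powMonoidHom p : (dM s).ker →* (dM s).ker).range.index ≠ 0 ∧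
    Nat.card (powMonoidHom p : (dM s).ker →* (dM s).ker).ker ≠ 0 ∧
      ((hc (dM s) (nM p s) : ℚ) / hc (nM p s) (dM s)) ^ (p - 1) * qM (powMonoidHom p : M →* M)
        = qM (powMonoidHom p : (dM s).ker →* (dM s).ker) ^ p := by
  have e1 : MonoidHom.toAdditive (powMonoidHom p : M →* M) = mE (Additive M) p := rfl
  have key := tate_lemma p (MonoidHom.toAdditive s)
    (fun x => by rw [iterate_toAdditive, hs]; rfl) (by
      rw [← e1, finQ_iff]; exact ⟨h1, h2⟩)
  obtain ⟨a, b, c, d⟩ := key
  have a' : hcAdd (dE (MonoidHom.toAdditive s)) (nE p (MonoidHom.toAdditive s)) =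
      hc (dM s) (nM p s) := by rw [hc_eq_hcAdd, dM_toAdditive, nM_toAdditive]
  have b' : hcAdd (nE p (MonoidHom.toAdditive s)) (dE (MonoidHom.toAdditive s)) =
      hc (nM p s) (dM s) := by rw [hc_eq_hcAdd, dM_toAdditive, nM_toAdditive]
  have c' : FinQ (MonoidHom.toAdditive (powMonoidHom p : (dM s).ker →* (dM s).ker)) := c
  have d' : qq (mE (dE (MonoidHom.toAdditive s)).ker p) =
    qM (powMonoidHom p : (dM s).ker →* (dM s).ker) := by
    rw [qM_eq]; rfl
  rw [a', b', d', ← e1, ← qM_eq] at d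
  rw [finQ_iff] at c'
  exact ⟨a' ▸ a, b' ▸ b, c'.1, c'.2, d⟩

end Mul

end Fermat.Agent.CFT.Herbrand
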