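import Mathlib
import Fermat.Agent.CFT.Herbrand
import Fermat.Agent.CFT.SUnits

/-!
# Herbrand quotient of `S`-units for cyclic extensions of prime degree
-/

set_option autoImplicit false
set_option linter.unusedSectionVars false

open NumberField IsDedekindDomain Module

namespace Fermat.Agent.CFT.SUH

section transport

variable {R R' : Type*} [CommRing R] [IsDedekindDomain R] [CommRing R'] [IsDedekindDomain R']

theorem intValuation_equiv (e : R ≃+* R') (v : HeightOneSpectrum R) (r : R) :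
    (HeightOneSpectrum.equivOfRingEquiv e v).intValuation (e r) = v.intValuation r := by
  by_cases hr : r = 0
  · subst hr; simp
  have hr' : e r ≠ 0 := by simpa using hr
  have key : ∀ n : ℕ, (HeightOneSpectrum.equivOfRingEquiv e v).asIdeal ^ n ∣ Ideal.span {e r} ↔
      v.asIdeal ^ n ∣ Ideal.span {r} := by
    intro n
    rw [Ideal.dvd_span_singleton, Ideal.dvd_span_singleton]
    have h1 : (HeightOneSpectrum.equivOfRingEquiv e v).asIdeal = v.asIdeal.map (e : R →+* R') := by
      rw [HeightOneSpectrum.equivOfRingEquiv_apply, HeightOneSpectrum.comap_asIdeal]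
      exact (Ideal.map_comap_of_equiv e (I := v.asIdeal)).symm
    rw [h1, ← Ideal.map_pow, Ideal.mem_map_iff_of_surjective (e : R →+* R') e.surjective]
    constructor
    · rintro ⟨x, hx, hxe⟩
      have : x = r := e.injective hxe
      exact this ▸ hx
    · intro h; exact ⟨r, h, rfl⟩
  rw [(HeightOneSpectrum.equivOfRingEquiv e v).intValuation_eq_exp_neg_multiplicity hr',
    v.intValuation_eq_exp_neg_multiplicity hr]
  have : emultiplicity (HeightOneSpectrum.equivOfRingEquiv e v).asIdeal (Ideal.span {e r}) =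
      emultiplicity v.asIdeal (Ideal.span {r}) := by
    rw [emultiplicity_eq_emultiplicity_iff]
    intro n; exact key n
  rw [multiplicity_eq_of_emultiplicity_eq this]

end transport

section number

variable {K F : Type*} [Field K] [NumberField K] [Field F] [NumberField F] [Algebra K F]

/-- action of an automorphism on the finite places -/
noncomputable def act (σ : F ≃ₐ[K] F) (w : HeightOneSpectrum (𝓞 F)) : HeightOneSpectrum (𝓞 F) :=
  HeightOneSpectrum.equivOfRingEquiv (RingOfIntegers.mapRingEquiv σ.toRingEquiv) w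

theorem valuation_act (σ : F ≃ₐ[K] F) (w : HeightOneSpectrum (𝓞 F)) (x : F) :
    (act σ w).valuation F (σ x) = w.valuation F x := by
  obtain ⟨a, b, hb, rfl⟩ := IsFractionRing.div_surjective (A := 𝓞 F) x
  have h : ∀ r : 𝓞 F, σ (algebraMap (𝓞 F) F r) =
    algebraMap (𝓞 F) F (RingOfIntegers.mapRingEquiv σ.toRingEquiv r) := fun r => rfl
  rw [map_div₀ σ, map_div₀, map_div₀, h, h, HeightOneSpectrum.valuation_of_algebraMap,
    HeightOneSpectrum.valuation_of_algebraMap, HeightOneSpectrum.valuation_of_algebraMap,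
    HeightOneSpectrum.valuation_of_algebraMap, act, intValuation_equiv, intValuation_equiv]

variable (K) in
/-- the place of `K` below a place of `F` -/
def below (w : HeightOneSpectrum (𝓞 F)) : HeightOneSpectrum (𝓞 K) where
  asIdeal := w.asIdeal.under (𝓞 K)
  isPrime := inferInstance
  ne_bot := Ideal.IsIntegral.comap_ne_bot (𝓞 K) w.ne_bot

instance (w : HeightOneSpectrum (𝓞 F)) : w.asIdeal.LiesOver (below K w).asIdeal := ⟨rfl⟩

theorem below_eq_iff (w : HeightOneSpectrum (𝓞 F)) (v : HeightOneSpectrum (𝓞 K)) :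
    below K w = v ↔ w.asIdeal.LiesOver v.asIdeal := by
  constructor
  · rintro rfl; infer_instance
  · intro h
    ext1
    exact h.over.symm

/-- the places of `F` above those in `S` -/
def above (F : Type*) [Field F] [NumberField F] [Algebra K F]
    (S : Set (HeightOneSpectrum (𝓞 K))) : Set (HeightOneSpectrum (𝓞 F)) :=
  {w | below K w ∈ S}

theorem below_act (σ : F ≃ₐ[K] F) (w : HeightOneSpectrum (𝓞 F)) :
    below K (act σ w) = below K w := by
  ext x
  have : (RingOfIntegers.mapRingEquiv σ.toRingEquiv).symm (algebraMap (𝓞 K) (𝓞 F) x) =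
      algebraMap (𝓞 K) (𝓞 F) x := by
    rw [RingEquiv.symm_apply_eq]
    ext
    exact (σ.commutes (x : K)).symm
  show (RingOfIntegers.mapRingEquiv σ.toRingEquiv).symm (algebraMap (𝓞 K) (𝓞 F) x) ∈ w.asIdeal ↔ _
  rw [this]
  rfl

theorem act_act (σ τ : F ≃ₐ[K] F) (w : HeightOneSpectrum (𝓞 F)) :
    act σ (act τ w) = act (σ * τ) w := by
  ext x
  rfl

theorem act_one (w : HeightOneSpectrum (𝓞 F)) : act (1 : F ≃ₐ[K] F) w = w := by
  ext x
  rfl

theorem mem_unit_act {S : Set (HeightOneSpectrum (𝓞 K))} (σ : F ≃ₐ[K] F) {x : Fˣ}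
    (hx : x ∈ (above F S).unit F) : Units.map (σ : F →* F) x ∈ (above F S).unit F := by
  intro w hw
  have h1 : act σ (act σ⁻¹ w) = w := by rw [act_act, mul_inv_cancel, act_one]
  have h2 : act σ⁻¹ w ∉ above F S := by
    intro h
    apply hw
    have : below K (act σ⁻¹ w) ∈ S := h
    rw [below_act] at this
    exact this
  have h3 := hx (act σ⁻¹ w) h2
  have h4 := valuation_act σ (act σ⁻¹ w) (x : F)
  rw [h1] at h4
  exact h4.trans h3

/-- the action of an automorphism on `S`-units -/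
noncomputable def sAct (S : Set (HeightOneSpectrum (𝓞 K))) (σ : F ≃ₐ[K] F) :
    (above F S).unit F →* (above F S).unit F :=
  ((Units.map (σ : F →* F)).comp ((above F S).unit F).subtype).codRestrict _
    (fun x => mem_unit_act σ x.2)

@[simp] theorem coe_sAct (S : Set (HeightOneSpectrum (𝓞 K))) (σ : F ≃ₐ[K] F)
    (x : (above F S).unit F) : ((sAct S σ x : Fˣ) : F) = σ ((x : Fˣ) : F) := rfl

theorem coe_sAct_iterate (S : Set (HeightOneSpectrum (𝓞 K))) (σ : F ≃ₐ[K] F)
    (n : ℕ) (x : (above F S).unit F) :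
    (((sAct S σ)^[n] x : Fˣ) : F) = (σ ^ n) ((x : Fˣ) : F) := by
  induction n generalizing x with
  | zero => rfl
  | succ n ih =>
    rw [Function.iterate_succ_apply, ih, coe_sAct, pow_succ]
    rfl

theorem exists_above (v : HeightOneSpectrum (𝓞 K)) :
    ∃ w : HeightOneSpectrum (𝓞 F), below K w = v := by
  obtain ⟨Q, hQ1, hQ2⟩ := Ideal.exists_ideal_over_prime_of_isIntegral_of_isDomain (S := 𝓞 F)
    v.asIdeal (by
      rw [(RingHom.injective_iff_ker_eq_bot _).1 (FaithfulSMul.algebraMap_injective (𝓞 K) (𝓞 F))]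
      exact bot_le)
  refine ⟨⟨Q, hQ1, ?_⟩, ?_⟩
  · rintro rfl
    apply v.ne_bot
    rw [← hQ2]
    exact Ideal.comap_bot_of_injective _ (FaithfulSMul.algebraMap_injective (𝓞 K) (𝓞 F))
  · ext1
    exact hQ2

theorem valuation_below (w : HeightOneSpectrum (𝓞 F)) (x : K) :
    w.valuation F (algebraMap K F x) = 1 ↔ (below K w).valuation K x = 1 := by
  rw [← HeightOneSpectrum.valuation_liesOver F (below K w) w x]
  have : (below K w).asIdeal.ramificationIdx' w.asIdeal ≠ 0 :=
    Ideal.IsDedekindDomain.ramificationIdx'_ne_zero_of_liesOver w.asIdeal (below K w).ne_bot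
  rw [pow_eq_one_iff]
  simp [this]

theorem algebraMap_mem_unit_iff {S : Set (HeightOneSpectrum (𝓞 K))} (x : Kˣ) :
    Units.map (algebraMap K F : K →* F) x ∈ (above F S).unit F ↔ x ∈ S.unit K := by
  constructor
  · intro h v hv
    obtain ⟨w, rfl⟩ := exists_above (F := F) v
    exact (valuation_below w (x : K)).1 (h w hv)
  · intro h w hw
    exact (valuation_below w (x : K)).2 (h (below K w) hw)

theorem finite_above {S : Set (HeightOneSpectrum (𝓞 K))} (hS : S.Finite) :
    (above F S).Finite := by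
  have h1 : above F S ⊆ ⋃ v ∈ S, (fun w : HeightOneSpectrum (𝓞 F) => w.asIdeal) ⁻¹'
      (Ideal.primesOver v.asIdeal (𝓞 F)) := by
    intro w hw
    simp only [Set.mem_iUnion, Set.mem_preimage]
    exact ⟨below K w, hw, w.isPrime, inferInstance⟩
  refine Set.Finite.subset (hS.biUnion fun v _ => ?_) h1
  exact Set.Finite.preimage (fun a _ b _ h => HeightOneSpectrum.ext h)
    (IsDedekindDomain.primesOver_finite v.asIdeal (𝓞 F))

instance finite_above' (S : Set (HeightOneSpectrum (𝓞 K))) [Finite S] :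
    Finite (above F S) := finite_above (Set.toFinite S)

/-- number of places above `v` -/
noncomputable def gnum (F : Type*) [Field F] [NumberField F] [Algebra K F]
    (v : HeightOneSpectrum (𝓞 K)) : ℕ := (Ideal.primesOver v.asIdeal (𝓞 F)).ncard

theorem ne_bot_of_over (v : HeightOneSpectrum (𝓞 K)) (Q : Ideal (𝓞 F)) (h : Q.LiesOver v.asIdeal) :
    Q ≠ ⊥ := by
  intro h0
  rw [h0] at h
  apply v.ne_bot
  rw [h.over]
  exact Ideal.comap_bot_of_injective _ (FaithfulSMul.algebraMap_injective (𝓞 K) (𝓞 F))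

/-- the places above `v` -/
noncomputable def fiberEquiv (S : Set (HeightOneSpectrum (𝓞 K))) (v : S) :
    {w : above F S // (⟨below K w.1, w.2⟩ : S) = v} ≃
      Ideal.primesOver (v : HeightOneSpectrum (𝓞 K)).asIdeal (𝓞 F) where
  toFun w := ⟨w.1.1.asIdeal, w.1.1.isPrime, by
    rw [← congrArg Subtype.val w.2]
    infer_instance⟩
  invFun Q := ⟨⟨⟨Q.1, Q.2.1, ne_bot_of_over _ _ Q.2.2⟩, by
    show below K _ ∈ S
    rw [(below_eq_iff (⟨Q.1, Q.2.1, ne_bot_of_over _ _ Q.2.2⟩ : HeightOneSpectrum (𝓞 F)) v.1).2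
      Q.2.2]
    exact v.2⟩, Subtype.ext
      ((below_eq_iff (⟨Q.1, Q.2.1, ne_bot_of_over _ _ Q.2.2⟩ : HeightOneSpectrum (𝓞 F)) v.1).2
      Q.2.2)⟩
  left_inv w := rfl
  right_inv Q := rfl

theorem card_above (S : Set (HeightOneSpectrum (𝓞 K))) [Finite S] [Fintype S] :
    Nat.card (above F S) = ∑ v : S, gnum F (v : HeightOneSpectrum (𝓞 K)) := by
  rw [← Nat.card_congr (Equiv.sigmaFiberEquiv (fun w : above F S => (⟨below K w.1, w.2⟩ : S))),
    Nat.card_sigma]
  refine Finset.sum_congr rfl fun v _ => ?_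
  rw [Nat.card_congr (fiberEquiv S v)]
  rfl

variable [IsGalois K F]

theorem gnum_dvd (v : HeightOneSpectrum (𝓞 K)) : gnum F v ∣ finrank K F := by
  have := Ideal.ncard_primesOver_mul_ramificationIdxIn_mul_inertiaDegIn v.asIdeal (𝓞 F) Gal(F/K)
  rw [IsGalois.card_aut_eq_finrank] at this
  exact ⟨_, this.symm⟩

/-- number of places of `S` which do not split in `F` -/
noncomputable def nonsplit (F : Type*) [Field F] [NumberField F] [Algebra K F]
    (S : Set (HeightOneSpectrum (𝓞 K))) : ℕ := Nat.card {v : S // gnum F (v : HeightOneSpectrum (𝓞 K)) = 1}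

theorem card_above_eq {p : ℕ} (hp : p.Prime) (hdeg : finrank K F = p)
    (S : Set (HeightOneSpectrum (𝓞 K))) [Finite S] :
    Nat.card (above F S) + (p - 1) * nonsplit F S = p * Nat.card S := by
  classical
  have := Fintype.ofFinite S
  rw [card_above, nonsplit, Nat.card_eq_fintype_card, Fintype.card_subtype, Nat.card_eq_fintype_card,
    Finset.card_filter, Finset.mul_sum, ← Finset.sum_add_distrib, Fintype.card, Finset.card_eq_sum_ones,
    Finset.mul_sum]
  refine Finset.sum_congr rfl fun v _ => ?_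
  have h1 := gnum_dvd (F := F) (v : HeightOneSpectrum (𝓞 K))
  rw [hdeg, Nat.dvd_prime hp] at h1
  have := hp.two_le
  rcases h1 with h1 | h1
  · rw [h1]; simp; omega
  · rw [h1, if_neg (by omega)]; simp

open Fermat.Agent.CFT.Herbrand Fermat.Agent.CFT.SUnits

omit [IsGalois K F] in
theorem zpowers_eq_top [FiniteDimensional K F] [IsGalois K F] {p : ℕ} [hp : Fact p.Prime]
    (hdeg : finrank K F = p) {σ : F ≃ₐ[K] F} (hσ : σ ≠ 1) : Subgroup.zpowers σ = ⊤ := by
  have h1 : Nat.card (F ≃ₐ[K] F) = p := by rw [IsGalois.card_aut_eq_finrank, hdeg]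
  exact zpowers_eq_top_of_prime_card h1 hσ

omit [IsGalois K F] in
theorem pow_eq_one' [FiniteDimensional K F] [IsGalois K F] {p : ℕ}
    (hdeg : finrank K F = p) (σ : F ≃ₐ[K] F) : σ ^ p = 1 := by
  have h1 : Nat.card (F ≃ₐ[K] F) = p := by rw [IsGalois.card_aut_eq_finrank, hdeg]
  rw [← h1]; exact pow_card_eq_one'

theorem mem_range_of_fixed {p : ℕ} [hp : Fact p.Prime]
    (hdeg : finrank K F = p) {σ : F ≃ₐ[K] F} (hσ : σ ≠ 1) {x : F} (hx : σ x = x) :
    x ∈ Set.range (algebraMap K F) := by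
  rw [IsGalois.mem_range_algebraMap_iff_fixed]
  intro τ
  have h1 : τ ∈ Subgroup.zpowers σ := by rw [zpowers_eq_top hdeg hσ]; trivial
  have h2 : Subgroup.zpowers σ ≤ MulAction.stabilizer (F ≃ₐ[K] F) x := by
    rw [Subgroup.zpowers_le]; exact hx
  exact h2 h1

/-- `S`-units of `K` inside the fixed points of the `S`-units of `F` -/
noncomputable def fixedHom (σ : F ≃ₐ[K] F) (S : Set (HeightOneSpectrum (𝓞 K))) :
    S.unit K →* (dM (sAct S σ)).ker where
  toFun x := ⟨⟨Units.map (algebraMap K F : K →* F) x.1,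
    (algebraMap_mem_unit_iff x.1).2 x.2⟩, by
      rw [MonoidHom.mem_ker, dM_apply, div_eq_one]
      ext
      exact σ.commutes _⟩
  map_one' := by ext; simp
  map_mul' x y := by ext; simp

theorem fixedHom_bijective {p : ℕ} [hp : Fact p.Prime] (hdeg : finrank K F = p) {σ : F ≃ₐ[K] F}
    (hσ : σ ≠ 1) (S : Set (HeightOneSpectrum (𝓞 K))) : Function.Bijective (fixedHom σ S) := by
  constructor
  · intro x y hxy
    have h1 := congrArg (fun z : (dM (sAct S σ)).ker => (((z : (above F S).unit F) : Fˣ) : F)) hxy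
    ext
    exact FaithfulSMul.algebraMap_injective K F h1
  · rintro ⟨x, hx⟩
    rw [MonoidHom.mem_ker, dM_apply, div_eq_one] at hx
    have h1 : σ ((x : Fˣ) : F) = ((x : Fˣ) : F) :=
      congrArg (fun z : (above F S).unit F => ((z : Fˣ) : F)) hx
    obtain ⟨y, hy⟩ := mem_range_of_fixed hdeg hσ h1
    have hy0 : y ≠ 0 := by
      rintro rfl
      rw [map_zero] at hy
      exact (x : Fˣ).ne_zero hy.symm
    have hyu : Units.map (algebraMap K F : K →* F) (Units.mk0 y hy0) = (x : Fˣ) := by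
      ext; exact hy
    refine ⟨⟨Units.mk0 y hy0, ?_⟩, ?_⟩
    · rw [← algebraMap_mem_unit_iff (F := F), hyu]
      exact x.2
    · ext; exact hy

/-- the fixed points of the `S`-units of `F` are the `S`-units of `K` -/
noncomputable def fixedEquiv {p : ℕ} [hp : Fact p.Prime] (hdeg : finrank K F = p) {σ : F ≃ₐ[K] F}
    (hσ : σ ≠ 1) (S : Set (HeightOneSpectrum (𝓞 K))) : S.unit K ≃* (dM (sAct S σ)).ker :=
  MulEquiv.ofBijective (fixedHom σ S) (fixedHom_bijective hdeg hσ S)

theorem qM_congr {M M' : Type*} [CommGroup M] [CommGroup M'] (e : M ≃* M') (n : ℕ) :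
    qM (powMonoidHom n : M →* M) = qM (powMonoidHom n : M' →* M') := by
  have h1 : (powMonoidHom n : M' →* M').range =
      (powMonoidHom n : M →* M).range.map (e : M →* M') := by
    ext x
    constructor
    · rintro ⟨y, rfl⟩
      obtain ⟨z, rfl⟩ := e.surjective y
      exact ⟨z ^ n, ⟨z, rfl⟩, by simp⟩
    · rintro ⟨_, ⟨z, rfl⟩, rfl⟩
      exact ⟨e z, by simp⟩
  have h2 : (powMonoidHom n : M' →* M').ker =
      (powMonoidHom n : M →* M).ker.map (e : M →* M') := by
    ext x
    constructor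
    · intro hx
      obtain ⟨z, rfl⟩ := e.surjective x
      refine ⟨z, ?_, rfl⟩
      rw [SetLike.mem_coe, MonoidHom.mem_ker, powMonoidHom_apply] at *
      apply e.injective
      rw [map_pow, hx, map_one]
    · rintro ⟨z, hz, rfl⟩
      rw [SetLike.mem_coe, MonoidHom.mem_ker, powMonoidHom_apply] at *
      show (e z) ^ n = 1
      rw [← map_pow, hz, map_one]
  unfold qM
  rw [h1, h2, Subgroup.index_map_equiv]
  congr 2
  exact Nat.card_congr (Subgroup.equivMapOfInjective _ _ e.injective).toEquiv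

theorem rank_eq {p : ℕ} (hp : p.Prime) (hp2 : p ≠ 2) (hdeg : finrank K F = p) :
    NumberField.Units.rank F + 1 = p * (NumberField.Units.rank K + 1) := by
  have h1 : IsUnramifiedAtInfinitePlaces K F := by
    apply IsUnramifiedAtInfinitePlaces_of_odd_finrank
    rw [hdeg]; exact hp.odd_of_ne_two hp2
  have h2 := IsUnramifiedAtInfinitePlaces.card_infinitePlace K F
  rw [hdeg] at h2
  have h3 : 0 < Fintype.card (InfinitePlace F) := Fintype.card_pos
  have h4 : 0 < Fintype.card (InfinitePlace K) := Fintype.card_pos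
  unfold NumberField.Units.rank
  rw [Nat.sub_add_cancel h3, Nat.sub_add_cancel h4, h2, mul_comm]

theorem qM_fg (A : Type*) [CommGroup A] [Module.Finite ℤ (Additive A)] (p : ℕ)
    (hp : p ≠ 0) (hfin : Nat.card (powMonoidHom p : A →* A).ker ≠ 0) :
    qM (powMonoidHom p : A →* A) = (p : ℚ) ^ (finrank ℤ (Additive A)) := by
  unfold qM
  rw [index_range_pow A p hp]
  push_cast
  rw [mul_div_assoc, div_self (Nat.cast_ne_zero.2 hfin), mul_one]

theorem card_ker_pow_sunit (S : Set (HeightOneSpectrum (𝓞 K))) {p : ℕ} (hp : p ≠ 0) :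
    Nat.card (powMonoidHom p : S.unit K →* S.unit K).ker ≠ 0 := by
  have : NeZero p := ⟨hp⟩
  rw [Nat.card_congr (kerPowEquiv S p hp)]
  exact Nat.card_pos.ne'

/-- **Herbrand quotient of the `S`-units** in a cyclic extension of odd prime degree:
`p * |Ĥ⁰(E_F)| = p^b * |Ĥ⁻¹(E_F)|`, `b` the number of places of `S` which do not split. -/
theorem herbrand_sunit {p : ℕ} [hp : Fact p.Prime] (hp2 : p ≠ 2) (hdeg : finrank K F = p)
    {σ : F ≃ₐ[K] F} (hσ : σ ≠ 1) (S : Set (HeightOneSpectrum (𝓞 K))) [Finite S] :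
    hc (dM (sAct S σ)) (nM p (sAct S σ)) ≠ 0 ∧ hc (nM p (sAct S σ)) (dM (sAct S σ)) ≠ 0 ∧
    p * hc (dM (sAct S σ)) (nM p (sAct S σ)) =
      p ^ nonsplit F S * hc (nM p (sAct S σ)) (dM (sAct S σ)) := by
  have hp0 : p ≠ 0 := hp.out.ne_zero
  have hs : ∀ x, (sAct S σ)^[p] x = x := by
    intro x
    ext
    rw [coe_sAct_iterate, pow_eq_one' hdeg]
    rfl
  have hk := card_ker_pow_sunit (above F S) hp0
  have hi : (powMonoidHom p : (above F S).unit F →* (above F S).unit F).range.index ≠ 0 := by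
    rw [index_range_pow _ p hp0]
    exact Nat.mul_ne_zero (pow_ne_zero _ hp0) hk
  obtain ⟨a, b, c, d, e⟩ := tate_lemma_mul p (sAct S σ) hs hi hk
  refine ⟨a, b, ?_⟩
  rw [← qM_congr (fixedEquiv hdeg hσ S) p, qM_fg _ p hp0 hk,
    qM_fg _ p hp0 (card_ker_pow_sunit S hp0), finrank_sunit, finrank_sunit, ← pow_mul] at e
  have h1 := card_above_eq (F := F) hp.out hdeg S
  have h2 := rank_eq (F := F) hp.out hp2 hdeg
  have hpp : (0 : ℚ) < p := Nat.cast_pos.2 hp.out.pos
  have h3 : (Nat.card S + Units.rank K) * p + (p - 1) =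
      (p - 1) * nonsplit F S + (Nat.card (above F S) + Units.rank F) := by
    have := hp.out.two_le
    have h4 : p * (Units.rank K + 1) = p * Units.rank K + p := by ring
    have h5 : (Nat.card S + Units.rank K) * p = p * Nat.card S + p * Units.rank K := by ring
    omega
  set r : ℚ := (hc (dM (sAct S σ)) (nM p (sAct S σ)) : ℚ) / hc (nM p (sAct S σ)) (dM (sAct S σ))
    with hr
  have hr0 : 0 < r := div_pos (Nat.cast_pos.2 (Nat.pos_of_ne_zero a))
    (Nat.cast_pos.2 (Nat.pos_of_ne_zero b))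
  have h6 : (p * r) ^ (p - 1) = ((p : ℚ) ^ nonsplit F S) ^ (p - 1) := by
    have h7 : (p : ℚ) ^ (Nat.card (above F S) + Units.rank F) ≠ 0 := pow_ne_zero _ hpp.ne'
    apply mul_right_cancel₀ h7
    calc (p * r) ^ (p - 1) * (p : ℚ) ^ (Nat.card (above F S) + Units.rank F)
        = (p : ℚ) ^ (p - 1) * (r ^ (p - 1) * (p : ℚ) ^ (Nat.card (above F S) + Units.rank F)) := by
          rw [mul_pow]; ring
      _ = (p : ℚ) ^ ((Nat.card S + Units.rank K) * p + (p - 1)) := by
          rw [e, pow_add]; ring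
      _ = _ := by
          rw [h3, pow_add, ← pow_mul, mul_comm (p - 1)]
  have h8 : (p : ℚ) * r = (p : ℚ) ^ nonsplit F S := by
    have hp1 : p - 1 ≠ 0 := by have := hp.out.two_le; omega
    exact (pow_left_inj₀ (mul_nonneg hpp.le hr0.le) (pow_nonneg hpp.le _) hp1).1 h6
  have h9 : (p : ℚ) * hc (dM (sAct S σ)) (nM p (sAct S σ)) =
      (p : ℚ) ^ nonsplit F S * hc (nM p (sAct S σ)) (dM (sAct S σ)) := by
    rw [← h8, hr]
    have : (hc (nM p (sAct S σ)) (dM (sAct S σ)) : ℚ) ≠ 0 := Nat.cast_ne_zero.2 b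
    field_simp
  exact_mod_cast h9

theorem prod_iterate_eq_norm {p : ℕ} [hp : Fact p.Prime] (hdeg : finrank K F = p)
    {σ : F ≃ₐ[K] F} (hσ : σ ≠ 1) (x : F) :
    ∏ i ∈ Finset.range p, (σ ^ i) x = algebraMap K F (Algebra.norm K x) := by
  rw [Algebra.norm_eq_prod_automorphisms]
  have h1 : Nat.card (F ≃ₐ[K] F) = p := by rw [IsGalois.card_aut_eq_finrank, hdeg]
  have h2 : orderOf σ = p := orderOf_eq_prime (pow_eq_one' hdeg σ) hσ
  have hbij : Function.Bijective (fun i : Fin p => σ ^ (i : ℕ)) := by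
    rw [Fintype.bijective_iff_injective_and_card]
    constructor
    · intro i j hij
      have := pow_injOn_Iio_orderOf (x := σ) (by rw [h2]; exact i.2) (by rw [h2]; exact j.2) hij
      exact Fin.ext this
    · rw [Fintype.card_fin, ← h1, Nat.card_eq_fintype_card]
  rw [← Fintype.prod_bijective _ hbij (fun i : Fin p => (σ ^ (i : ℕ)) x) (fun τ => τ x)
    (fun i => rfl)]
  rw [Fin.prod_univ_eq_prod_range (fun i => (σ ^ i) x) p]

theorem coe_nM_sAct {p : ℕ} [hp : Fact p.Prime] (hdeg : finrank K F = p)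
    {σ : F ≃ₐ[K] F} (hσ : σ ≠ 1) (S : Set (HeightOneSpectrum (𝓞 K))) (x : (above F S).unit F) :
    ((nM p (sAct S σ) x : Fˣ) : F) = algebraMap K F (Algebra.norm K ((x : Fˣ) : F)) := by
  rw [← prod_iterate_eq_norm hdeg hσ, nM_apply]
  rw [show ((∏ i ∈ Finset.range p, (sAct S σ)^[i] x : (above F S).unit F) : Fˣ) =
    ∏ i ∈ Finset.range p, (((sAct S σ)^[i] x : (above F S).unit F) : Fˣ) from
      map_prod ((above F S).unit F).subtype _ _]
  rw [Units.coe_prod]
  exact Finset.prod_congr rfl fun i _ => coe_sAct_iterate S σ i x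

variable (K F) in
/-- the norm `Fˣ → Kˣ` -/
noncomputable def nrm : Fˣ →* Kˣ := Units.map (Algebra.norm K)

/-- `Ĥ⁰` of the `S`-units is `E_K / N E_F`. -/
theorem relIndex_norm {p : ℕ} [hp : Fact p.Prime] (hdeg : finrank K F = p)
    {σ : F ≃ₐ[K] F} (hσ : σ ≠ 1) (S : Set (HeightOneSpectrum (𝓞 K))) :
    (((above F S).unit F).map (nrm K F)).relIndex (S.unit K) =
      hc (dM (sAct S σ)) (nM p (sAct S σ)) := by
  set j : Kˣ →* Fˣ := Units.map (algebraMap K F : K →* F) with hj
  have hji : Function.Injective j := Units.map_injective (FaithfulSMul.algebraMap_injective K F)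
  rw [← Subgroup.relIndex_map_map_of_injective _ _ hji, hc,
    ← Subgroup.relIndex_map_map_of_injective _ _ ((above F S).unit F).subtype_injective]
  congr 1
  · ext x
    constructor
    · rintro ⟨_, ⟨y, hy, rfl⟩, rfl⟩
      refine ⟨_, ⟨⟨y, hy⟩, rfl⟩, ?_⟩
      ext
      exact coe_nM_sAct hdeg hσ S ⟨y, hy⟩
    · rintro ⟨_, ⟨y, rfl⟩, rfl⟩
      refine ⟨_, ⟨y.1, y.2, rfl⟩, ?_⟩
      ext
      exact (coe_nM_sAct hdeg hσ S y).symm
  · ext x
    constructor
    · rintro ⟨y, hy, rfl⟩
      exact ⟨_, (fixedHom σ S ⟨y, hy⟩).2, rfl⟩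
    · rintro ⟨y, hy, rfl⟩
      obtain ⟨z, hz⟩ := (fixedHom_bijective hdeg hσ S).2 ⟨y, hy⟩
      refine ⟨z.1, z.2, ?_⟩
      exact congrArg (fun t : (dM (sAct S σ)).ker => ((t : (above F S).unit F) : Fˣ)) hz

theorem exists_act_eq (w w' : HeightOneSpectrum (𝓞 F)) (h : below K w = below K w') :
    ∃ τ : F ≃ₐ[K] F, act τ w = w' := by
  have h1 : w.asIdeal ∈ Ideal.primesOver (below K w').asIdeal (𝓞 F) := by
    rw [← h]; exact ⟨w.isPrime, inferInstance⟩
  have h2 : w'.asIdeal ∈ Ideal.primesOver (below K w').asIdeal (𝓞 F) :=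
    ⟨w'.isPrime, inferInstance⟩
  obtain ⟨τ, hτ⟩ := Ideal.exists_comap_galRestrict_eq (𝓞 K) K F (𝓞 F) h1 h2
  refine ⟨τ⁻¹, ?_⟩
  ext x
  rw [← hτ]
  show (RingOfIntegers.mapRingEquiv (τ⁻¹).toRingEquiv).symm x ∈ w.asIdeal ↔
    galRestrict (𝓞 K) K F (𝓞 F) τ x ∈ w.asIdeal
  have : (RingOfIntegers.mapRingEquiv (τ⁻¹).toRingEquiv).symm x =
    galRestrict (𝓞 K) K F (𝓞 F) τ x := by
    ext
    have := algebraMap_galRestrict_apply (𝓞 K) (K := K) (L := F) (B := 𝓞 F) τ x
    exact this.symm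
  rw [this]

/-- `y` has `σ`-invariant valuations at the places outside `above S` as soon as `σ y / y` is an
`S`-unit -/
theorem valuation_eq_of_below_eq {p : ℕ} [hp : Fact p.Prime] (hdeg : finrank K F = p)
    {σ : F ≃ₐ[K] F} (hσ : σ ≠ 1) {S : Set (HeightOneSpectrum (𝓞 K))} {y : F}
    (hy : ∀ w ∉ above F S, w.valuation F (σ y) = w.valuation F y)
    {w w' : HeightOneSpectrum (𝓞 F)} (h : below K w = below K w') (hw : w ∉ above F S) :
    w'.valuation F y = w.valuation F y := by
  obtain ⟨τ, rfl⟩ := exists_act_eq w w' h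
  have h1 : τ ∈ Subgroup.zpowers σ := by rw [zpowers_eq_top hdeg hσ]; trivial
  obtain ⟨k, rfl⟩ := mem_powers_iff_mem_zpowers.2 h1
  clear h1 h
  dsimp only
  induction k with
  | zero => rw [pow_zero, act_one]
  | succ k ih =>
    have hb : below K (act (σ ^ (k + 1)) w) = below K w := below_act _ _
    have hn : act (σ ^ (k + 1)) w ∉ above F S := by
      intro h'
      apply hw
      have : below K (act (σ ^ (k + 1)) w) ∈ S := h'
      rw [hb] at this
      exact this
    have e1 := hy _ hn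
    have e2 : act (σ ^ (k + 1)) w = act σ (act (σ ^ k) w) := by
      rw [act_act, pow_succ']
    rw [← e1, e2, valuation_act, ih]

theorem finite_valuation_ne_one (y : Fˣ) :
    {w : HeightOneSpectrum (𝓞 F) | w.valuation F (y : F) ≠ 1}.Finite := by
  refine ((HeightOneSpectrum.Support.finite (𝓞 F) (y : F)).union
    (HeightOneSpectrum.Support.finite (𝓞 F) ((y⁻¹ : Fˣ) : F))).subset ?_
  intro w hw
  rcases lt_or_gt_of_ne hw with h | h
  · right
    show 1 < w.valuation F ((y⁻¹ : Fˣ) : F)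
    rw [Units.val_inv_eq_inv_val, map_inv₀]
    exact (one_lt_inv₀ (by
      rw [Valuation.pos_iff]
      exact y.ne_zero)).2 h
  · left; exact h

theorem hilbert90_cyclic {K F : Type*} [Field K] [Field F] [Algebra K F] [FiniteDimensional K F]
    {σ : F ≃ₐ[K] F} {n : ℕ} (hn : orderOf σ = n) {x : F}
    (hx : ∏ i ∈ Finset.range n, (σ ^ i) x = 1) : ∃ y : Fˣ, σ (y : F) = x * y := by
  have hn0 : 0 < n := by rw [← hn]; exact orderOf_pos σ
  let a : ℕ → F := fun i => ∏ j ∈ Finset.range i, (σ ^ j) x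
  have ha : ∀ i, x * σ (a i) = a (i + 1) := by
    intro i
    show x * σ (∏ j ∈ Finset.range i, (σ ^ j) x) = ∏ j ∈ Finset.range (i + 1), (σ ^ j) x
    rw [Finset.prod_range_succ', map_prod, mul_comm]
    congr 1
    refine Finset.prod_congr rfl fun j _ => ?_
    rw [pow_succ']; rfl
  have hli : LinearIndependent F (fun i : Fin n => ((σ ^ (i : ℕ) : F ≃ₐ[K] F) : F → F)) := by
    refine LinearIndependent.comp (ι' := Fin n) (linearIndependent_monoidHom F F)
      (fun i => (((σ ^ (i : ℕ) : F ≃ₐ[K] F) : F →* F))) ?_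
    intro i j hij
    have h1 : σ ^ (i : ℕ) = σ ^ (j : ℕ) := by
      ext z; exact DFunLike.ext_iff.1 hij z
    exact Fin.ext (pow_injOn_Iio_orderOf (x := σ) (by rw [hn]; exact i.2) (by rw [hn]; exact j.2) h1)
  obtain ⟨z, hz⟩ : ∃ z, ∑ i : Fin n, a i * (σ ^ (i : ℕ)) z ≠ 0 := by
    by_contra hcon
    push Not at hcon
    have h1 := Fintype.linearIndependent_iff.1 hli (fun i => a i) (by
      ext z
      simpa using hcon z) ⟨0, hn0⟩
    simp [a] at h1
  rw [Fin.sum_univ_eq_sum_range (fun i => a i * (σ ^ i) z)] at hz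
  refine ⟨(Units.mk0 _ hz)⁻¹, ?_⟩
  rw [Units.val_inv_eq_inv_val, Units.val_mk0, map_inv₀]
  have key : x * σ (∑ i ∈ Finset.range n, a i * (σ ^ i) z) = ∑ i ∈ Finset.range n, a i * (σ ^ i) z := by
    rw [map_sum, Finset.mul_sum]
    have h2 : ∀ i ∈ Finset.range n, x * σ (a i * (σ ^ i) z) = a (i + 1) * (σ ^ (i + 1)) z := by
      intro i _
      rw [map_mul, ← mul_assoc, ha, pow_succ']; rfl
    rw [Finset.sum_congr rfl h2]
    have h3 := Finset.sum_range_succ' (fun i => a i * (σ ^ i) z) n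
    rw [Finset.sum_range_succ] at h3
    have h4 : a n * (σ ^ n) z = a 0 * (σ ^ 0) z := by
      have : σ ^ n = 1 := by rw [← hn]; exact pow_orderOf_eq_one σ
      rw [this, pow_zero]
      show (∏ j ∈ Finset.range n, (σ ^ j) x) * _ = _
      rw [hx]; simp [a]
    rw [h4] at h3
    exact (add_right_cancel h3).symm
  have hne : σ (∑ i ∈ Finset.range n, a i * (σ ^ i) z) ≠ 0 := by
    rw [Ne, map_eq_zero_iff σ σ.injective]; exact hz
  rw [eq_mul_inv_iff_mul_eq₀ hz, inv_mul_eq_iff_eq_mul₀ hne, mul_comm]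
  exact key.symm

/-- `Ĥ⁻¹` of the `S`-units is trivial when the `S`-class group of `K` is trivial and `F/K` is
unramified outside `S`. -/
theorem hm1_sunit {p : ℕ} [hp : Fact p.Prime] (hdeg : finrank K F = p)
    {σ : F ≃ₐ[K] F} (hσ : σ ≠ 1) {S : Set (HeightOneSpectrum (𝓞 K))} (hS : ClassTrivial S)
    (hur : ∀ w : HeightOneSpectrum (𝓞 F), w ∉ above F S →
      (below K w).asIdeal.ramificationIdx' w.asIdeal = 1) :
    hc (nM p (sAct S σ)) (dM (sAct S σ)) = 1 := by
  classical
  unfold hc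
  rw [Subgroup.relIndex_eq_one]
  intro x hx
  rw [MonoidHom.mem_ker] at hx
  have hn : Algebra.norm K ((x : Fˣ) : F) = 1 := by
    apply FaithfulSMul.algebraMap_injective K F
    rw [← coe_nM_sAct hdeg hσ S x, hx]
    simp
  obtain ⟨y, hyx⟩ := hilbert90_cyclic (K := K) (σ := σ) (n := p) (x := ((x : Fˣ) : F))
    (orderOf_eq_prime (pow_eq_one' hdeg σ) hσ)
    (by rw [prod_iterate_eq_norm hdeg hσ, hn, map_one])
  have hval : ∀ w ∉ above F S, w.valuation F (σ y) = w.valuation F (y : F) := by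
    intro w hw
    rw [hyx, map_mul, x.2 w hw, one_mul]
  -- the divisor
  let w0 : HeightOneSpectrum (𝓞 K) → HeightOneSpectrum (𝓞 F) := fun v =>
    (exists_above (F := F) v).choose
  have hw0 : ∀ v, below K (w0 v) = v := fun v => (exists_above (F := F) v).choose_spec
  let n : HeightOneSpectrum (𝓞 K) → ℤ := fun v => Multiplicative.toAdd ((w0 v).valuationOfNeZero y)
  have hfin : (Function.support n).Finite := by
    have h1 : Function.support n ⊆ w0 ⁻¹' {w | w.valuation F (y : F) ≠ 1} := by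
      intro v hv h
      apply hv
      have h2 : (w0 v).valuation F (y : F) = 1 := h
      have h3 : (w0 v).valuationOfNeZero y = 1 := (valuationOfNeZero_eq_one_iff _ _).2 h2
      show Multiplicative.toAdd ((w0 v).valuationOfNeZero y) = 0
      rw [h3]; rfl
    refine Set.Finite.subset (Set.Finite.preimage ?_ (finite_valuation_ne_one y)) h1
    intro a _ b _ hab
    rw [← hw0 a, ← hw0 b, hab]
  obtain ⟨z, hz⟩ := hS (Finsupp.ofSupportFinite n hfin)
  have hz' : ∀ w ∉ above F S, w.valuation F (algebraMap K F z) = w.valuation F (y : F) := by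
    intro w hw
    have h1 : below K (w0 (below K w)) = below K w := hw0 _
    have hw' : w0 (below K w) ∉ above F S := by
      intro h
      apply hw
      have : below K (w0 (below K w)) ∈ S := h
      rw [h1] at this
      exact this
    rw [valuation_eq_of_below_eq hdeg hσ hval h1 hw',
      ← HeightOneSpectrum.valuation_liesOver F (below K w) w, hur w hw, pow_one,
      ← HeightOneSpectrum.valuationOfNeZero_eq, ← HeightOneSpectrum.valuationOfNeZero_eq,
      hz _ hw]
    rfl
  let zF : Fˣ := Units.map (algebraMap K F : K →* F) z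
  have hmem : y * zF⁻¹ ∈ (above F S).unit F := by
    intro w hw
    show w.valuation F ((y : F) * ((zF⁻¹ : Fˣ) : F)) = 1
    rw [map_mul, Units.val_inv_eq_inv_val, map_inv₀]
    have h2 : w.valuation F (zF : F) = w.valuation F (y : F) := hz' w hw
    rw [h2]
    exact mul_inv_cancel₀ (by rw [Valuation.ne_zero_iff]; exact y.ne_zero)
  refine ⟨⟨y * zF⁻¹, hmem⟩, ?_⟩
  rw [dM_apply, div_eq_iff_eq_mul]
  ext
  show σ ((y : F) * ((zF⁻¹ : Fˣ) : F)) = ((x : Fˣ) : F) * ((y : F) * ((zF⁻¹ : Fˣ) : F))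
  have h3 : σ ((zF⁻¹ : Fˣ) : F) = ((zF⁻¹ : Fˣ) : F) := by
    rw [Units.val_inv_eq_inv_val, map_inv₀]
    congr 1
    exact σ.commutes _
  rw [map_mul, h3, hyx, mul_assoc]

/-- `p * |E_K / N E_F| = p ^ b`. -/
theorem relIndex_norm_sunit {p : ℕ} [hp : Fact p.Prime] (hp2 : p ≠ 2) (hdeg : finrank K F = p)
    {S : Set (HeightOneSpectrum (𝓞 K))} [Finite S] (hS : ClassTrivial S)
    (hur : ∀ w : HeightOneSpectrum (𝓞 F), w ∉ above F S →
      (below K w).asIdeal.ramificationIdx' w.asIdeal = 1) :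
    p * (((above F S).unit F).map (nrm K F)).relIndex (S.unit K) = p ^ nonsplit F S := by
  have h1 : Nat.card (F ≃ₐ[K] F) = p := by rw [IsGalois.card_aut_eq_finrank, hdeg]
  have h2 : Nontrivial (F ≃ₐ[K] F) := by
    rw [← Finite.one_lt_card_iff_nontrivial, h1]
    exact hp.out.one_lt
  obtain ⟨σ, hσ⟩ := exists_ne (1 : F ≃ₐ[K] F)
  rw [relIndex_norm hdeg hσ, (herbrand_sunit hp2 hdeg hσ S).2.2, hm1_sunit hdeg hσ hS hur, mul_one]

end number

end Fermat.Agent.CFT.SUH
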