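import Mathlib
import Fermat.Agent.CFT.W.Global
import Fermat.Agent.CFT.Local.Finite
import Fermat.Agent.CFT.Kummer
import Fermat.Agent.CFT.ChoosePrime
import Fermat.Agent.CFT.SUnitsHerbrand

/-!
# Local fields attached to embeddings `K → PadicAlgCl q`
-/

set_option autoImplicit false
set_option linter.unusedSectionVars false

open NumberField IsDedekindDomain Module Polynomial Fermat.Agent.Density
open Fermat.Agent.CFT.W

namespace Fermat.Agent.CFT.Embed

section locF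

variable (q : ℕ) [Fact q.Prime] {K : Type*} [Field K] [NumberField K] (φ : K →+* PadicAlgCl q)

/-- the local field `ℚ_q(φ K)`. -/
noncomputable def locF : IntermediateField ℚ_[q] (PadicAlgCl q) :=
  IntermediateField.adjoin ℚ_[q] (Set.range φ)

theorem mem_locF (x : K) : φ x ∈ locF q φ := IntermediateField.subset_adjoin _ _ ⟨x, rfl⟩

theorem toSubmodule_locF : Subalgebra.toSubmodule (locF q φ).toSubalgebra =
    Submodule.span ℚ_[q] (Set.range φ) := by
  rw [locF, IntermediateField.adjoin_toSubalgebra, Algebra.adjoin_eq_span]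
  congr 1
  have h : (Submonoid.closure (Set.range φ)) = MonoidHom.mrange (φ : K →* PadicAlgCl q) := by
    rw [← Submonoid.closure_eq (MonoidHom.mrange _)]; rfl
  rw [h]; rfl

theorem mem_span_iff (y : PadicAlgCl q) :
    y ∈ Submodule.span ℚ_[q] (Set.range φ) ↔ y ∈ locF q φ := by
  rw [← toSubmodule_locF]; rfl

theorem map_rat_smul (r : ℚ) (x : K) : φ (r • x) = (r : ℚ_[q]) • φ x := by
  rw [Algebra.smul_def, Algebra.smul_def, map_mul]
  congr 1
  rw [map_ratCast (algebraMap ℚ_[q] (PadicAlgCl q)) r]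
  simp

theorem span_basis : Submodule.span ℚ_[q] (Set.range φ) =
    Submodule.span ℚ_[q] (Set.range (φ ∘ Module.finBasis ℚ K)) := by
  apply le_antisymm
  · rw [Submodule.span_le]
    rintro _ ⟨x, rfl⟩
    rw [← (Module.finBasis ℚ K).sum_repr x, map_sum]
    refine Submodule.sum_mem _ fun i _ ↦ ?_
    rw [map_rat_smul]
    exact Submodule.smul_mem _ _ (Submodule.subset_span ⟨i, rfl⟩)
  · apply Submodule.span_mono
    rintro _ ⟨i, rfl⟩
    exact ⟨_, rfl⟩

instance finiteDimensional_locF : FiniteDimensional ℚ_[q] (locF q φ) := by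
  have h : FiniteDimensional ℚ_[q] (Submodule.span ℚ_[q] (Set.range φ)) := by
    rw [span_basis]
    exact FiniteDimensional.span_of_finite _ (Set.finite_range _)
  rw [← toSubmodule_locF] at h
  exact h

/-- `K` is dense in `K_φ`. -/
theorem exists_approx {y : PadicAlgCl q} (hy : y ∈ locF q φ) {ε : ℝ} (hε : 0 < ε) :
    ∃ x : K, ‖y - φ x‖ < ε := by
  rw [← mem_span_iff] at hy
  induction hy using Submodule.span_induction generalizing ε with
  | mem x h => obtain ⟨x, rfl⟩ := h; exact ⟨x, by simpa using hε⟩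
  | zero => exact ⟨0, by simpa using hε⟩
  | add y z _ _ hy hz =>
    obtain ⟨a, ha⟩ := hy hε
    obtain ⟨b, hb⟩ := hz hε
    refine ⟨a + b, ?_⟩
    have h1 : y + z - φ (a + b) = (y - φ a) + (z - φ b) := by rw [map_add]; ring
    rw [h1]
    exact (IsUltrametricDist.norm_add_le_max _ _).trans_lt (max_lt ha hb)
  | smul c y _ hy =>
    have h1 : 0 < ε / (‖c‖ + 1) := by positivity
    obtain ⟨a, ha⟩ := hy h1
    have h2 : 0 < ε / (‖φ a‖ + 1) := by positivity
    obtain ⟨r, hr⟩ := Padic.rat_dense q c h2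
    refine ⟨r • a, ?_⟩
    have h3 : c • y - φ (r • a) = c • (y - φ a) + (c - (r : ℚ_[q])) • φ a := by
      rw [map_rat_smul, smul_sub, sub_smul]; ring
    rw [h3]
    refine (IsUltrametricDist.norm_add_le_max _ _).trans_lt (max_lt ?_ ?_)
    · rw [norm_smul]
      rw [lt_div_iff₀ (by positivity)] at ha
      nlinarith [norm_nonneg c, norm_nonneg (y - φ a)]
    · rw [norm_smul]
      rw [lt_div_iff₀ (by positivity)] at hr
      nlinarith [norm_nonneg (φ a), norm_nonneg (c - (r : ℚ_[q]))]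

/-- the induced embedding `K → K_φ` -/
noncomputable def toLocF : K →+* locF q φ :=
  φ.codRestrict (locF q φ).toSubalgebra.toSubring (mem_locF q φ)

@[simp] theorem coe_toLocF (x : K) : (toLocF q φ x : PadicAlgCl q) = φ x := rfl

theorem norm_toLocF (x : K) : ‖toLocF q φ x‖ = ‖φ x‖ := rfl

theorem exists_approx' (y : locF q φ) {ε : ℝ} (hε : 0 < ε) :
    ∃ x : K, ‖y - toLocF q φ x‖ < ε := exists_approx q φ y.2 hε

theorem norm_algHom_apply (E : IntermediateField ℚ_[q] (PadicAlgCl q))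
    (g : E →ₐ[ℚ_[q]] PadicAlgCl q) (y : E) : ‖g y‖ = ‖y‖ := by
  change spectralNorm ℚ_[q] (PadicAlgCl q) (g y) = spectralNorm ℚ_[q] (PadicAlgCl q) (y : PadicAlgCl q)
  unfold spectralNorm
  rw [minpoly.algHom_eq g g.injective y]
  congr 1
  exact (minpoly.algHom_eq E.val E.val.injective y).symm

theorem pl_congr {φ ψ : K →+* PadicAlgCl q} (h : ∀ x, ‖φ x‖ = ‖ψ x‖) : pl φ = pl ψ := by
  apply HeightOneSpectrum.ext
  ext x
  rw [mem_pl, mem_pl, h]

theorem algHom_ext_locF {g g' : locF q φ →ₐ[ℚ_[q]] PadicAlgCl q}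
    (h : ∀ x : K, g (toLocF q φ x) = g' (toLocF q φ x)) : g = g' := by
  ext ⟨y, hy⟩
  have key : ∀ z ∈ Submodule.span ℚ_[q] (Set.range φ), ∀ hz : z ∈ locF q φ,
      g ⟨z, hz⟩ = g' ⟨z, hz⟩ := by
    intro z hz
    induction hz using Submodule.span_induction with
    | mem x h' => obtain ⟨x, rfl⟩ := h'; intro _; exact h x
    | zero => intro _; exact (map_zero g).trans (map_zero g').symm
    | add y z hy hz ihy ihz =>
      intro _
      have e1 := ihy ((mem_span_iff q φ y).1 hy)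
      have e2 := ihz ((mem_span_iff q φ z).1 hz)
      have e3 : g ⟨y, (mem_span_iff q φ y).1 hy⟩ + g ⟨z, (mem_span_iff q φ z).1 hz⟩ =
        g' ⟨y, (mem_span_iff q φ y).1 hy⟩ + g' ⟨z, (mem_span_iff q φ z).1 hz⟩ := by rw [e1, e2]
      rw [← map_add, ← map_add] at e3
      exact e3
    | smul c y hy ihy =>
      intro _
      have e1 := ihy ((mem_span_iff q φ y).1 hy)
      have e3 : ∀ t : locF q φ →ₐ[ℚ_[q]] PadicAlgCl q,
          t (algebraMap ℚ_[q] (locF q φ) c * ⟨y, (mem_span_iff q φ y).1 hy⟩) =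
            algebraMap ℚ_[q] (PadicAlgCl q) c * t ⟨y, (mem_span_iff q φ y).1 hy⟩ := by
        intro t
        rw [map_mul, t.commutes]
      have e4 : (⟨c • y, ‹_›⟩ : locF q φ) =
          algebraMap ℚ_[q] (locF q φ) c * ⟨y, (mem_span_iff q φ y).1 hy⟩ := by
        apply Subtype.ext
        exact Algebra.smul_def c y
      rw [e4, e3, e3, e1]
  exact key y ((mem_span_iff q φ y).2 hy) hy

/-- `∑_{v | q} [K_v : ℚ_q] ≤ [K : ℚ]`. -/
theorem sum_finrank_le {ι : Type*} [Fintype ι] (φ : ι → K →+* PadicAlgCl q)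
    (hφ : Function.Injective fun i ↦ pl (φ i)) :
    ∑ i, finrank ℚ_[q] (locF q (φ i)) ≤ finrank ℚ K := by
  classical
  have h1 : ∀ i, Fintype.card (locF q (φ i) →ₐ[ℚ_[q]] PadicAlgCl q) =
      finrank ℚ_[q] (locF q (φ i)) := fun i ↦ AlgHom.card ℚ_[q] (locF q (φ i)) (PadicAlgCl q)
  have h2 : Fintype.card (K →+* PadicAlgCl q) = finrank ℚ K :=
    NumberField.Embeddings.card K (PadicAlgCl q)
  rw [← h2, ← Finset.sum_congr rfl fun i _ ↦ h1 i, ← Fintype.card_sigma]
  refine Fintype.card_le_of_injective (fun x ↦ (x.2 : _ →+* PadicAlgCl q).comp (toLocF q (φ x.1))) ?_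
  rintro ⟨i, g⟩ ⟨j, g'⟩ h
  simp only at h
  have hi : ∀ x, ‖((g : _ →+* PadicAlgCl q).comp (toLocF q (φ i))) x‖ = ‖φ i x‖ := fun x ↦
    norm_algHom_apply q _ g _
  have hj : ∀ x, ‖((g' : _ →+* PadicAlgCl q).comp (toLocF q (φ j))) x‖ = ‖φ j x‖ := fun x ↦
    norm_algHom_apply q _ g' _
  have hij : i = j := by
    apply hφ
    change pl (φ i) = pl (φ j)
    rw [← pl_congr q hi, h, pl_congr q hj]
  subst hij
  have : g = g' := algHom_ext_locF q (φ i) (fun x ↦ DFunLike.congr_fun h x)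
  rw [this]

end locF

section split

variable (q : ℕ) [Fact q.Prime] {K : Type*} [Field K] [NumberField K]
  {F : Type*} [Field F] [NumberField F] [Algebra K F]

theorem exists_extension (φ : K →+* PadicAlgCl q) :
    ∃ ψ : F →+* PadicAlgCl q, ∀ x : K, ψ (algebraMap K F x) = φ x := by
  let : Algebra K (PadicAlgCl q) := φ.toAlgebra
  let ψ : F →ₐ[K] PadicAlgCl q := IsAlgClosed.lift
  exact ⟨ψ, fun x ↦ ψ.commutes x⟩

theorem below_pl {φ : K →+* PadicAlgCl q} {ψ : F →+* PadicAlgCl q}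
    (h : ∀ x : K, ψ (algebraMap K F x) = φ x) : below K (pl ψ) = pl φ := by
  apply HeightOneSpectrum.ext
  ext x
  change algebraMap (𝓞 K) (𝓞 F) x ∈ (pl ψ).asIdeal ↔ _
  rw [mem_pl, mem_pl, ← h]
  have : ((algebraMap (𝓞 K) (𝓞 F) x : 𝓞 F) : F) = algebraMap K F (x : K) := by
    change algebraMap (𝓞 F) F (algebraMap (𝓞 K) (𝓞 F) x) = algebraMap K F (algebraMap (𝓞 K) K x)
    rw [← IsScalarTower.algebraMap_apply, ← IsScalarTower.algebraMap_apply]
  rw [this]

theorem adjoin_eq_top {p : ℕ} {ζ a : K} {α : F} {σ : F ≃ₐ[K] F} (hD : Kummer.Data K F p ζ a α σ)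
    (_hp : p.Prime) (hζ : IsPrimitiveRoot ζ p) (hα : α ≠ 0) : Algebra.adjoin K {α} = ⊤ := by
  have hgal := hD.galois
  have h1 : (IntermediateField.adjoin K {α}).fixingSubgroup = ⊥ := by
    rw [eq_bot_iff]
    intro τ hτ
    rw [IntermediateField.mem_fixingSubgroup_iff] at hτ
    obtain ⟨i, hi, rfl⟩ := hD.gen τ
    have h2 := hτ α (IntermediateField.mem_adjoin_simple_self K α)
    rw [hD.pow_apply_root] at h2
    have h3 : algebraMap K F ζ ^ i = 1 := by
      have := mul_right_cancel₀ hα (h2.trans (one_mul α).symm)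
      exact this
    have hζF : IsPrimitiveRoot (algebraMap K F ζ) p :=
      hζ.map_of_injective (algebraMap K F).injective
    have h4 := hζF.dvd_of_pow_eq_one i h3
    have h5 : i = 0 := Nat.eq_zero_of_dvd_of_lt h4 hi
    rw [h5, pow_zero]
    exact Subgroup.one_mem _
  have h2 : IntermediateField.adjoin K {α} = ⊤ := by
    rw [← IsGalois.fixedField_fixingSubgroup (IntermediateField.adjoin K {α}), h1,
      IntermediateField.fixedField_bot]
  rw [IntermediateField.adjoin_eq_top_iff] at h2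
  exact h2

theorem eq_comp_pow {p : ℕ} {ζ a : K} {α : F} {σ : F ≃ₐ[K] F} (hD : Kummer.Data K F p ζ a α σ)
    (hp : p.Prime) (hζ : IsPrimitiveRoot ζ p) (hα : α ≠ 0) {φ : K →+* PadicAlgCl q}
    {ψ ψ' : F →+* PadicAlgCl q} (h : ∀ x : K, ψ (algebraMap K F x) = φ x)
    (h' : ∀ x : K, ψ' (algebraMap K F x) = φ x) :
    ∃ i < p, ∀ x : F, ψ' x = ψ ((σ ^ i) x) := by
  let : Algebra K (PadicAlgCl q) := φ.toAlgebra
  obtain ⟨i, hi, hi2⟩ := Kummer.eq_pow_mul_of_pow_eq (K := K) (L := PadicAlgCl q)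
    (x := ψ' α) (y := ψ α) hζ hp.pos (by
    rw [← map_pow, ← map_pow, hD.pow_eq, h, h'])
  refine ⟨i, hi, ?_⟩
  let ψ₁ : F →ₐ[K] PadicAlgCl q := { ψ with commutes' := h }
  let ψ₂ : F →ₐ[K] PadicAlgCl q := { ψ' with commutes' := h' }
  have h1 : ψ₂ = ψ₁.comp ((σ ^ i : F ≃ₐ[K] F) : F →ₐ[K] F) := by
    apply AlgHom.ext_of_adjoin_eq_top (adjoin_eq_top hD hp hζ hα)
    intro x hx
    rw [Set.mem_singleton_iff] at hx
    subst hx
    change ψ' x = ψ ((σ ^ i) x)
    rw [hD.pow_apply_root, map_mul, map_pow, h, hi2]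
    rfl
  intro x
  exact DFunLike.congr_fun h1 x

omit [NumberField K] [NumberField F] in
theorem norm_algEquiv_apply (g : PadicAlgCl q ≃ₐ[ℚ_[q]] PadicAlgCl q) (y : PadicAlgCl q) :
    ‖g y‖ = ‖y‖ := by
  change spectralNorm ℚ_[q] (PadicAlgCl q) (g y) = spectralNorm ℚ_[q] (PadicAlgCl q) y
  unfold spectralNorm
  rw [← minpoly.algHom_eq (g : PadicAlgCl q →ₐ[ℚ_[q]] PadicAlgCl q) g.injective y]
  rfl

theorem pl_extension_eq {p : ℕ} {ζ a : K} {α : F} {σ : F ≃ₐ[K] F}
    (hD : Kummer.Data K F p ζ a α σ) (hp : p.Prime) (hζ : IsPrimitiveRoot ζ p) (hα : α ≠ 0)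
    {φ : K →+* PadicAlgCl q} {ψ ψ' : F →+* PadicAlgCl q}
    (h : ∀ x : K, ψ (algebraMap K F x) = φ x) (h' : ∀ x : K, ψ' (algebraMap K F x) = φ x)
    (hns : ∀ c ∈ locF q φ, c ^ p ≠ φ a) : pl ψ = pl ψ' := by
  let : Algebra K (PadicAlgCl q) := φ.toAlgebra
  have hirr : Irreducible (X ^ p - C (toLocF q φ a) : (locF q φ)[X]) := by
    apply X_pow_sub_C_irreducible_of_prime hp
    intro b hb
    exact hns b.1 b.2 (congrArg Subtype.val hb)
  have hmin : ∀ χ : F →+* PadicAlgCl q, (∀ x : K, χ (algebraMap K F x) = φ x) →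
      minpoly (locF q φ) (χ α) = X ^ p - C (toLocF q φ a) := by
    intro χ hχ
    symm
    apply minpoly.eq_of_irreducible_of_monic hirr
    · have : algebraMap (locF q φ) (PadicAlgCl q) (toLocF q φ a) = φ a := rfl
      simp only [map_sub, map_pow, aeval_X, aeval_C, this]
      rw [← map_pow, hD.pow_eq, hχ, sub_self]
    · exact monic_X_pow_sub_C _ hp.ne_zero
  have hconj : IsConjRoot (locF q φ) (ψ α) (ψ' α) := by
    rw [IsConjRoot, hmin ψ h, hmin ψ' h']
  obtain ⟨g, hg⟩ := isConjRoot_iff_exists_algEquiv.1 hconj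
  let ψ₁ : F →ₐ[K] PadicAlgCl q := { ψ with commutes' := h }
  let ψ₂ : F →ₐ[K] PadicAlgCl q := { ψ' with commutes' := h' }
  let g' : PadicAlgCl q →ₐ[K] PadicAlgCl q := { (g : PadicAlgCl q →+* PadicAlgCl q) with
    commutes' := fun x ↦ g.commutes (toLocF q φ x) }
  have h1 : ψ₁ = g'.comp ψ₂ := by
    apply AlgHom.ext_of_adjoin_eq_top (adjoin_eq_top hD hp hζ hα)
    intro x hx
    rw [Set.mem_singleton_iff] at hx
    subst hx
    exact hg.symm
  apply pl_congr
  intro x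
  have h2 : ψ x = g (ψ' x) := DFunLike.congr_fun h1 x
  rw [h2]
  exact norm_algEquiv_apply q (g.restrictScalars ℚ_[q]) _

theorem pl_extension_ne {p : ℕ} {ζ a : K} {α : F} {σ : F ≃ₐ[K] F}
    (hD : Kummer.Data K F p ζ a α σ) (hp : p.Prime) (hζ : IsPrimitiveRoot ζ p) (hα : α ≠ 0)
    {φ : K →+* PadicAlgCl q} {ψ : F →+* PadicAlgCl q}
    (h : ∀ x : K, ψ (algebraMap K F x) = φ x)
    {c : PadicAlgCl q} (hc : c ∈ locF q φ) (hca : c ^ p = φ a) :
    pl ψ ≠ pl (ψ.comp (σ : F →+* F)) := by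
  intro heq
  let : Algebra K (PadicAlgCl q) := φ.toAlgebra
  obtain ⟨i, hi, hi2⟩ := Kummer.eq_pow_mul_of_pow_eq (K := K) (L := PadicAlgCl q)
    (x := ψ α) (y := c) hζ hp.pos (by rw [← map_pow, hD.pow_eq, h, hca])
  have hβ : ψ α ∈ locF q φ := by
    rw [hi2]
    exact mul_mem (pow_mem (mem_locF q φ ζ) i) hc
  have h1 : ∀ ε : ℝ, 0 < ε → ‖(φ ζ - 1) * ψ α‖ < ε := by
    intro ε hε
    obtain ⟨x, hx⟩ := exists_approx q φ hβ hε
    have h2 : ‖ψ (α - algebraMap K F x)‖ < ε := by rwa [map_sub, h]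
    have h3 : ‖(ψ.comp (σ : F →+* F)) (α - algebraMap K F x)‖ < ε := by
      rwa [← norm_eq_of_pl_eq heq]
    have h4 : (φ ζ - 1) * ψ α = (ψ.comp (σ : F →+* F)) (α - algebraMap K F x) -
        ψ (α - algebraMap K F x) := by
      simp only [RingHom.comp_apply, RingHom.coe_coe, map_sub, AlgEquiv.commutes, hD.apply_root,
        map_mul, h]
      ring
    rw [h4]
    rw [sub_eq_add_neg]
    exact (IsUltrametricDist.norm_add_le_max _ _).trans_lt (max_lt h3 (by rwa [norm_neg]))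
  have h5 : (φ ζ - 1) * ψ α = 0 := by
    by_contra hne
    exact lt_irrefl _ (h1 _ (norm_pos_iff.2 hne))
  rcases mul_eq_zero.1 h5 with h6 | h6
  · rw [sub_eq_zero, ← map_one φ] at h6
    exact hζ.ne_one hp.one_lt (φ.injective h6)
  · rw [map_eq_zero] at h6
    exact hα h6

theorem exists_extension_pl (φ : K →+* PadicAlgCl q) (w : HeightOneSpectrum (𝓞 F))
    (hw : below K w = pl φ) :
    ∃ ψ : F →+* PadicAlgCl q, (∀ x : K, ψ (algebraMap K F x) = φ x) ∧ pl ψ = w := by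
  have hq : (q : 𝓞 F) ∈ w.asIdeal := by
    have h1 : (q : 𝓞 K) ∈ (below K w).asIdeal := by rw [hw]; exact natCast_mem_pl φ
    change algebraMap (𝓞 K) (𝓞 F) (q : 𝓞 K) ∈ w.asIdeal at h1
    rwa [map_natCast] at h1
  obtain ⟨χ, hχ⟩ := exists_pl_eq q w hq
  have h1 : below K (pl χ) = pl (χ.comp (algebraMap K F)) := below_pl q (fun x ↦ rfl)
  have h2 : pl (χ.comp (algebraMap K F)) = pl φ := by rw [← h1, hχ, hw]
  obtain ⟨τ, hτ⟩ := exists_conj_of_norm_eq _ _ (norm_eq_of_pl_eq h2)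
  refine ⟨(τ : PadicAlgCl q →+* PadicAlgCl q).comp χ, fun x ↦ hτ x, ?_⟩
  rw [← hχ]
  exact pl_congr q fun x ↦ norm_algEquiv_apply q τ _

/-- **Split dictionary.** -/
theorem gnum_eq_one_iff {p : ℕ} {ζ a : K} {α : F} {σ : F ≃ₐ[K] F}
    (hD : Kummer.Data K F p ζ a α σ) (hp : p.Prime) (hζ : IsPrimitiveRoot ζ p) (hα : α ≠ 0)
    (φ : K →+* PadicAlgCl q) :
    SUH.gnum F (pl φ) = 1 ↔ ∀ c ∈ locF q φ, c ^ p ≠ φ a := by
  obtain ⟨ψ, hψ⟩ := exists_extension (F := F) q φ
  have hmem : ∀ w : HeightOneSpectrum (𝓞 F), below K w = pl φ →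
      w.asIdeal ∈ Ideal.primesOver (pl φ).asIdeal (𝓞 F) := by
    intro w hw
    refine ⟨w.isPrime, ⟨?_⟩⟩
    rw [← hw]
    rfl
  constructor
  · intro h c hc hca
    rw [SUH.gnum, Set.ncard_eq_one] at h
    obtain ⟨P, hP⟩ := h
    have h1 : below K (pl ψ) = pl φ := below_pl q hψ
    have h2 : below K (pl (ψ.comp (σ : F →+* F))) = pl φ := by
      apply below_pl q
      intro x
      simp [hψ]
    have h3 := hmem _ h1
    have h4 := hmem _ h2
    rw [hP, Set.mem_singleton_iff] at h3 h4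
    exact pl_extension_ne q hD hp hζ hα hψ hc hca (HeightOneSpectrum.ext (h3.trans h4.symm))
  · intro hns
    rw [SUH.gnum, Set.ncard_eq_one]
    refine ⟨(pl ψ).asIdeal, ?_⟩
    ext P
    rw [Set.mem_singleton_iff]
    constructor
    · rintro ⟨hP1, hP2⟩
      have hPb : P ≠ ⊥ := SUH.ne_bot_of_over (pl φ) P hP2
      set w : HeightOneSpectrum (𝓞 F) := ⟨P, hP1, hPb⟩ with hw
      have hwb : below K w = pl φ := by
        apply HeightOneSpectrum.ext
        exact hP2.over.symm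
      obtain ⟨ψ', hψ', hw'⟩ := exists_extension_pl q φ w hwb
      have := pl_extension_eq q hD hp hζ hα hψ' hψ hns
      change w.asIdeal = _
      rw [← hw', this]
    · rintro rfl
      exact hmem _ (below_pl q hψ)

end split

end Fermat.Agent.CFT.Embed
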