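import Mathlib
import Fermat.Agent.CFT.Embed
import Fermat.Agent.CFT.Local.NormIndex

/-!
# Local norm groups of Kummer extensions

`normGrp L p a` is the group of norms from `L(a^{1/p})`, understood as everything if `a` is a
`p`-th power.
-/

set_option autoImplicit false
set_option linter.unusedSectionVars false

open NumberField IsDedekindDomain Module Polynomial Fermat.Agent.Density
open Fermat.Agent.CFT.W Fermat.Agent.CFT.Embed

namespace Fermat.Agent.CFT.NormGrp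

section alg

variable (L : Type*) [Field L] (p : ℕ) (a : L)

open Classical in
/-- The norm group of the Kummer extension `L(a^{1/p}) / L`. -/
noncomputable def normGrp : Subgroup Lˣ :=
  if ∃ c : L, c ^ p = a then ⊤
  else (Units.map (Algebra.norm L : AdjoinRoot (X ^ p - C a : L[X]) →* L)).range

variable {L p a}

theorem normGrp_eq_top (h : ∃ c : L, c ^ p = a) : normGrp L p a = ⊤ := if_pos h

theorem normGrp_eq_range' (ha : ∀ c : L, c ^ p ≠ a) : normGrp L p a =
    (Units.map (Algebra.norm L : AdjoinRoot (X ^ p - C a : L[X]) →* L)).range :=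
  if_neg (by push Not; exact ha)

/-- the isomorphism `AdjoinRoot (X ^ p - a) ≃ F` -/
theorem exists_algEquiv (hp : p.Prime) (ha : ∀ c : L, c ^ p ≠ a) {F : Type*} [Field F]
    [Algebra L F] (hd : finrank L F = p) {β : F} (hβ : β ^ p = algebraMap L F a) :
    ∃ e : AdjoinRoot (X ^ p - C a : L[X]) ≃ₐ[L] F, e (AdjoinRoot.root _) = β := by
  have hirr : Fact (Irreducible (X ^ p - C a : L[X])) := ⟨X_pow_sub_C_irreducible_of_prime hp ha⟩
  let f : AdjoinRoot (X ^ p - C a : L[X]) →ₐ[L] F :=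
    AdjoinRoot.liftAlgHom _ (Algebra.ofId L F) β (by
      simp only [eval₂_sub, eval₂_X_pow, eval₂_C, RingHom.coe_coe, Algebra.ofId_apply]
      rw [hβ, sub_self])
  have hinj : Function.Injective f := f.toRingHom.injective
  have hfd : FiniteDimensional L F := FiniteDimensional.of_finrank_pos (by rw [hd]; exact hp.pos)
  have hfr := Kummer.finrank_adjoinRoot (a := a) hp
  have hfd' : FiniteDimensional L (AdjoinRoot (X ^ p - C a : L[X])) :=
    FiniteDimensional.of_finrank_pos (by rw [hfr]; exact hp.pos)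
  have hsurj : Function.Surjective f :=
    (LinearMap.injective_iff_surjective_of_finrank_eq_finrank (f := f.toLinearMap)
      (by rw [hd, hfr])).1 hinj
  refine ⟨AlgEquiv.ofBijective f ⟨hinj, hsurj⟩, ?_⟩
  change f (AdjoinRoot.root _) = β
  exact AdjoinRoot.liftAlgHom_root _ _ _ _

theorem normGrp_eq_range (hp : p.Prime) (ha : ∀ c : L, c ^ p ≠ a) {F : Type*} [Field F]
    [Algebra L F] (hd : finrank L F = p) {β : F} (hβ : β ^ p = algebraMap L F a) :
    normGrp L p a = (Units.map (Algebra.norm L : F →* L)).range := by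
  obtain ⟨e, -⟩ := exists_algEquiv hp ha hd hβ
  rw [normGrp_eq_range' ha]
  ext x
  constructor
  · rintro ⟨y, rfl⟩
    refine ⟨Units.map (e : _ →* F) y, ?_⟩
    ext
    exact Algebra.norm_eq_of_algEquiv e _
  · rintro ⟨y, rfl⟩
    refine ⟨Units.map (e.symm : F →* _) y, ?_⟩
    ext
    exact Algebra.norm_eq_of_algEquiv e.symm _

theorem pow_mem_normGrp (hp : p.Prime) (x : Lˣ) : x ^ p ∈ normGrp L p a := by
  by_cases h : ∃ c : L, c ^ p = a
  · rw [normGrp_eq_top h]; exact Subgroup.mem_top _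
  · push Not at h
    rw [normGrp_eq_range' h]
    refine ⟨Units.map (algebraMap L (AdjoinRoot (X ^ p - C a : L[X])) : L →* _) x, ?_⟩
    ext
    have hirr : Fact (Irreducible (X ^ p - C a : L[X])) :=
      ⟨X_pow_sub_C_irreducible_of_prime hp h⟩
    change Algebra.norm L (algebraMap L (AdjoinRoot (X ^ p - C a : L[X])) (x : L)) = _
    rw [Algebra.norm_algebraMap, Kummer.finrank_adjoinRoot hp]
    rfl

theorem range_pow_le_normGrp (hp : p.Prime) :
    (powMonoidHom p : Lˣ →* Lˣ).range ≤ normGrp L p a := by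
  rintro _ ⟨x, rfl⟩
  exact pow_mem_normGrp hp x

/-- `a` itself is a norm if `p` is odd. -/
theorem self_mem_normGrp (hp : p.Prime) (hp2 : p ≠ 2) (u : Lˣ) (hu : (u : L) = a) :
    u ∈ normGrp L p a := by
  by_cases h : ∃ c : L, c ^ p = a
  · rw [normGrp_eq_top h]; exact Subgroup.mem_top _
  · push Not at h
    have hirr : Fact (Irreducible (X ^ p - C a : L[X])) :=
      ⟨X_pow_sub_C_irreducible_of_prime hp h⟩
    have hne : (X ^ p - C a : L[X]) ≠ 0 := (monic_X_pow_sub_C a hp.ne_zero).ne_zero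
    have hroot : (AdjoinRoot.root (X ^ p - C a : L[X])) ≠ 0 := by
      intro h0
      have h1 := Kummer.root_pow (p := p) (a := a)
      rw [h0, zero_pow hp.ne_zero] at h1
      have h2 : a = 0 := by
        have := (map_eq_zero (algebraMap L (AdjoinRoot (X ^ p - C a : L[X])))).1 h1.symm
        exact this
      exact h 0 (by rw [h2, zero_pow hp.ne_zero])
    rw [normGrp_eq_range' h]
    refine ⟨Units.mk0 _ hroot, ?_⟩
    ext
    change Algebra.norm L (AdjoinRoot.root (X ^ p - C a : L[X])) = _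
    have h1 := Algebra.PowerBasis.norm_gen_eq_coeff_zero_minpoly (AdjoinRoot.powerBasis hne)
    rw [AdjoinRoot.powerBasis_gen, AdjoinRoot.minpoly_root hne] at h1
    rw [h1, AdjoinRoot.powerBasis_dim, natDegree_X_pow_sub_C, hu]
    have h2 : (X ^ p - C a : L[X]).leadingCoeff = 1 := monic_X_pow_sub_C a hp.ne_zero
    rw [h2, inv_one, C_1, mul_one, coeff_sub, coeff_X_pow, coeff_C_zero,
      if_neg hp.ne_zero.symm, (hp.odd_of_ne_two hp2).neg_one_pow]
    ring

/-- the norm as the product over the powers of `σ`. -/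
theorem prod_pow_eq_norm {K F : Type*} [Field K] [Field F] [Algebra K F] {p : ℕ} {ζ a : K}
    {α : F} {σ : F ≃ₐ[K] F} (hD : Kummer.Data K F p ζ a α σ) (hp : p.Prime) (y : F) :
    ∏ i ∈ Finset.range p, (σ ^ i) y = algebraMap K F (Algebra.norm K y) := by
  classical
  have hgal := hD.galois
  have hfd : FiniteDimensional K F :=
    FiniteDimensional.of_finrank_pos (by rw [hD.finrank_eq]; exact hp.pos)
  have hcard : Fintype.card (F ≃ₐ[K] F) = p := by
    rw [← Nat.card_eq_fintype_card, IsGalois.card_aut_eq_finrank, hD.finrank_eq]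
  rw [Algebra.norm_eq_prod_automorphisms]
  have himg : (Finset.range p).image (fun i ↦ σ ^ i) = Finset.univ := by
    rw [Finset.eq_univ_iff_forall]
    intro τ
    obtain ⟨i, hi, rfl⟩ := hD.gen τ
    exact Finset.mem_image_of_mem _ (Finset.mem_range.2 hi)
  have hinj : Set.InjOn (fun i ↦ σ ^ i) (Finset.range p : Set ℕ) := by
    apply Finset.injOn_of_card_image_eq
    rw [himg, Finset.card_univ, hcard, Finset.card_range]
  rw [← himg, Finset.prod_image hinj]

end alg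

section loc

variable {q : ℕ} [Fact q.Prime] (L : IntermediateField ℚ_[q] (PadicAlgCl q))
  [FiniteDimensional ℚ_[q] L] {p : ℕ}

theorem index_normGrp (hp : p.Prime) (hp2 : p ≠ 2) {ζ : L} (hζ : IsPrimitiveRoot ζ p) {a : L}
    (ha : ∀ c : L, c ^ p ≠ a) : (normGrp L p a).index = p := by
  obtain ⟨β, hβ⟩ := IsAlgClosed.exists_pow_nat_eq (a : PadicAlgCl q) hp.pos
  have hβ' : β ^ p = algebraMap L (PadicAlgCl q) a := hβ
  have hmin := Kummer.minpoly_eq hp ha hβ'
  have hint : IsIntegral L β := (Algebra.IsIntegral.isIntegral (R := ℚ_[q]) β).tower_top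
  have hfr : finrank L (IntermediateField.adjoin L {β}) = p := by
    rw [IntermediateField.adjoin.finrank hint, hmin, natDegree_X_pow_sub_C]
  have hfd : FiniteDimensional L (IntermediateField.adjoin L {β}) :=
    FiniteDimensional.of_finrank_pos (by rw [hfr]; exact hp.pos)
  have hfdq : FiniteDimensional ℚ_[q] (IntermediateField.adjoin L {β}) :=
    FiniteDimensional.trans ℚ_[q] L _
  let _ : NormedAlgebra ℚ_[q] (IntermediateField.adjoin L {β}) :=
    { norm_smul_le := fun r x ↦ norm_smul_le r (x : PadicAlgCl q) }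
  have hgen : (IntermediateField.AdjoinSimple.gen L β) ^ p =
      algebraMap L (IntermediateField.adjoin L {β}) a := by
    apply Subtype.ext
    exact hβ'
  obtain ⟨σ, hD⟩ := Kummer.exists_data hp hζ ha hgen hfr
  have hgal := hD.galois
  rw [normGrp_eq_range hp ha hfr hgen]
  exact Local.index_norm_range q L (IntermediateField.adjoin L {β}) hp hp2 hfr

theorem index_pow (hp : p.Prime) (hp2 : p ≠ 2) {ζ : L} (hζ : IsPrimitiveRoot ζ p) :
    (powMonoidHom p : Lˣ →* Lˣ).range.index =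
      p ^ 2 * (if p = q then q ^ finrank ℚ_[q] L else 1) := by
  rw [Local.index_pow_units q L hp hp2]
  congr 1
  have h : (powMonoidHom p : Lˣ →* Lˣ).ker = rootsOfUnity p L := by
    ext x
    rw [MonoidHom.mem_ker, powMonoidHom_apply, mem_rootsOfUnity]
  have : NeZero p := ⟨hp.ne_zero⟩
  rw [h, hζ.card_rootsOfUnity, pow_two]

theorem exists_pow_eq_of_norm_sub_one_lt (hp : p.Prime) (hp2 : p ≠ 2) (hpq : p ≠ q) {v : L}
    (hv : ‖v - 1‖ < 1) : ∃ u : L, u ^ p = v := by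
  have := Local.completeSpace q L
  have h1 : ‖(p : L)‖ = 1 := by
    have h2 := Local.nnnorm_natCast_prime q L hp hpq
    rw [← coe_nnnorm, h2, NNReal.coe_one]
  obtain ⟨u, -, hu⟩ := Local.exists_pow_eq hp hp2 (Local.natCast_ne_zero_of_prime q L hp)
    (norm_nonneg (v - 1)) (by rw [h1]; exact hv.le) hv v (by rw [h1, one_mul])
  exact ⟨u, hu⟩

/-- If `u` is close to `w ^ p` then `u` is a `p`-th power. -/
theorem exists_pow_eq_of_norm_sub_lt (hp : p.Prime) (hp2 : p ≠ 2) (hpq : p ≠ q) {u w : L}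
    (hw : w ≠ 0) (h : ‖u - w ^ p‖ < ‖w ^ p‖) : ∃ c : L, c ^ p = u := by
  have hw' : w ^ p ≠ 0 := pow_ne_zero _ hw
  obtain ⟨c, hc⟩ := exists_pow_eq_of_norm_sub_one_lt L hp hp2 hpq (v := u / w ^ p) (by
    have h1 : u / w ^ p - 1 = (u - w ^ p) / w ^ p := by
      rw [sub_div, div_self hw']
    rw [h1, norm_div, div_lt_one (norm_pos_iff.2 hw')]
    exact h)
  exact ⟨c * w, by rw [mul_pow, hc, div_mul_cancel₀ _ hw']⟩

/-- For `q ≠ p` the units of `L` modulo `p`-th powers form a group of order at most `p`,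
provided some element of `L` is not a unit times a `p`-th power. -/
theorem unit_eq_pow_mul (hp : p.Prime) (hp2 : p ≠ 2) (hpq : p ≠ q) {ζ : L}
    (hζ : IsPrimitiveRoot ζ p) {π : L} (hπ0 : π ≠ 0)
    (hπ : ∀ u c : L, ‖u‖ = 1 → π ≠ u * c ^ p) {x : L} (hx : ‖x‖ = 1)
    (hxp : ∀ c : L, c ^ p ≠ x) {u : L} (hu : ‖u‖ = 1) :
    ∃ (i : ℕ) (c : L), u = x ^ i * c ^ p := by
  set U : Subgroup Lˣ := (MonoidHom.ker ((normHom : L →*₀ ℝ).toMonoidHom.comp (Units.coeHom L)))
    with hU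
  have hmemU : ∀ y : Lˣ, y ∈ U ↔ ‖(y : L)‖ = 1 := fun y ↦ by
    rw [hU, MonoidHom.mem_ker]; rfl
  set P : Subgroup Lˣ := (powMonoidHom p : Lˣ →* Lˣ).range with hP
  have hPi : P.index = p ^ 2 := by
    rw [hP, index_pow L hp hp2 hζ, if_neg hpq, mul_one]
  have hx0 : x ≠ 0 := by rintro rfl; simp at hx
  have hu0 : u ≠ 0 := by rintro rfl; simp at hu
  have h1 : P.relIndex (U ⊔ P) * (U ⊔ P).index = p ^ 2 := by
    rw [← hPi]; exact Subgroup.relIndex_mul_index le_sup_right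
  have h2 : (U ⊔ P).index ≠ 1 := by
    rw [Ne, Subgroup.index_eq_one]
    intro htop
    have h3 : Units.mk0 π hπ0 ∈ U ⊔ P := by rw [htop]; exact Subgroup.mem_top _
    rw [Subgroup.mem_sup] at h3
    obtain ⟨y, hy, _, ⟨c, rfl⟩, hyc⟩ := h3
    exact hπ y c ((hmemU y).1 hy) (by
      have := congrArg (fun z : Lˣ ↦ (z : L)) hyc
      exact this.symm)
  set X : Subgroup Lˣ := P ⊔ Subgroup.zpowers (Units.mk0 x hx0) with hX
  have hxU : Units.mk0 x hx0 ∈ U := (hmemU _).2 hx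
  have hXle : X ≤ U ⊔ P := by
    rw [hX]
    refine sup_le le_sup_right ?_
    rw [Subgroup.zpowers_le]
    exact Subgroup.mem_sup_left hxU
  have h3 : P.relIndex X * X.relIndex (U ⊔ P) = P.relIndex (U ⊔ P) :=
    Subgroup.relIndex_mul_relIndex _ _ _ le_sup_left hXle
  have h4 : P.relIndex X ≠ 1 := by
    rw [Ne, Subgroup.relIndex_eq_one]
    intro h5
    obtain ⟨c, hc⟩ := h5 (Subgroup.mem_sup_right (Subgroup.mem_zpowers (Units.mk0 x hx0)))
    apply hxp c
    have := congrArg (fun z : Lˣ ↦ (z : L)) hc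
    exact this
  have h5 : X.relIndex (U ⊔ P) = 1 := by
    rw [← h3] at h1
    -- `A * B * C = p ^ 2`, `A ≠ 1`, `C ≠ 1`
    have hA : P.relIndex X ∣ p ^ 2 := ⟨_, by rw [← h1, mul_assoc]⟩
    have hC : (U ⊔ P).index ∣ p ^ 2 := ⟨_, by rw [← h1, mul_comm]⟩
    obtain ⟨i, hi, hi2⟩ := (Nat.dvd_prime_pow hp).1 hA
    obtain ⟨j, hj, hj2⟩ := (Nat.dvd_prime_pow hp).1 hC
    have hi0 : i ≠ 0 := by rintro rfl; exact h4 (by rw [hi2, pow_zero])
    have hj0 : j ≠ 0 := by rintro rfl; exact h2 (by rw [hj2, pow_zero])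
    have hB : X.relIndex (U ⊔ P) * (p ^ (i + j)) = p ^ 2 := by
      rw [← h1, hi2, hj2, pow_add]; ring
    have h6 : p ^ 2 ∣ p ^ (i + j) := pow_dvd_pow _ (by omega)
    have h7 : p ^ (i + j) ∣ p ^ 2 := ⟨_, by rw [← hB, mul_comm]⟩
    have h8 := Nat.dvd_antisymm h6 h7
    rw [← h8] at hB
    exact (mul_eq_right₀ (pow_ne_zero 2 hp.ne_zero)).1 hB
  rw [Subgroup.relIndex_eq_one] at h5
  have h6 : Units.mk0 u hu0 ∈ X := h5 (Subgroup.mem_sup_left ((hmemU _).2 hu))
  rw [hX, Subgroup.mem_sup] at h6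
  obtain ⟨_, ⟨c, rfl⟩, _, ⟨k, rfl⟩, hk⟩ := h6
  have hk' : (c : L) ^ p * x ^ k = u := by
    have := congrArg (fun z : Lˣ ↦ (z : L)) hk
    simpa using this
  refine ⟨(k % p).toNat, c * x ^ (k / p), ?_⟩
  have hp0 : (p : ℤ) ≠ 0 := by exact_mod_cast hp.ne_zero
  have h7 : (((k % p).toNat : ℕ) : ℤ) = k % p := Int.toNat_of_nonneg (Int.emod_nonneg _ hp0)
  rw [← zpow_natCast x, h7, mul_pow, ← zpow_natCast (x ^ (k / p)), ← zpow_mul, ← hk']
  rw [mul_left_comm, ← zpow_add₀ hx0, mul_comm (k / (p : ℤ)), Int.emod_add_mul_ediv]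

theorem unit_mem_normGrp (hp : p.Prime) (hp2 : p ≠ 2) (hpq : p ≠ q) {ζ : L}
    (hζ : IsPrimitiveRoot ζ p) {π : L} (hπ0 : π ≠ 0)
    (hπ : ∀ u c : L, ‖u‖ = 1 → π ≠ u * c ^ p) {a : L} (ha : ‖a‖ = 1)
    (u : Lˣ) (hu : ‖(u : L)‖ = 1) : u ∈ normGrp L p a := by
  by_cases h : ∃ c : L, c ^ p = a
  · rw [normGrp_eq_top h]; exact Subgroup.mem_top _
  · push Not at h
    obtain ⟨i, c, hic⟩ := unit_eq_pow_mul L hp hp2 hpq hζ hπ0 hπ ha h hu
    have ha0 : a ≠ 0 := by rintro rfl; simp at ha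
    have hc0 : c ≠ 0 := by
      rintro rfl
      rw [zero_pow hp.ne_zero, mul_zero] at hic
      exact u.ne_zero hic
    have h1 : u = (Units.mk0 a ha0) ^ i * (Units.mk0 c hc0) ^ p := by
      apply Units.ext
      rw [hic]
      rfl
    rw [h1]
    exact mul_mem (pow_mem (self_mem_normGrp (a := a) hp hp2 (Units.mk0 a ha0) rfl) _)
      (pow_mem_normGrp hp _)

end loc

theorem exists_norm_compat {K F L F' : Type*} [Field K] [NumberField K] [Field F] [NumberField F]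
    [Field L] [Field F'] [Algebra K F] [Algebra L F'] {p : ℕ} {ζ a : K} {α : F}
    {σ : F ≃ₐ[K] F} (hD : Kummer.Data K F p ζ a α σ) (j : K →+* L) {β : F'} {σ' : F' ≃ₐ[L] F'}
    (hD' : Kummer.Data L F' p (j ζ) (j a) β σ') (hp : p.Prime) (hζ : IsPrimitiveRoot ζ p)
    (hα : α ≠ 0) (haK : ∀ c : K, c ^ p ≠ a) :
    ∃ ψ : F →+* F', (∀ x : K, ψ (algebraMap K F x) = algebraMap L F' (j x)) ∧ ψ α = β ∧
      ∀ y, Algebra.norm L (ψ y) = j (Algebra.norm K y) := by
  let : Algebra K F' := ((algebraMap L F').comp j).toAlgebra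
  have halg : ∀ x : K, algebraMap K F' x = algebraMap L F' (j x) := fun x ↦ rfl
  obtain ⟨eK, heK⟩ := exists_algEquiv hp haK hD.finrank_eq hD.pow_eq
  have hroot : eval₂ (Algebra.ofId K F' : K →+* F') β (X ^ p - C a : K[X]) = 0 := by
    simp only [eval₂_sub, eval₂_X_pow, eval₂_C, RingHom.coe_coe, Algebra.ofId_apply]
    rw [hD'.pow_eq, halg, sub_self]
  let ψ : F →ₐ[K] F' := (AdjoinRoot.liftAlgHom (X ^ p - C a : K[X]) (Algebra.ofId K F') β
    hroot).comp (eK.symm : F →ₐ[K] _)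
  have hψ : ψ α = β := by
    change (AdjoinRoot.liftAlgHom (X ^ p - C a : K[X]) (Algebra.ofId K F') β hroot)
      (eK.symm α) = β
    rw [← heK, AlgEquiv.symm_apply_apply]
    exact AdjoinRoot.liftAlgHom_root _ _ _ _
  clear_value ψ
  let σ'' : F' →ₐ[K] F' := { (σ' : F' →+* F') with
    commutes' := fun x ↦ σ'.commutes (j x) }
  have hcomm : ψ.comp (σ : F →ₐ[K] F) = σ''.comp ψ := by
    apply AlgHom.ext_of_adjoin_eq_top (adjoin_eq_top hD hp hζ hα)
    intro x hx
    rw [Set.mem_singleton_iff] at hx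
    subst hx
    change ψ (σ x) = σ' (ψ x)
    rw [hD.apply_root, map_mul, hψ, hD'.apply_root, AlgHom.commutes]
    rfl
  have hcomm' : ∀ x, ψ (σ x) = σ' (ψ x) := fun x ↦ DFunLike.congr_fun hcomm x
  have hcomm'' : ∀ (i : ℕ) (x : F), ψ ((σ ^ i) x) = (σ' ^ i) (ψ x) := by
    intro i
    induction i with
    | zero => intro x; rfl
    | succ i ih =>
      intro x
      rw [pow_succ, pow_succ, AlgEquiv.mul_apply, AlgEquiv.mul_apply, ih, hcomm']
  refine ⟨ψ, fun x ↦ ψ.commutes x, hψ, fun y ↦ ?_⟩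
  apply (algebraMap L F').injective
  have h1 : algebraMap L F' (j (Algebra.norm K y)) = ψ (algebraMap K F (Algebra.norm K y)) :=
    (ψ.commutes _).symm
  rw [h1, RingHom.coe_coe, ← prod_pow_eq_norm hD' hp, ← prod_pow_eq_norm hD hp, map_prod]
  exact Finset.prod_congr rfl fun i _ ↦ (hcomm'' i _).symm

/-- a finite place of `K` together with an embedding into `PadicAlgCl q` inducing it -/
structure LocEmb (K : Type*) [Field K] where
  /-- the residue characteristic -/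
  q : ℕ
  [hq : Fact q.Prime]
  /-- the embedding -/
  φ : K →+* PadicAlgCl q

attribute [instance] LocEmb.hq

namespace LocEmb

variable {K : Type*} [Field K] [NumberField K] (e : LocEmb K) {p : ℕ}

/-- the local field -/
noncomputable abbrev L : IntermediateField ℚ_[e.q] (PadicAlgCl e.q) := locF e.q e.φ

/-- the place -/
noncomputable def v : HeightOneSpectrum (𝓞 K) := pl e.φ

/-- `K → K_v` -/
noncomputable def toL : K →+* e.L := toLocF e.q e.φ

/-- `Kˣ → K_vˣ` -/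
noncomputable def toU : Kˣ →* (e.L)ˣ := Units.map (e.toL : K →* e.L)

@[simp] theorem coe_toU (x : Kˣ) : (e.toU x : e.L) = e.toL x := rfl

/-- the local norm group of `K(a^{1/p})` -/
noncomputable def N (p : ℕ) (a : K) : Subgroup (e.L)ˣ := normGrp e.L p (e.toL a)

theorem norm_toL (x : K) : ‖e.toL x‖ = ‖e.φ x‖ := rfl

theorem exists_toL_near (y : e.L) {ε : ℝ} (hε : 0 < ε) : ∃ x : K, ‖y - e.toL x‖ < ε :=
  exists_approx' e.q e.φ y hε

theorem valuation_eq_one_iff (x : K) : e.v.valuation K x = 1 ↔ ‖e.toL x‖ = 1 :=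
  pl_valuation_eq_one_iff e.φ x

theorem valuation_lt_one_iff (x : K) : e.v.valuation K x < 1 ↔ ‖e.toL x‖ < 1 :=
  pl_valuation_lt_one_iff e.φ x

theorem valuation_eq_iff (x y : K) :
    e.v.valuation K x = e.v.valuation K y ↔ ‖e.toL x‖ = ‖e.toL y‖ :=
  pl_valuation_eq_iff e.φ x y

theorem exists_norm_eq {y : e.L} (hy : y ≠ 0) : ∃ x : K, x ≠ 0 ∧ ‖e.toL x‖ = ‖y‖ := by
  obtain ⟨x, hx⟩ := e.exists_toL_near y (norm_pos_iff.2 hy)
  have h1 : ‖e.toL x‖ = ‖y‖ := by
    apply Local.norm_eq_of_norm_sub_lt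
    rwa [norm_sub_rev]
  refine ⟨x, ?_, h1⟩
  rintro rfl
  rw [map_zero, norm_zero] at h1
  exact hy (norm_eq_zero.1 h1.symm)

/-- a uniformizer is not a unit times a `p`-th power. -/
theorem uniformizer_ne (hp : p.Prime) {π : K}
    (hπ : e.v.valuation K π = WithZero.exp (-1 : ℤ)) (u c : e.L) (hu : ‖u‖ = 1) :
    e.toL π ≠ u * c ^ p := by
  intro h
  have hπ0 : π ≠ 0 := by
    rintro rfl
    rw [map_zero] at hπ
    exact WithZero.coe_ne_zero hπ.symm
  have hc : c ≠ 0 := by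
    rintro rfl
    rw [zero_pow hp.ne_zero, mul_zero, map_eq_zero] at h
    exact hπ0 h
  obtain ⟨x, hx0, hx⟩ := e.exists_norm_eq hc
  have h1 : ‖e.toL π‖ = ‖e.toL (x ^ p)‖ := by
    rw [h, norm_mul, hu, one_mul, norm_pow, map_pow, norm_pow, hx]
  rw [← valuation_eq_iff, hπ, map_pow] at h1
  have hx1 : e.v.valuation K x ≠ 0 := (Valuation.ne_zero_iff _).2 hx0
  have h2 := congrArg WithZero.log h1
  rw [WithZero.log_exp, WithZero.log_pow] at h2
  have h3 : (p : ℤ) ∣ 1 := ⟨-WithZero.log (e.v.valuation K x), by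
    rw [nsmul_eq_mul] at h2
    linarith⟩
  have h4 : p ∣ 1 := by exact_mod_cast h3
  exact hp.one_lt.ne' (Nat.dvd_one.1 h4)

theorem isPow_iff (hp : p.Prime) (hp2 : p ≠ 2) (hpq : p ≠ e.q) {x : K}
    (hx : e.v.valuation K x = 1) :
    (∃ c : e.L, c ^ p = e.toL x) ↔ ChoosePrime.IsPowMod e.v p x := by
  constructor
  · rintro ⟨c, hc⟩
    have hc1 : ‖c‖ = 1 := by
      have h1 := congrArg norm hc
      rw [norm_pow, (e.valuation_eq_one_iff x).1 hx] at h1
      exact (pow_eq_one_iff_of_nonneg (norm_nonneg _) hp.ne_zero).1 h1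
    obtain ⟨y, hy⟩ := e.exists_toL_near c one_pos
    refine ⟨y, ?_⟩
    rw [valuation_lt_one_iff, map_sub, map_pow, ← hc]
    have hy1 : ‖e.toL y‖ ≤ 1 := by
      have h2 : e.toL y = c - (c - e.toL y) := by ring
      rw [h2, sub_eq_add_neg]
      refine (IsUltrametricDist.norm_add_le_max _ _).trans (max_le hc1.le ?_)
      rw [norm_neg]; exact hy.le
    have h3 : c ^ p - (e.toL y) ^ p =
        (∑ i ∈ Finset.range p, c ^ i * (e.toL y) ^ (p - 1 - i)) * (c - e.toL y) :=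
      (geom_sum₂_mul c (e.toL y) p).symm
    rw [h3, norm_mul]
    refine (mul_le_of_le_one_left (norm_nonneg _) ?_).trans_lt hy
    apply IsUltrametricDist.norm_sum_le_of_forall_le_of_nonneg zero_le_one
    intro i _
    rw [norm_mul, norm_pow, norm_pow, hc1, one_pow, one_mul]
    exact pow_le_one₀ (norm_nonneg _) hy1
  · rintro ⟨c, hc⟩
    rw [valuation_lt_one_iff, map_sub, map_pow] at hc
    have hx' : ‖e.toL x‖ = 1 := (e.valuation_eq_one_iff x).1 hx
    have h1 : ‖(e.toL c) ^ p‖ = 1 := by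
      rw [← hx']
      apply Local.norm_eq_of_norm_sub_lt
      rw [hx', norm_sub_rev]
      exact hc
    have hc0 : e.toL c ≠ 0 := by
      intro h0
      rw [h0, zero_pow hp.ne_zero, norm_zero] at h1
      exact zero_ne_one h1
    exact exists_pow_eq_of_norm_sub_lt e.L hp hp2 hpq hc0 (by rw [h1]; exact hc)

theorem unit_eq_pow_mul (hp : p.Prime) (hp2 : p ≠ 2) (hpq : p ≠ e.q) {ζ : K}
    (hζ : IsPrimitiveRoot ζ p) {x : K} (hx : e.v.valuation K x = 1)
    (hxp : ¬ ChoosePrime.IsPowMod e.v p x) {u : e.L} (hu : ‖u‖ = 1) :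
    ∃ (i : ℕ) (c : e.L), u = (e.toL x) ^ i * c ^ p := by
  obtain ⟨π, hπ⟩ := e.v.valuation_exists_uniformizer K
  have hπ0 : e.toL π ≠ 0 := by
    rw [Ne, map_eq_zero]
    rintro rfl
    rw [map_zero] at hπ
    exact WithZero.coe_ne_zero hπ.symm
  have hζ' : IsPrimitiveRoot (e.toL ζ) p := hζ.map_of_injective e.toL.injective
  refine NormGrp.unit_eq_pow_mul e.L hp hp2 hpq hζ' hπ0 (e.uniformizer_ne hp hπ)
    ((e.valuation_eq_one_iff x).1 hx) ?_ hu
  intro c hc
  exact hxp ((e.isPow_iff hp hp2 hpq hx).1 ⟨c, hc⟩)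

theorem unit_mem_N (hp : p.Prime) (hp2 : p ≠ 2) (hpq : p ≠ e.q) {ζ : K}
    (hζ : IsPrimitiveRoot ζ p) {a : K} (ha : e.v.valuation K a = 1)
    (u : (e.L)ˣ) (hu : ‖(u : e.L)‖ = 1) : u ∈ e.N p a := by
  obtain ⟨π, hπ⟩ := e.v.valuation_exists_uniformizer K
  have hπ0 : e.toL π ≠ 0 := by
    rw [Ne, map_eq_zero]
    rintro rfl
    rw [map_zero] at hπ
    exact WithZero.coe_ne_zero hπ.symm
  have hζ' : IsPrimitiveRoot (e.toL ζ) p := hζ.map_of_injective e.toL.injective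
  exact unit_mem_normGrp e.L hp hp2 hpq hζ' hπ0 (e.uniformizer_ne hp hπ)
    ((e.valuation_eq_one_iff a).1 ha) u hu

theorem toU_mem_N_of_unit (hp : p.Prime) (hp2 : p ≠ 2) (hpq : p ≠ e.q) {ζ : K}
    (hζ : IsPrimitiveRoot ζ p) {a : K} (ha : e.v.valuation K a = 1)
    (x : Kˣ) (hx : e.v.valuation K (x : K) = 1) : e.toU x ∈ e.N p a :=
  e.unit_mem_N hp hp2 hpq hζ ha _ ((e.valuation_eq_one_iff _).1 hx)

theorem index_N (hp : p.Prime) (hp2 : p ≠ 2) {ζ : K} (hζ : IsPrimitiveRoot ζ p) {a : K}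
    (ha : ∀ c : e.L, c ^ p ≠ e.toL a) : (e.N p a).index = p :=
  index_normGrp e.L hp hp2 (hζ.map_of_injective e.toL.injective) ha

theorem index_pow (hp : p.Prime) (hp2 : p ≠ 2) {ζ : K} (hζ : IsPrimitiveRoot ζ p) :
    (powMonoidHom p : (e.L)ˣ →* (e.L)ˣ).range.index =
      p ^ 2 * (if p = e.q then e.q ^ finrank ℚ_[e.q] e.L else 1) :=
  NormGrp.index_pow e.L hp hp2 (hζ.map_of_injective e.toL.injective)

variable (K) in
theorem exists_locEmb (v : HeightOneSpectrum (𝓞 K)) : ∃ e : LocEmb K, e.v = v := by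
  obtain ⟨q, hq, hqv⟩ : ∃ q : ℕ, q.Prime ∧ (q : 𝓞 K) ∈ v.asIdeal := by
    have hN : ((Ideal.absNorm v.asIdeal : ℕ) : 𝓞 K) ∈ v.asIdeal := Ideal.absNorm_mem _
    have hN0 : Ideal.absNorm v.asIdeal ≠ 0 := by
      rw [Ne, Ideal.absNorm_eq_zero_iff]; exact v.ne_bot
    rw [← Nat.prod_primeFactorsList hN0] at hN
    have key : ∀ l : List ℕ, (∀ x ∈ l, Nat.Prime x) → ((l.prod : ℕ) : 𝓞 K) ∈ v.asIdeal →
        ∃ q : ℕ, q.Prime ∧ (q : 𝓞 K) ∈ v.asIdeal := by
      intro l
      induction l with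
      | nil =>
        intro _ h
        rw [List.prod_nil, Nat.cast_one] at h
        exact absurd ((Ideal.eq_top_iff_one _).2 h) v.isPrime.ne_top
      | cons x l ih =>
        intro hl h
        rw [List.prod_cons, Nat.cast_mul] at h
        rcases v.isPrime.mem_or_mem h with h | h
        · exact ⟨x, hl x (by simp), h⟩
        · exact ih (fun y hy ↦ hl y (by simp [hy])) h
    exact key _ (fun x hx ↦ Nat.prime_of_mem_primeFactorsList hx) hN
  have : Fact q.Prime := ⟨hq⟩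
  obtain ⟨φ, hφ⟩ := exists_pl_eq q v hqv
  exact ⟨⟨q, φ⟩, hφ⟩

theorem natCast_mem_v : (e.q : 𝓞 K) ∈ e.v.asIdeal := natCast_mem_pl e.φ

theorem q_eq_of_natCast_mem (hp : p.Prime) (h : (p : 𝓞 K) ∈ e.v.asIdeal) : p = e.q := by
  by_contra hne
  have h1 : IsCoprime (p : ℤ) (e.q : ℤ) := by
    rw [Nat.isCoprime_iff_coprime, Nat.coprime_primes hp e.hq.out]
    exact hne
  obtain ⟨x, y, hxy⟩ := h1
  apply e.v.isPrime.ne_top
  rw [Ideal.eq_top_iff_one]
  have h2 : (1 : 𝓞 K) = (x : 𝓞 K) * (p : 𝓞 K) + (y : 𝓞 K) * (e.q : 𝓞 K) := by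
    exact_mod_cast congrArg (fun z : ℤ ↦ (z : 𝓞 K)) hxy.symm
  rw [h2]
  exact Ideal.add_mem _ (Ideal.mul_mem_left _ _ h) (Ideal.mul_mem_left _ _ e.natCast_mem_v)

theorem q_eq_iff (hp : p.Prime) : p = e.q ↔ (p : 𝓞 K) ∈ e.v.asIdeal :=
  ⟨fun h ↦ h ▸ e.natCast_mem_v, e.q_eq_of_natCast_mem hp⟩

/-- Global norms are local norms. -/
theorem toU_norm_mem_N {F : Type*} [Field F] [NumberField F] [Algebra K F] {ζ a : K} {α : F}
    {σ : F ≃ₐ[K] F} (hD : Kummer.Data K F p ζ a α σ) (hp : p.Prime) (hζ : IsPrimitiveRoot ζ p)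
    (y : Fˣ) : e.toU (Units.map (Algebra.norm K : F →* K) y) ∈ e.N p a := by
  by_cases h : ∃ c : e.L, c ^ p = e.toL a
  · rw [N, normGrp_eq_top h]; exact Subgroup.mem_top _
  push Not at h
  have haK : ∀ c : K, c ^ p ≠ a := fun c hc ↦ h (e.toL c) (by rw [← map_pow, hc])
  have hα : α ≠ 0 := by
    rintro rfl
    have h1 := hD.pow_eq
    rw [zero_pow hp.ne_zero, eq_comm, map_eq_zero] at h1
    exact haK 0 (by rw [h1, zero_pow hp.ne_zero])
  have hirr : Fact (Irreducible (X ^ p - C (e.toL a) : (e.L)[X])) :=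
    ⟨X_pow_sub_C_irreducible_of_prime hp h⟩
  obtain ⟨σ', hD'⟩ := Kummer.exists_data hp (hζ.map_of_injective e.toL.injective) h
    (Kummer.root_pow (p := p) (a := e.toL a)) (Kummer.finrank_adjoinRoot hp)
  obtain ⟨ψ, -, -, hψ⟩ := exists_norm_compat hD e.toL hD' hp hζ hα haK
  rw [N, normGrp_eq_range' h]
  refine ⟨Units.map (ψ : F →* _) y, ?_⟩
  apply Units.ext
  exact hψ _

end LocEmb

end Fermat.Agent.CFT.NormGrp
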