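import Mathlib
import Fermat.Agent.CFT.NormGrp

/-!
# Independence of the local norm condition of the chosen embedding
-/

set_option autoImplicit false
open NumberField IsDedekindDomain Module Polynomial Fermat.Agent.Density
open Fermat.Agent.CFT.W Fermat.Agent.CFT.Embed
namespace Fermat.Agent.CFT.NormGrp

theorem mem_normGrp_of_ringEquiv {L L' : Type*} [Field L] [Field L'] (ε : L ≃+* L') {p : ℕ}
    (hp : p.Prime) {a : L} {u : Lˣ} (hu : u ∈ normGrp L p a) :
    Units.map (ε : L →* L') u ∈ normGrp L' p (ε a) := by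
  by_cases h : ∃ c : L', c ^ p = ε a
  · rw [normGrp_eq_top h]; exact Subgroup.mem_top _
  push Not at h
  have h' : ∀ c : L, c ^ p ≠ a := fun c hc ↦ h (ε c) (by rw [← map_pow, hc])
  have hirr : Fact (Irreducible (X ^ p - C a : L[X])) := ⟨X_pow_sub_C_irreducible_of_prime hp h'⟩
  rw [normGrp_eq_range' h'] at hu
  obtain ⟨y, rfl⟩ := hu
  let _ : Algebra L' (AdjoinRoot (X ^ p - C a : L[X])) :=
    ((algebraMap L (AdjoinRoot (X ^ p - C a : L[X]))).comp (ε.symm : L' →+* L)).toAlgebra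
  have hcomp : (algebraMap L' (AdjoinRoot (X ^ p - C a : L[X]))).comp (ε : L →+* L') =
      algebraMap L (AdjoinRoot (X ^ p - C a : L[X])) := by
    ext x
    change algebraMap L _ (ε.symm (ε x)) = _
    rw [ε.symm_apply_apply]
  have hd : finrank L' (AdjoinRoot (X ^ p - C a : L[X])) = p := by
    refine Eq.trans ?_ (Kummer.finrank_adjoinRoot (a := a) hp)
    exact (Algebra.finrank_eq_of_equiv_equiv ε (RingEquiv.refl _) hcomp).symm
  rw [normGrp_eq_range hp h hd (β := AdjoinRoot.root _) (by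
    rw [Kummer.root_pow]
    exact (DFunLike.congr_fun hcomp a).symm)]
  refine ⟨y, ?_⟩
  apply Units.ext
  have := Algebra.norm_eq_of_ringEquiv ε hcomp (y : AdjoinRoot (X ^ p - C a : L[X]))
  exact this.symm

theorem exists_ringEquiv_locF (q : ℕ) [Fact q.Prime] {K : Type*} [Field K] [NumberField K]
    {φ φ' : K →+* PadicAlgCl q} (h : pl φ = pl φ') :
    ∃ ε : locF q φ ≃+* locF q φ', ∀ x, ε (toLocF q φ x) = toLocF q φ' x := by
  obtain ⟨τ, hτ⟩ := exists_conj_of_norm_eq φ φ' (norm_eq_of_pl_eq h)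
  have hmap : (locF q φ).map (τ : PadicAlgCl q →ₐ[ℚ_[q]] PadicAlgCl q) = locF q φ' := by
    rw [locF, IntermediateField.adjoin_map, locF]
    congr 1
    ext y
    constructor
    · rintro ⟨_, ⟨x, rfl⟩, rfl⟩
      exact ⟨x, (hτ x).symm⟩
    · rintro ⟨x, rfl⟩
      exact ⟨φ x, ⟨x, rfl⟩, hτ x⟩
  let ε₁ := IntermediateField.intermediateFieldMap τ (locF q φ)
  let ε₂ := IntermediateField.equivOfEq hmap
  exact ⟨(ε₁.trans ε₂).toRingEquiv, fun x ↦ Subtype.ext (hτ x)⟩

namespace LocEmb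

variable {K : Type*} [Field K] [NumberField K] {p : ℕ}

theorem mem_N_of_v_eq {e e' : LocEmb K} (h : e.v = e'.v) (hp : p.Prime) {a : K} {y : Kˣ}
    (hy : e.toU y ∈ e.N p a) : e'.toU y ∈ e'.N p a := by
  obtain ⟨q, φ⟩ := e
  obtain ⟨q', φ'⟩ := e'
  have hq : q = q' := by
    apply q_eq_of_natCast_mem ⟨q', φ'⟩ (Fact.out : q.Prime)
    rw [← h]
    exact natCast_mem_v ⟨q, φ⟩
  subst hq
  obtain ⟨ε, hε⟩ := exists_ringEquiv_locF q (h : pl φ = pl φ')
  have h1 := mem_normGrp_of_ringEquiv ε hp hy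
  have h2 : ε ((⟨q, φ⟩ : LocEmb K).toL a) = (⟨q, φ'⟩ : LocEmb K).toL a := hε a
  rw [h2] at h1
  have h3 : Units.map (ε : locF q φ →* locF q φ') ((⟨q, φ⟩ : LocEmb K).toU y) =
      (⟨q, φ'⟩ : LocEmb K).toU y := Units.ext (hε y)
  rw [h3] at h1
  exact h1

end LocEmb

end Fermat.Agent.CFT.NormGrp
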