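import Mathlib
import Fermat.Agent.CFT.Kummer
import Fermat.Agent.CFT.SUnitsHerbrand

/-!
# Kummer extensions of prime degree are unramified at tame places where the radicand is a unit
-/

set_option autoImplicit false
set_option linter.unusedSectionVars false

open NumberField IsDedekindDomain Module Fermat.Agent.CFT.SUH

namespace Fermat.Agent.CFT.Unram

variable {K F : Type*} [Field K] [NumberField K] [Field F] [NumberField F] [Algebra K F]

/-- inertia acts trivially modulo `w` on `w`-integral elements -/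
theorem valuation_sub_lt_one_of_inertia (w : HeightOneSpectrum (𝓞 F)) (τ : F ≃ₐ[K] F)
    (hτ : ∀ x : 𝓞 F, w.valuation F (τ x - x) < 1) {x : F} (hx : w.valuation F x ≤ 1) :
    w.valuation F (τ x - x) < 1 := by
  obtain ⟨n, d, hnd⟩ := w.exists_primeCompl_mul_eq_of_integer x hx
  have hd : w.valuation F (algebraMap (𝓞 F) F d) = 1 := by
    rw [HeightOneSpectrum.valuation_of_algebraMap, w.intValuation_eq_one_iff_mem_primeCompl]
    exact d.2
  have hτd : w.valuation F (τ (algebraMap (𝓞 F) F d)) = 1 := by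
    have h1 : τ (algebraMap (𝓞 F) F d) = (τ (algebraMap (𝓞 F) F d) - algebraMap (𝓞 F) F d) +
      algebraMap (𝓞 F) F d := by ring
    rw [h1, Valuation.map_add_eq_of_lt_right]
    · exact hd
    · rw [hd]; exact hτ d
  have h2 : (τ x - x) * τ (algebraMap (𝓞 F) F d) =
      (τ (algebraMap (𝓞 F) F n) - algebraMap (𝓞 F) F n) -
        x * (τ (algebraMap (𝓞 F) F d) - algebraMap (𝓞 F) F d) := by
    rw [← hnd, map_mul]; ring
  have h3 : w.valuation F (τ x - x) = w.valuation F ((τ x - x) * τ (algebraMap (𝓞 F) F d)) := by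
    rw [map_mul, hτd, mul_one]
  rw [h3, h2]
  refine (w.valuation F).map_sub_lt (hτ n) ?_
  rw [map_mul]
  exact mul_lt_one_of_nonneg_of_lt_one_right hx zero_le (hτ d)

theorem valuation_root_sub_one {p : ℕ} (hp : p.Prime) {ζ : F} (hζ : IsPrimitiveRoot ζ p)
    (w : HeightOneSpectrum (𝓞 F)) (hpw : w.valuation F (p : F) = 1) :
    w.valuation F (ζ - 1) = 1 := by
  have hint : IsIntegral ℤ ζ := hζ.isIntegral hp.pos
  have hle : w.valuation F (ζ - 1) ≤ 1 := by
    have : ζ - 1 = algebraMap (𝓞 F) F (⟨ζ, hint⟩ - 1) := by simp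
    rw [this]
    exact w.valuation_le_one _
  have hζ1 : w.valuation F ζ = 1 := by
    have h1 : (w.valuation F ζ) ^ p = 1 := by rw [← map_pow, hζ.pow_eq_one, map_one]
    exact (pow_eq_one_iff.1 h1).resolve_right hp.ne_zero
  refine le_antisymm hle ?_
  by_contra hlt
  push Not at hlt
  have h1 : ∑ i ∈ Finset.range p, ζ ^ i = 0 := hζ.geom_sum_eq_zero hp.one_lt
  have h2 : (p : F) = ∑ i ∈ Finset.range p, (1 - ζ ^ i) := by
    rw [Finset.sum_sub_distrib, h1]; simp
  have h3 : w.valuation F (p : F) < 1 := by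
    rw [h2]
    refine Valuation.map_sum_lt _ one_ne_zero fun i _ => ?_
    have h4 : 1 - ζ ^ i = -(ζ - 1) * ∑ j ∈ Finset.range i, ζ ^ j := by
      rw [neg_mul, mul_geom_sum]; ring
    rw [h4, map_mul, Valuation.map_neg]
    refine mul_lt_one_of_nonneg_of_lt_one_left zero_le hlt ?_
    refine Valuation.map_sum_le _ fun j _ => ?_
    rw [map_pow, hζ1, one_pow]
  rw [hpw] at h3
  exact lt_irrefl _ h3

/-- tame Kummer extensions are unramified where the root has valuation one -/
theorem ramificationIdx'_eq_one [IsGalois K F] {p : ℕ} (hp : p.Prime) {ζ : K}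
    (hζ : IsPrimitiveRoot ζ p) {σ : F ≃ₐ[K] F} (hgen : ∀ τ : F ≃ₐ[K] F, ∃ i : ℕ, i < p ∧ τ = σ ^ i)
    {α : F} (hα : σ α = algebraMap K F ζ * α)
    (w : HeightOneSpectrum (𝓞 F)) (hpw : w.valuation F (p : F) = 1) (hαw : w.valuation F α = 1) :
    (below K w).asIdeal.ramificationIdx' w.asIdeal = 1 := by
  have hpow : ∀ i : ℕ, (σ ^ i) α = algebraMap K F ζ ^ i * α := by
    intro i
    induction i with
    | zero => simp
    | succ i ih => rw [pow_succ', AlgEquiv.mul_apply, ih, map_mul, map_pow, AlgEquiv.commutes, hα]; ring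
  have hin : Nat.card (Ideal.inertia (F ≃ₐ[K] F) w.asIdeal) = 1 := by
    rw [Subgroup.card_eq_one, eq_bot_iff]
    intro τ hτ
    rw [Subgroup.mem_bot]
    obtain ⟨i, hi, rfl⟩ := hgen τ
    by_cases hi0 : i = 0
    · rw [hi0, pow_zero]
    exfalso
    have h1 : ∀ x : 𝓞 F, w.valuation F ((σ ^ i) x - x) < 1 := by
      intro x
      have h2 : ((σ ^ i) • x - x) ∈ w.asIdeal := hτ x
      have h3 : (algebraMap (𝓞 F) F ((σ ^ i) • x - x)) = (σ ^ i) x - x := by
        rw [map_sub]; rfl
      rw [← h3, w.valuation_lt_one_iff_mem]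
      exact h2
    have h4 := valuation_sub_lt_one_of_inertia w (σ ^ i) h1 hαw.le
    rw [hpow] at h4
    have h5 : algebraMap K F ζ ^ i * α - α = (algebraMap K F ζ ^ i - 1) * α := by ring
    have hζi : IsPrimitiveRoot (algebraMap K F ζ ^ i) p := by
      have hζF : IsPrimitiveRoot (algebraMap K F ζ) p :=
        hζ.map_of_injective (algebraMap K F).injective
      refine hζF.pow_of_coprime i ?_
      exact (Nat.coprime_of_lt_prime hi0 hi hp).symm
    rw [h5, map_mul, hαw, mul_one, valuation_root_sub_one hp hζi w hpw] at h4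
    exact lt_irrefl _ h4
  have h6 := Ideal.card_inertia_eq_ramificationIdxIn (G := F ≃ₐ[K] F) (below K w).asIdeal w.asIdeal
  rw [hin, Ideal.ramificationIdxIn_eq_ramificationIdx (below K w).asIdeal w.asIdeal (F ≃ₐ[K] F)] at h6
  rw [Ideal.ramificationIdx'_eq_ramificationIdx _ _ (below K w).ne_bot, ← h6]

/-- `F = K(α)`, `α ^ p = a`, is unramified at the places `v ∤ p` with `v(a)` a `p`-th power. -/
theorem unramified_of_valuation_eq_pow {p : ℕ} (hp : p.Prime) {ζ a : K} {α : F} {σ : F ≃ₐ[K] F}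
    (hζ : IsPrimitiveRoot ζ p) (hD : Kummer.Data K F p ζ a α σ) (v : HeightOneSpectrum (𝓞 K))
    (hpv : (p : 𝓞 K) ∉ v.asIdeal) (ha : a ≠ 0) (c : K)
    (hav : v.valuation K a = (v.valuation K c) ^ p) :
    ∀ w : HeightOneSpectrum (𝓞 F), below K w = v → v.asIdeal.ramificationIdx' w.asIdeal = 1 := by
  rintro w rfl
  have := hD.galois
  have hc0 : c ≠ 0 := by
    rintro rfl
    rw [map_zero, zero_pow hp.ne_zero, Valuation.zero_iff] at hav
    exact ha hav
  have hcF : algebraMap K F c ≠ 0 := by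
    rwa [Ne, FaithfulSMul.algebraMap_eq_zero_iff]
  refine ramificationIdx'_eq_one hp hζ (σ := σ) hD.gen (α := α / algebraMap K F c) ?_ w ?_ ?_
  · rw [map_div₀, hD.apply_root, AlgEquiv.commutes, mul_div_assoc]
  · have h1 : (p : F) = algebraMap K F (p : K) := by simp
    rw [h1, valuation_below w]
    have h2 : (p : K) = algebraMap (𝓞 K) K (p : 𝓞 K) := by simp
    rw [h2, HeightOneSpectrum.valuation_of_algebraMap, HeightOneSpectrum.intValuation_eq_one_iff]
    exact hpv
  · have h1 : (w.valuation F (α / algebraMap K F c)) ^ p = 1 := by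
      rw [← map_pow, div_pow, hD.pow_eq, ← map_pow, ← map_div₀, valuation_below w, map_div₀, hav,
        map_pow]
      apply div_self
      apply pow_ne_zero
      rwa [Valuation.ne_zero_iff]
    exact (pow_eq_one_iff.1 h1).resolve_right hp.ne_zero

theorem unramified_of_valuation_eq_one {p : ℕ} (hp : p.Prime) {ζ a : K} {α : F} {σ : F ≃ₐ[K] F}
    (hζ : IsPrimitiveRoot ζ p) (hD : Kummer.Data K F p ζ a α σ) (v : HeightOneSpectrum (𝓞 K))
    (hpv : (p : 𝓞 K) ∉ v.asIdeal) (hav : v.valuation K a = 1) :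
    ∀ w : HeightOneSpectrum (𝓞 F), below K w = v → v.asIdeal.ramificationIdx' w.asIdeal = 1 := by
  refine unramified_of_valuation_eq_pow hp hζ hD v hpv ?_ 1 (by rw [hav, map_one, one_pow])
  rintro rfl
  rw [map_zero] at hav
  exact zero_ne_one hav

end Fermat.Agent.CFT.Unram
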