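import Mathlib
import Fermat.Agent.CFT.NormGrp
import Fermat.Agent.CFT.Unram

/-!
# The first inequality (index formula) for Kummer extensions of prime degree
-/

set_option autoImplicit false
set_option linter.unusedSectionVars false

open NumberField IsDedekindDomain Module Polynomial
open Fermat.Agent.CFT.W Fermat.Agent.CFT.Embed Fermat.Agent.CFT.SUnits
open Fermat.Agent.CFT.NormGrp

namespace Fermat.Agent.CFT.First

theorem index_pi_dep {ι : Type*} [Fintype ι] {G : ι → Type*} [∀ i, Group (G i)]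
    (H : ∀ i, Subgroup (G i)) : (Subgroup.pi Set.univ H).index = ∏ i, (H i).index := by
  simp_rw [Subgroup.index, ← Nat.card_pi]
  refine Nat.card_congr
    ((Quotient.congrRight (fun x y ↦ ?_)).trans (Setoid.piQuotientEquiv _).symm)
  rw [QuotientGroup.leftRel_pi]

variable {K : Type*} [Field K] [NumberField K] {ι : Type*} (e : ι → LocEmb K)

/-- the diagonal map `Kˣ → ∏ K_vˣ` -/
noncomputable def diag : Kˣ →* (∀ i, ((e i).L)ˣ) := MonoidHom.pi fun i ↦ (e i).toU

@[simp] theorem diag_apply (x : Kˣ) (i : ι) : diag e x i = (e i).toU x := rfl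

/-- the product of the local norm groups -/
noncomputable def H (p : ℕ) (a : K) : Subgroup (∀ i, ((e i).L)ˣ) :=
  Subgroup.pi Set.univ fun i ↦ (e i).N p a

theorem mem_H {p : ℕ} {a : K} (x : ∀ i, ((e i).L)ˣ) :
    x ∈ H e p a ↔ ∀ i, x i ∈ (e i).N p a := by
  rw [H, Subgroup.mem_pi]
  exact ⟨fun h i ↦ h i (Set.mem_univ i), fun h i _ ↦ h i⟩

/-- the set of places -/
noncomputable def pls : Set (HeightOneSpectrum (𝓞 K)) := Set.range fun i ↦ (e i).v

theorem mem_pls (i : ι) : (e i).v ∈ pls e := ⟨i, rfl⟩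

instance [Finite ι] : Finite (pls e) := Set.finite_range _

section index

variable {F : Type*} [Field F] [NumberField F] [Algebra K F] {p : ℕ} {ζ a : K} {α : F}
  {σ : F ≃ₐ[K] F}

theorem index_H [Finite ι] (he : Function.Injective fun i ↦ (e i).v)
    (hD : Kummer.Data K F p ζ a α σ) (hp : p.Prime) (hp2 : p ≠ 2) (hζ : IsPrimitiveRoot ζ p)
    (hα : α ≠ 0) : (H e p a).index = p ^ SUH.nonsplit F (pls e) := by
  classical
  have := Fintype.ofFinite ι
  rw [H, index_pi_dep]
  have h1 : ∀ i, ((e i).N p a).index =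
      if (∀ c : (e i).L, c ^ p ≠ (e i).toL a) then p else 1 := by
    intro i
    split_ifs with h
    · exact (e i).index_N hp hp2 hζ h
    · push Not at h
      rw [LocEmb.N, normGrp_eq_top h, Subgroup.index_top]
  rw [Finset.prod_congr rfl fun i _ ↦ h1 i, Finset.prod_ite, Finset.prod_const, Finset.prod_const,
    one_pow, mul_one, SUH.nonsplit]
  congr 1
  rw [← Fintype.card_subtype, ← Nat.card_eq_fintype_card]
  let eq := Equiv.ofInjective _ he
  have h2 : ∀ i, (∀ c : (e i).L, c ^ p ≠ (e i).toL a) ↔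
      SUH.gnum F ((eq i : pls e) : HeightOneSpectrum (𝓞 K)) = 1 := by
    intro i
    change _ ↔ SUH.gnum F (pl (e i).φ) = 1
    rw [gnum_eq_one_iff (e i).q hD hp hζ hα]
    constructor
    · intro h c hc hca
      exact h ⟨c, hc⟩ (Subtype.ext hca)
    · intro h c hc
      exact h c.1 c.2 (congrArg Subtype.val hc)
  exact Nat.card_congr (eq.subtypeEquiv h2)

theorem norm_mem_unit (hD : Kummer.Data K F p ζ a α σ) (hp : p.Prime) (hζ : IsPrimitiveRoot ζ p)
    (hα : α ≠ 0) (S : Set (HeightOneSpectrum (𝓞 K))) :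
    ((SUH.above F S).unit F).map (SUH.nrm K F) ≤ S.unit K := by
  have := hD.galois
  have : Fact p.Prime := ⟨hp⟩
  rintro _ ⟨y, hy, rfl⟩
  rw [← SUH.algebraMap_mem_unit_iff (F := F)]
  have hσ : σ ≠ 1 := by
    rintro rfl
    have h1 := hD.apply_root
    rw [AlgEquiv.one_apply] at h1
    have h2 : algebraMap K F ζ = 1 := (mul_right_cancel₀ hα ((one_mul α).trans h1)).symm
    rw [map_eq_one_iff _ (algebraMap K F).injective] at h2
    exact hζ.ne_one hp.one_lt h2
  have h1 := SUH.coe_nM_sAct hD.finrank_eq hσ S ⟨y, hy⟩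
  have h2 : Units.map (algebraMap K F : K →* F) (SUH.nrm K F y) =
      (Fermat.Agent.CFT.Herbrand.nM p (SUH.sAct S σ) ⟨y, hy⟩ : (SUH.above F S).unit F) := by
    apply Units.ext
    exact h1.symm
  rw [h2]
  exact (Fermat.Agent.CFT.Herbrand.nM p (SUH.sAct S σ) ⟨y, hy⟩).2

theorem norm_mem_H (hD : Kummer.Data K F p ζ a α σ) (hp : p.Prime) (hζ : IsPrimitiveRoot ζ p)
    (y : Fˣ) : diag e (SUH.nrm K F y) ∈ H e p a := by
  rw [mem_H]
  intro i
  exact (e i).toU_norm_mem_N hD hp hζ y

/-- **The index formula.** -/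
theorem index_formula [Finite ι] (he : Function.Injective fun i ↦ (e i).v)
    (hD : Kummer.Data K F p ζ a α σ) (hp : p.Prime) (hp2 : p ≠ 2) (hζ : IsPrimitiveRoot ζ p)
    (hα : α ≠ 0) (hS : ClassTrivial (pls e))
    (hSp : ∀ v : HeightOneSpectrum (𝓞 K), (p : 𝓞 K) ∈ v.asIdeal → v ∈ pls e)
    (haS : ∀ v : HeightOneSpectrum (𝓞 K), v ∉ pls e → v.valuation K a = 1) :
    (((pls e).unit K).map (diag e) ⊔ H e p a).index =
      p * (((SUH.above F (pls e)).unit F).map (SUH.nrm K F)).relIndex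
        ((pls e).unit K ⊓ (H e p a).comap (diag e)) ∧
    (((pls e).unit K).map (diag e) ⊔ H e p a).index ≠ 0 := by
  have := hD.galois
  have : Fact p.Prime := ⟨hp⟩
  set E := (pls e).unit K with hE
  set C := (H e p a).comap (diag e) with hC
  set NE := ((SUH.above F (pls e)).unit F).map (SUH.nrm K F) with hNE
  have h1 : p * NE.relIndex E = p ^ SUH.nonsplit F (pls e) := by
    apply SUH.relIndex_norm_sunit hp2 hD.finrank_eq hS
    intro w hw
    exact Unram.unramified_of_valuation_eq_one hp hζ hD _ (fun h ↦ hw (hSp _ h))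
      (haS _ (fun h ↦ hw h)) w rfl
  have h2 : (E.map (diag e) ⊔ H e p a).index * C.relIndex E =
      p ^ SUH.nonsplit F (pls e) := by
    rw [← index_H e he hD hp hp2 hζ hα, hC, Subgroup.relIndex_comap,
      ← Subgroup.relIndex_sup_right, mul_comm]
    exact Subgroup.relIndex_mul_index le_sup_right
  have hNEle : NE ≤ E ⊓ C := by
    refine le_inf (norm_mem_unit hD hp hζ hα _) ?_
    rintro _ ⟨y, -, rfl⟩
    exact norm_mem_H e hD hp hζ y
  have h3 : NE.relIndex (E ⊓ C) * C.relIndex E = NE.relIndex E := by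
    rw [← Subgroup.inf_relIndex_left E C]
    exact Subgroup.relIndex_mul_relIndex _ _ _ hNEle inf_le_left
  have hpos : p ^ SUH.nonsplit F (pls e) ≠ 0 := pow_ne_zero _ hp.ne_zero
  have h4 : C.relIndex E ≠ 0 := by
    intro h0
    rw [h0, mul_zero] at h2
    exact hpos h2.symm
  refine ⟨?_, ?_⟩
  · apply Nat.eq_of_mul_eq_mul_right (Nat.pos_of_ne_zero h4)
    rw [h2, mul_assoc, h3, h1]
  · intro h0
    rw [h0, zero_mul] at h2
    exact hpos h2.symm

end index

end Fermat.Agent.CFT.First
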