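import Mathlib
import Fermat.Agent.CFT.SecondIneq
import Fermat.Agent.CFT.NormIndep

/-!
# The second inequality and the Hasse norm theorem for Kummer extensions of prime degree
-/

set_option autoImplicit false
set_option linter.unusedSectionVars false

open NumberField IsDedekindDomain Module Polynomial
open Fermat.Agent.CFT.W Fermat.Agent.CFT.Embed Fermat.Agent.CFT.SUnits
open Fermat.Agent.CFT.NormGrp Fermat.Agent.CFT.First Fermat.Agent.CFT.ChoosePrime
open Fermat.Agent.CFT.Second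

namespace Fermat.Agent.CFT.HasseNorm

variable {K : Type*} [Field K] [NumberField K] {p : ℕ}

/-- the idele classes which are represented by global elements which are local norms outside. -/
def globNorm {ι : Type} (p : ℕ) (a : K) (e : ι → LocEmb K) : Subgroup (∀ i, ((e i).L)ˣ) where
  carrier := {x | ∃ y : Kˣ, (∀ i, (e i).toU y / x i ∈ (e i).N p a) ∧
    ∀ e' : LocEmb K, (∀ i, (e i).v ≠ e'.v) → e'.toU y ∈ e'.N p a}
  one_mem' := ⟨1, fun i ↦ by rw [map_one, Pi.one_apply, div_one]; exact Subgroup.one_mem _,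
    fun e' _ ↦ by rw [map_one]; exact Subgroup.one_mem _⟩
  mul_mem' := by
    rintro x y ⟨s, hs1, hs2⟩ ⟨t, ht1, ht2⟩
    refine ⟨s * t, fun i ↦ ?_, fun e' he' ↦ ?_⟩
    · rw [map_mul, Pi.mul_apply, mul_div_mul_comm]
      exact mul_mem (hs1 i) (ht1 i)
    · rw [map_mul]
      exact mul_mem (hs2 e' he') (ht2 e' he')
  inv_mem' := by
    rintro x ⟨s, hs1, hs2⟩
    refine ⟨s⁻¹, fun i ↦ ?_, fun e' he' ↦ ?_⟩
    · rw [map_inv, Pi.inv_apply, inv_div_inv, ← inv_div]
      exact inv_mem (hs1 i)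
    · rw [map_inv]
      exact inv_mem (hs2 e' he')

theorem mem_globNorm {ι : Type} {a : K} {e : ι → LocEmb K} {x : ∀ i, ((e i).L)ˣ} :
    x ∈ globNorm p a e ↔ ∃ y : Kˣ, (∀ i, (e i).toU y / x i ∈ (e i).N p a) ∧
      ∀ e' : LocEmb K, (∀ i, (e i).v ≠ e'.v) → e'.toU y ∈ e'.N p a := Iff.rfl

theorem exists_family (S : Set (HeightOneSpectrum (𝓞 K))) (hS : S.Finite) :
    ∃ (n : ℕ) (e : Fin n → LocEmb K), (Function.Injective fun i ↦ (e i).v) ∧ pls e = S := by
  have : Finite S := hS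
  let eq := Finite.equivFin S
  choose f hf using (LocEmb.exists_locEmb K)
  refine ⟨Nat.card S, fun i ↦ f (eq.symm i), ?_, ?_⟩
  · intro i j hij
    simp only [hf] at hij
    exact eq.symm.injective (Subtype.ext hij)
  · ext v
    constructor
    · rintro ⟨i, rfl⟩
      simp only [hf]
      exact (eq.symm i).2
    · intro hv
      refine ⟨eq ⟨v, hv⟩, ?_⟩
      simp only [hf, Equiv.symm_apply_apply]

theorem finite_mem (hp : p ≠ 0) :
    {v : HeightOneSpectrum (𝓞 K) | (p : 𝓞 K) ∈ v.asIdeal}.Finite := by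
  have hpK : (p : 𝓞 K) ≠ 0 := by exact_mod_cast hp
  have h1 := Ideal.finite_factors (R := 𝓞 K) (I := Ideal.span {(p : 𝓞 K)}) (by
    rw [Ne, Ideal.zero_eq_bot, Ideal.span_singleton_eq_bot]; exact hpK)
  refine h1.subset fun v hv ↦ ?_
  change v.asIdeal ∣ Ideal.span {(p : 𝓞 K)}
  rw [Ideal.dvd_span_singleton]
  exact hv

/-- auxiliary places exist -/
theorem exists_aux' (hp : p.Prime) (hp2 : p ≠ 2) {ζ : K} (hζ : IsPrimitiveRoot ζ p)
    {ι : Type} [Fintype ι] {e : ι → LocEmb K} {a : Kˣ}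
    (he : Function.Injective fun i ↦ (e i).v)
    (hSp : ∀ v : HeightOneSpectrum (𝓞 K), (p : 𝓞 K) ∈ v.asIdeal → v ∈ pls e) :
    ∃ (κ : Type) (_ : Fintype κ) (T : κ → LocEmb K),
      Fintype.card κ = Fintype.card ι + NumberField.Units.rank K ∧
      Aux p (a : K) ((pls e).unit K) (pls e) T := by
  refine exists_aux hp hp2 hζ (relIndex_pw_unit hp hζ (pls e)) (Set.toFinite _) hSp
    (fun x hx v hv ↦ hx v hv) _ ?_
  rw [card_pls he, Nat.card_eq_fintype_card]
  exact Nat.lt_succ_self _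

theorem second_inequality_aux (hp : p.Prime) (hp2 : p ≠ 2) {ζ : K} (hζ : IsPrimitiveRoot ζ p)
    {ι : Type} [Fintype ι] {e : ι → LocEmb K} {a : Kˣ}
    (he : Function.Injective fun i ↦ (e i).v) (hS : ClassTrivial (pls e))
    (hSp : ∀ v : HeightOneSpectrum (𝓞 K), (p : 𝓞 K) ∈ v.asIdeal → v ∈ pls e)
    (ha : a ∈ (pls e).unit K) :
    (globNorm p (a : K) e).index ≤ p ∧ (globNorm p (a : K) e).index ≠ 0 := by
  obtain ⟨κ, _, T, hκ, hT⟩ := exists_aux' (a := a) hp hp2 hζ he hSp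
  obtain ⟨h1, h0⟩ := index_le hp hp2 hζ he hS hSp le_rfl hT hκ
  have hle : ((pls e ∪ pls T).unit K).map (diag e) ⊔ PV p e ≤ globNorm p (a : K) e := by
    refine sup_le ?_ ?_
    · rintro _ ⟨y, hy, rfl⟩
      refine ⟨y, fun i ↦ ?_, fun e' he' ↦ ?_⟩
      · rw [diag_apply, div_self']
        exact Subgroup.one_mem _
      · have he'S : e'.v ∉ pls e := by
          rintro ⟨i, hi⟩
          exact he' i hi
        have hpq : p ≠ e'.q := fun h ↦ he'S (hSp _ ((e'.q_eq_iff hp).1 h))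
        by_cases h : e'.v ∈ pls T
        · obtain ⟨j, hj⟩ := h
          have h2 : IsPowMod e'.v p (a : K) := by
            have h3 : (T j).v = e'.v := hj
            rw [← h3]
            exact hT.isPow j
          rw [LocEmb.N, normGrp_eq_top ((e'.isPow_iff hp hp2 hpq (ha _ he'S)).2 h2)]
          exact Subgroup.mem_top _
        · exact e'.toU_mem_N_of_unit hp hp2 hpq hζ (ha _ he'S) y (hy _ (by
            rw [Set.mem_union, not_or]; exact ⟨he'S, h⟩))
    · intro x hx
      rw [mem_PV] at hx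
      refine ⟨1, fun i ↦ ?_, fun e' _ ↦ by rw [map_one]; exact Subgroup.one_mem _⟩
      rw [map_one, one_div]
      exact inv_mem (range_pow_le_normGrp hp (hx i))
  have hdvd := Subgroup.index_dvd_of_le hle
  exact ⟨(Nat.le_of_dvd (Nat.pos_of_ne_zero h0) hdvd).trans h1,
    fun h ↦ h0 (by rw [h, zero_dvd_iff] at hdvd; exact hdvd)⟩

/-- **The second inequality** for Kummer extensions of odd prime degree. -/
theorem second_inequality (hp : p.Prime) (hp2 : p ≠ 2) {ζ : K} (hζ : IsPrimitiveRoot ζ p)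
    {ι : Type} [Finite ι] (e : ι → LocEmb K) {a : K} (ha : a ≠ 0)
    (he : Function.Injective fun i ↦ (e i).v) :
    (globNorm p a e).index ≤ p ∧ (globNorm p a e).index ≠ 0 := by
  have := Fintype.ofFinite ι
  let a' : Kˣ := Units.mk0 a ha
  obtain ⟨S, hSf, hSle, hS⟩ := exists_classTrivial K
    (pls e ∪ {v : HeightOneSpectrum (𝓞 K) | (p : 𝓞 K) ∈ v.asIdeal} ∪
      {v : HeightOneSpectrum (𝓞 K) | v.valuation K (a' : K) ≠ 1})
    (((Set.finite_range _).union (finite_mem hp.ne_zero)).union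
      (ChoosePrime.finite_valuation_ne_one a'))
  obtain ⟨n, e₁, he₁, hpls₁⟩ := exists_family (S \ pls e) (hSf.subset Set.sdiff_subset)
  have hdisj : ∀ j, (e₁ j).v ∉ pls e := by
    intro j
    have h1 : (e₁ j).v ∈ pls e₁ := mem_pls e₁ j
    rw [hpls₁] at h1
    exact h1.2
  have hinj := injective_sum he he₁ hdisj
  have hpls : pls (Sum.elim e e₁) = S := by
    rw [pls_sum, hpls₁, Set.union_sdiff_cancel]
    exact fun v hv ↦ hSle (Or.inl (Or.inl hv))
  obtain ⟨h1, h0⟩ := second_inequality_aux (a := a') hp hp2 hζ hinj (by rwa [hpls])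
    (fun v hv ↦ by rw [hpls]; exact hSle (Or.inl (Or.inr hv)))
    (fun v hv ↦ by
      rw [hpls] at hv
      by_contra hne
      exact hv (hSle (Or.inr hne)))
  let f : (∀ i, ((e i).L)ˣ) →* (∀ i, ((Sum.elim e e₁ i).L)ˣ) :=
    { toFun := fun x i ↦ match i with
        | Sum.inl i => x i
        | Sum.inr _ => 1
      map_one' := by funext i; rcases i with i | i <;> rfl
      map_mul' := by
        intro x y
        funext i
        rcases i with i | i
        · rfl
        · exact (one_mul 1).symm }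
  have hle : (globNorm p (a' : K) (Sum.elim e e₁)).comap f ≤ globNorm p a e := by
    rintro x ⟨y, hy1, hy2⟩
    refine ⟨y, fun i ↦ hy1 (Sum.inl i), fun e' he' ↦ ?_⟩
    by_cases h : e'.v ∈ pls e₁
    · obtain ⟨j, hj⟩ := h
      have h2 : (e₁ j).toU y / 1 ∈ (e₁ j).N p a := hy1 (Sum.inr j)
      rw [div_one] at h2
      exact LocEmb.mem_N_of_v_eq hj hp h2
    · apply hy2
      rintro (i | i)
      · exact he' i
      · exact fun h' ↦ h ⟨i, h'⟩
  have hdvd := Subgroup.index_dvd_of_le hle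
  rw [Subgroup.index_comap] at hdvd
  have hdvd2 := hdvd.trans (Subgroup.relIndex_dvd_index_of_normal _ _)
  exact ⟨(Nat.le_of_dvd (Nat.pos_of_ne_zero h0) hdvd2).trans h1,
    fun h ↦ h0 (by rw [h, zero_dvd_iff] at hdvd2; exact hdvd2)⟩

theorem not_isPow_of_data {F : Type*} [Field F] [Algebra K F] {ζ a : K} {α : F}
    {σ : F ≃ₐ[K] F} (hD : Kummer.Data K F p ζ a α σ) (hp : p.Prime) (hζ : IsPrimitiveRoot ζ p)
    (hα : α ≠ 0) (c : K) : c ^ p ≠ a := by
  intro hc
  obtain ⟨i, -, hi⟩ := Kummer.eq_pow_mul_of_pow_eq (K := K) (L := F) (x := α)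
    (y := algebraMap K F c) hζ hp.pos (by rw [← map_pow, hc, hD.pow_eq])
  have h1 : σ α = α := by
    rw [hi, map_mul, map_pow, AlgEquiv.commutes, AlgEquiv.commutes]
  rw [hD.apply_root] at h1
  have h2 : algebraMap K F ζ = 1 := mul_right_cancel₀ hα (h1.trans (one_mul α).symm)
  rw [map_eq_one_iff _ (algebraMap K F).injective] at h2
  exact hζ.ne_one hp.one_lt h2

/-- **The Hasse norm theorem** for Kummer extensions of odd prime degree. -/
theorem hasse_norm (hp : p.Prime) (hp2 : p ≠ 2) {ζ : K} (hζ : IsPrimitiveRoot ζ p)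
    {F : Type*} [Field F] [NumberField F] [Algebra K F] {a : K} {α : F} {σ : F ≃ₐ[K] F}
    (hD : Kummer.Data K F p ζ a α σ) (hα : α ≠ 0) (x : Kˣ)
    (hx : ∀ e : LocEmb K, e.toU x ∈ e.N p a) :
    ∃ y : Fˣ, Units.map (Algebra.norm K : F →* K) y = x := by
  have ha : a ≠ 0 := by
    rintro rfl
    exact not_isPow_of_data hD hp hζ hα 0 (zero_pow hp.ne_zero)
  let a' : Kˣ := Units.mk0 a ha
  obtain ⟨S, hSf, hSle, hS⟩ := exists_classTrivial K
    ({v : HeightOneSpectrum (𝓞 K) | (p : 𝓞 K) ∈ v.asIdeal} ∪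
      {v : HeightOneSpectrum (𝓞 K) | v.valuation K (a' : K) ≠ 1} ∪
      {v : HeightOneSpectrum (𝓞 K) | v.valuation K (x : K) ≠ 1})
    (((finite_mem hp.ne_zero).union (ChoosePrime.finite_valuation_ne_one a')).union
      (ChoosePrime.finite_valuation_ne_one x))
  obtain ⟨n, e, he, hpls⟩ := exists_family S hSf
  subst hpls
  have hSp : ∀ v : HeightOneSpectrum (𝓞 K), (p : 𝓞 K) ∈ v.asIdeal → v ∈ pls e :=
    fun v hv ↦ hSle (Or.inl (Or.inl hv))
  have haS : a' ∈ (pls e).unit K := fun v hv ↦ by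
    by_contra hne
    exact hv (hSle (Or.inl (Or.inr hne)))
  have hxS : x ∈ (pls e).unit K := fun v hv ↦ by
    by_contra hne
    exact hv (hSle (Or.inr hne))
  obtain ⟨κ, _, T, hκ, hT⟩ := exists_aux' (a := a') hp hp2 hζ he hSp
  obtain ⟨h1, h0⟩ := index_le hp hp2 hζ he hS hSp le_rfl hT hκ
  have hST : ∀ j, (T j).v ∉ pls e := hT.not_mem
  have hinj := injective_sum he hT.inj hST
  have hpls := pls_sum e T
  obtain ⟨h2, h3⟩ := index_formula (Sum.elim e T) hinj hD hp hp2 hζ hα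
    (hS.mono (by rw [hpls]; exact Set.subset_union_left))
    (fun v hv ↦ by rw [hpls]; exact Or.inl (hSp v hv))
    (fun v hv ↦ haS v (fun h ↦ hv (by rw [hpls]; exact Or.inl h)))
  let π : (∀ i, ((Sum.elim e T i).L)ˣ) →* (∀ i, ((e i).L)ˣ) :=
    { toFun := fun x i ↦ x (Sum.inl i)
      map_one' := rfl
      map_mul' := fun x y ↦ rfl }
  have hπ : Function.Surjective π := by
    intro z
    refine ⟨fun i ↦ match i with
        | Sum.inl i => z i
        | Sum.inr _ => 1, rfl⟩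
  have hle : (((pls e ∪ pls T).unit K).map (diag e) ⊔ PV p e).comap π ≤
      ((pls (Sum.elim e T)).unit K).map (diag (Sum.elim e T)) ⊔ H (Sum.elim e T) p a := by
    intro z hz
    rw [Subgroup.mem_comap, Subgroup.mem_sup] at hz
    obtain ⟨_, ⟨y, hy, rfl⟩, w, hw, hyw⟩ := hz
    rw [mem_PV] at hw
    have h4 : z = diag (Sum.elim e T) y * ((diag (Sum.elim e T) y)⁻¹ * z) := by
      rw [mul_inv_cancel_left]
    rw [h4]
    refine Subgroup.mul_mem_sup ⟨y, by rwa [hpls], rfl⟩ ?_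
    rw [mem_H]
    rintro (i | j)
    · have h5 := congrFun hyw i
      let zi : ((e i).L)ˣ := z (Sum.inl i)
      have h6 : (e i).toU y * w i = zi := h5
      have h7 : ((e i).toU y)⁻¹ * zi ∈ (e i).N p a := by
        rw [← h6, inv_mul_cancel_left]
        exact range_pow_le_normGrp hp (hw i)
      exact h7
    · have hpq : p ≠ (T j).q := fun h ↦ hST j (hSp _ (((T j).q_eq_iff hp).1 h))
      have h8 : (T j).N p a = ⊤ :=
        normGrp_eq_top (((T j).isPow_iff hp hp2 hpq (haS _ (hST j))).2 (hT.isPow j))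
      change _ ∈ (T j).N p a
      rw [h8]
      exact Subgroup.mem_top _
  have hdvd := Subgroup.index_dvd_of_le hle
  rw [Subgroup.index_comap_of_surjective _ hπ] at hdvd
  have h9 := (Nat.le_of_dvd (Nat.pos_of_ne_zero h0) hdvd).trans h1
  rw [h2] at h9 h3
  have h10 : (((SUH.above F (pls (Sum.elim e T))).unit F).map (SUH.nrm K F)).relIndex
      ((pls (Sum.elim e T)).unit K ⊓ (H (Sum.elim e T) p a).comap (diag (Sum.elim e T))) = 1 := by
    have h11 := (mul_ne_zero_iff.1 h3).2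
    have h12 : _ ≤ p * 1 := h9.trans_eq (mul_one p).symm
    have h13 := Nat.le_of_mul_le_mul_left h12 hp.pos
    omega
  rw [Subgroup.relIndex_eq_one] at h10
  have hxmem : x ∈ (pls (Sum.elim e T)).unit K ⊓
      (H (Sum.elim e T) p a).comap (diag (Sum.elim e T)) := by
    refine Subgroup.mem_inf.2
      ⟨fun v hv ↦ hxS v (fun h ↦ hv (by rw [hpls]; exact Or.inl h)), ?_⟩
    rw [Subgroup.mem_comap, mem_H]
    intro i
    exact hx _
  obtain ⟨y, -, hy⟩ := h10 hxmem
  exact ⟨y, hy⟩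

end Fermat.Agent.CFT.HasseNorm
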