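import Mathlib
import Fermat.Agent.CFT.NormGrp

/-!
# Norm groups of Kummer extensions in terms of Galois groups

For an intermediate field `L` of a Galois extension `Ω / k`, an element `a` of `L` with `p`-th root
`α ∈ Ω` and `s ∈ Gal(Ω/L)` with `s α ≠ α`, the elements of `normGrp L p a` are the products
`∏_{j < p} s ^ j b` with `b` fixed by the stabilizer of `α` in `Gal(Ω/L)`.
-/

set_option autoImplicit false
set_option linter.unusedSectionVars false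

open Module Polynomial IntermediateField
open Fermat.Agent.CFT.NormGrp

namespace Fermat.Agent.CFT.NormGal

variable {k Ω : Type*} [Field k] [Field Ω] [Algebra k Ω] [IsGalois k Ω]
  (L : IntermediateField k Ω) {p : ℕ}

/-- `s ∈ Gal(Ω/L)` as an automorphism over `L`. -/
theorem exists_algEquiv {s : Ω ≃ₐ[k] Ω} (hs : s ∈ L.fixingSubgroup) :
    ∃ s' : Ω ≃ₐ[L] Ω, ∀ x, s' x = s x :=
  ⟨IntermediateField.fixingSubgroupEquiv L ⟨s, hs⟩, fun _ ↦ rfl⟩

theorem mem_of_fixed {x : Ω} (h : ∀ v ∈ L.fixingSubgroup, v x = x) : x ∈ L := by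
  rw [← InfiniteGalois.fixedField_fixingSubgroup L]
  exact fun v ↦ h v.1 v.2

theorem mem_iff_fixed {x : Ω} : x ∈ L ↔ ∀ v ∈ L.fixingSubgroup, v x = x :=
  ⟨fun h _ hv ↦ (IntermediateField.mem_fixingSubgroup_iff _ _).1 hv x h, mem_of_fixed L⟩

/-- the ratio `s α / α` is a primitive root of unity -/
theorem exists_primitiveRoot (hp : p.Prime) {ζ : L} (hζ : IsPrimitiveRoot ζ p) {a : L} {α : Ω}
    (hα : α ^ p = (a : Ω)) {s : Ω ≃ₐ[k] Ω} (hs : s ∈ L.fixingSubgroup) (hsα : s α ≠ α) :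
    ∃ ζ' : L, IsPrimitiveRoot ζ' p ∧ s α = (ζ' : Ω) * α := by
  have hsa : s (a : Ω) = a := (IntermediateField.mem_fixingSubgroup_iff _ _).1 hs _ a.2
  obtain ⟨i, hi, hi2⟩ := Kummer.eq_pow_mul_of_pow_eq (K := L) (x := s α) (y := α) hζ hp.pos (by
    rw [← map_pow, hα, hsa])
  refine ⟨ζ ^ i, hζ.pow_of_coprime i ?_, ?_⟩
  · rw [Nat.coprime_comm, hp.coprime_iff_not_dvd]
    intro h
    have h0 : i = 0 := Nat.eq_zero_of_dvd_of_lt h hi
    apply hsα
    rw [hi2, h0, pow_zero, one_mul]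
  · rw [hi2]
    rfl

/-- The restriction of `s` to `L(α)`, as a Kummer datum. -/
theorem exists_data (hp : p.Prime) {ζ : L} (hζ : IsPrimitiveRoot ζ p) {a : L} {α : Ω}
    (hα : α ^ p = (a : Ω)) {s : Ω ≃ₐ[k] Ω} (hs : s ∈ L.fixingSubgroup) (hsα : s α ≠ α) :
    (∀ c : L, c ^ p ≠ a) ∧ ∃ (ζ' : L) (σ : L⟮α⟯ ≃ₐ[L] L⟮α⟯), IsPrimitiveRoot ζ' p ∧
      Kummer.Data L L⟮α⟯ p ζ' a (IntermediateField.AdjoinSimple.gen L α) σ ∧
      ∀ (i : ℕ) (y : L⟮α⟯), (s ^ i) (y : Ω) = ((σ ^ i) y : L⟮α⟯) := by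
  obtain ⟨ζ', hζ', hsα'⟩ := exists_primitiveRoot L hp hζ hα hs hsα
  have hα' : α ^ p = algebraMap L Ω a := hα
  have ha : ∀ c : L, c ^ p ≠ a := by
    intro c hc
    obtain ⟨i, hi, hi2⟩ := Kummer.eq_pow_mul_of_pow_eq (K := L) (x := α) (y := (c : Ω)) hζ hp.pos (by
      rw [hα, ← hc]; rfl)
    apply hsα
    have h1 : α ∈ L := by
      rw [hi2]
      exact mul_mem (pow_mem (ζ : L).2 i) c.2
    exact (IntermediateField.mem_fixingSubgroup_iff _ _).1 hs _ h1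
  have hmin := Kummer.minpoly_eq hp ha hα'
  have hint : IsIntegral L α := (Algebra.IsIntegral.isIntegral (R := k) α).tower_top
  have hfr : finrank L L⟮α⟯ = p := by
    rw [IntermediateField.adjoin.finrank hint, hmin, natDegree_X_pow_sub_C]
  have hgen : (IntermediateField.AdjoinSimple.gen L α) ^ p = algebraMap L L⟮α⟯ a := by
    apply Subtype.ext
    exact hα'
  obtain ⟨σ, hD⟩ := Kummer.exists_data hp hζ' ha hgen hfr
  refine ⟨ha, ζ', σ, hζ', hD, ?_⟩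
  obtain ⟨s', hs'⟩ := exists_algEquiv L hs
  have h1 : (s' : Ω →ₐ[L] Ω).comp (L⟮α⟯).val = (L⟮α⟯).val.comp (σ : L⟮α⟯ →ₐ[L] L⟮α⟯) := by
    apply IntermediateField.algHom_ext_of_eq_adjoin (E := Ω) (s := ({α} : Set Ω)) _ rfl
    intro x hx
    rw [Set.mem_singleton_iff] at hx
    subst hx
    change s' x = ((σ (IntermediateField.AdjoinSimple.gen L x) : L⟮x⟯) : Ω)
    rw [hD.apply_root, hs', hsα']
    rfl
  have h2 : ∀ y : L⟮α⟯, s (y : Ω) = (σ y : L⟮α⟯) := fun y ↦ by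
    rw [← hs']
    exact DFunLike.congr_fun h1 y
  intro i
  induction i with
  | zero => intro y; rfl
  | succ i ih =>
    intro y
    rw [pow_succ, pow_succ, AlgEquiv.mul_apply, AlgEquiv.mul_apply, h2, ih]

theorem mem_adjoin_iff {α x : Ω} :
    x ∈ L⟮α⟯ ↔ ∀ v ∈ L.fixingSubgroup, v α = α → v x = x := by
  constructor
  · intro hx v hv hvα
    obtain ⟨v', hv'⟩ := exists_algEquiv L hv
    have h1 : (v' : Ω →ₐ[L] Ω).comp (L⟮α⟯).val = (L⟮α⟯).val := by
      apply IntermediateField.algHom_ext_of_eq_adjoin (E := Ω) (s := ({α} : Set Ω)) _ rfl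
      intro y hy
      rw [Set.mem_singleton_iff] at hy
      subst hy
      change v' y = y
      rw [hv', hvα]
    rw [← hv']
    exact DFunLike.congr_fun h1 ⟨x, hx⟩
  · intro h
    have h1 : x ∈ (L⟮α⟯).restrictScalars k := by
      apply mem_of_fixed
      intro v hv
      rw [IntermediateField.mem_fixingSubgroup_iff] at hv
      refine h v ?_ (hv α ?_)
      · rw [IntermediateField.mem_fixingSubgroup_iff]
        intro y hy
        refine hv y ?_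
        rw [IntermediateField.mem_restrictScalars]
        exact (L⟮α⟯).algebraMap_mem ⟨y, hy⟩
      · rw [IntermediateField.mem_restrictScalars]
        exact IntermediateField.mem_adjoin_simple_self L α
    exact h1

/-- **Norm groups in terms of Galois groups.** -/
theorem mem_normGrp_iff (hp : p.Prime) {ζ : L} (hζ : IsPrimitiveRoot ζ p) {a : L} {α : Ω}
    (hα : α ^ p = (a : Ω)) {s : Ω ≃ₐ[k] Ω} (hs : s ∈ L.fixingSubgroup) (hsα : s α ≠ α) (x : Lˣ) :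
    x ∈ normGrp L p a ↔ ∃ b : Ωˣ, (∀ v ∈ L.fixingSubgroup, v α = α → v (b : Ω) = b) ∧
      ((x : L) : Ω) = ∏ j ∈ Finset.range p, (s ^ j) (b : Ω) := by
  obtain ⟨ha, ζ', σ, hζ', hD, hσ⟩ := exists_data L hp hζ hα hs hsα
  have key : ∀ y : L⟮α⟯, ∏ j ∈ Finset.range p, (s ^ j) (y : Ω) = (Algebra.norm L y : L) := by
    intro y
    have h1 := congrArg (fun z : L⟮α⟯ ↦ (z : Ω)) (prod_pow_eq_norm hD hp y)
    have h2 : ((algebraMap L L⟮α⟯ (Algebra.norm L y) : L⟮α⟯) : Ω) = (Algebra.norm L y : L) := rfl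
    rw [← h2, ← h1]
    rw [show ((∏ i ∈ Finset.range p, (σ ^ i) y : L⟮α⟯) : Ω) =
      (L⟮α⟯).val (∏ i ∈ Finset.range p, (σ ^ i) y) from rfl, map_prod]
    exact Finset.prod_congr rfl fun i _ ↦ hσ i y
  rw [normGrp_eq_range hp ha hD.finrank_eq hD.pow_eq]
  constructor
  · rintro ⟨y, rfl⟩
    refine ⟨Units.map ((L⟮α⟯).val : L⟮α⟯ →* Ω) y, ?_, ?_⟩
    · exact (mem_adjoin_iff L).1 (y : L⟮α⟯).2
    · exact (key _).symm
  · rintro ⟨b, hb, hx⟩
    have hbF : (b : Ω) ∈ L⟮α⟯ := (mem_adjoin_iff L).2 hb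
    have hb0 : (⟨b, hbF⟩ : L⟮α⟯) ≠ 0 := fun h ↦ b.ne_zero (congrArg Subtype.val h)
    refine ⟨Units.mk0 _ hb0, ?_⟩
    apply Units.ext
    apply Subtype.ext
    rw [hx]
    exact (key ⟨b, hbF⟩).symm

/-- the split case -/
theorem normGrp_eq_top_of_mem {a : L} {α : Ω} (hα : α ^ p = (a : Ω)) (hαL : α ∈ L) :
    normGrp L p a = ⊤ :=
  normGrp_eq_top ⟨⟨α, hαL⟩, Subtype.ext hα⟩

/-- the split case -/
theorem normGrp_eq_top_of_fixed {a : L} {α : Ω} (hα : α ^ p = (a : Ω))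
    (h : ∀ v ∈ L.fixingSubgroup, v α = α) : normGrp L p a = ⊤ :=
  normGrp_eq_top_of_mem L hα (mem_of_fixed L h)

end Fermat.Agent.CFT.NormGal
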