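import Fermat.Agent.CFT.PT.Main
import Fermat.Agent.CFT.LC.Wire55
import Fermat.Agent.CFT.LD.Padic
import Fermat.Agent.CFT.Hasse.Recip
import Fermat.Agent.CFT.D2.HG3
import Fermat.Agent.CFT.D3.Final

/-!
# Poitou–Tate duality over `ℚ`: the concrete package
-/

set_option autoImplicit false

open CategoryTheory Module ExtCitation
open Fermat.Agent.CFT.LC Fermat.Agent.CFT.PT

namespace Fermat.Agent.CFT

local notation "ΓQ" => (AlgebraicClosure ℚ ≃ₐ[ℚ] AlgebraicClosure ℚ)

/-- The data of duality for `G_{ℚ,S}` with coefficients killed by `p`. -/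
structure PTData (p : ℕ) [Fact p.Prime] (S : Finset Nat.Primes) where
  /-- local duality -/
  D : ∀ v : ↥S, LocalDuality (lvlOver (primeLocalToGlobal v.1))
    ((cycloChar p).comp (primeLocalToGlobal v.1)) (if p = (v.1 : ℕ) then 1 else 0)
  hRec : HRec (unram S) (cycloChar p) (fun v : ↥S => lvlOver (primeLocalToGlobal v.1))
    (fun v : ↥S => primeLocalToGlobal v.1) (cont_locS S) fun v => (D v).inv
  hG2 : HG2 (unram S) (cycloChar p) (fun v : ↥S => lvlOver (primeLocalToGlobal v.1))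
    (fun v : ↥S => primeLocalToGlobal v.1) (cont_locS S)
  hG3 : HG3 (k := ZMod p) (unram S) (cycloChar p)
  hχ : ContChar (unram S) (cycloChar p)

variable {p : ℕ} [hp : Fact p.Prime]

theorem exists_ptData (hp2 : p ≠ 2) (S : Finset Nat.Primes) (hpS : pPrime p ∈ S) :
    Nonempty (PTData p S) := by
  obtain ⟨inv, hinv⟩ := Hasse.exists_hrec_equiv hp2 S hpS
  let D : ∀ v : ↥S, LocalDuality (lvlOver (primeLocalToGlobal v.1))
    ((cycloChar p).comp (primeLocalToGlobal v.1)) (if p = (v.1 : ℕ) then 1 else 0) :=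
    fun v => LD.localDualityPrime v.1 p hp2 (inv v)
  have hRec : HRec (unram S) (cycloChar p) (fun v : ↥S => lvlOver (primeLocalToGlobal v.1))
    (fun v : ↥S => primeLocalToGlobal v.1) (cont_locS S) fun v => (D v).inv := hinv
  have hχ : ContChar (unram S) (cycloChar p) := by
    obtain ⟨N, hN, h⟩ := isOpen_unram_ker_cycloChar (p := p) hpS
    exact ⟨N, hN, h⟩
  exact ⟨{
    D := D
    hRec := hRec
    hG2 := D3.hg2_prime hp2 hpS
    hG3 := D2.hG3_of_rec hp2 hpS D hRec
    hχ := hχ }⟩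

theorem sum_delta (S : Finset Nat.Primes) (hpS : pPrime p ∈ S) :
    ∑ v : ↥S, (if p = (v.1 : ℕ) then 1 else 0) = 1 := by
  rw [Finset.sum_eq_single ⟨pPrime p, hpS⟩]
  · exact if_pos rfl
  · intro v _ hv
    rw [if_neg]
    intro h
    exact hv (Subtype.ext (Subtype.ext h.symm))
  · intro h
    exact absurd (Finset.mem_univ _) h

theorem finrank_sha (hp2 : p ≠ 2) (S : Finset Nat.Primes) (hpS : pPrime p ∈ S)
    {V : Type} [AddCommGroup V] [Module (ZMod p) V] [FiniteDimensional (ZMod p) V]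
    (ρ : Representation (ZMod p) ΓQ V) (hρ : Smooth (unram S) ρ) :
    FiniteDimensional (ZMod p) (PT.Sha2 (unram S)
      (fun q : ↥S => lvlOver (primeLocalToGlobal q.1)) (fun q => primeLocalToGlobal q.1)
      (cont_locS S) ρ) ∧
    FiniteDimensional (ZMod p) (PT.Sha1 (unram S)
      (fun q : ↥S => lvlOver (primeLocalToGlobal q.1)) (fun q => primeLocalToGlobal q.1)
      (cont_locS S) (PT.dtw ρ (cycloChar p))) ∧
    finrank (ZMod p) (PT.Sha2 (unram S)
      (fun q : ↥S => lvlOver (primeLocalToGlobal q.1)) (fun q => primeLocalToGlobal q.1)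
      (cont_locS S) ρ) =
    finrank (ZMod p) (PT.Sha1 (unram S)
      (fun q : ↥S => lvlOver (primeLocalToGlobal q.1)) (fun q => primeLocalToGlobal q.1)
      (cont_locS S) (PT.dtw ρ (cycloChar p))) := by
  obtain ⟨P⟩ := exists_ptData hp2 S hpS
  have : Nonempty ↥S := ⟨⟨pPrime p, hpS⟩⟩
  exact poitouTate (p := p) P.D (sum_delta S hpS) P.hRec P.hG2 P.hG3 P.hχ ρ hρ

end Fermat.Agent.CFT
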